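import Fermat.Agent.FFBasic.Discrete
import Fermat.Agent.FFBasic.Degree
import Mathlib.RingTheory.Valuation.LocalSubring
import Mathlib.RingTheory.Polynomial.Basic
import Fermat.Agent.FFBasic.AdjoinFrac

/-!
# The place at a simple point of a plane model

For `F = K(s, z)` with a relation `H(s, z) = 0`: at most one place reduces `(s, z)` to a simple
point (`unique`) and `s - a` is a uniformiser there (`ord_eq_one`); when the relation is monic
of full degree every point is reached (`exists_reducesTo`). Used by `Cusps`.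
-/

set_option autoImplicit false

noncomputable section

open Polynomial AlgebraicCurve

namespace FLTAgent.MazurModuli

open FLTAgent.FFBasic

variable {K F : Type*} [Field K] [Field F] [Algebra K F]

/-- `P ↦ P(s, z)`, the inner variable going to `s`. -/
def ev2 (s z : F) : Polynomial (Polynomial K) →+* F :=
  eval₂RingHom (eval₂RingHom (algebraMap K F) s) z

/-- `P ↦ P(a, b)`. -/
def val2 (a b : K) : Polynomial (Polynomial K) →+* K :=
  eval₂RingHom (evalRingHom a) b

theorem val2_apply (a b : K) (P : Polynomial (Polynomial K)) :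
    val2 a b P = (P.eval (C b)).eval a := by
  induction P using Polynomial.induction_on' with
  | add u w hu hw => simp [map_add, hu, hw]
  | monomial n c => simp [val2]

@[simp] theorem ev2_C (s z : F) (q : Polynomial K) :
    ev2 s z (C q) = q.eval₂ (algebraMap K F) s := by
  simp [ev2]

@[simp] theorem ev2_X (s z : F) : ev2 (K := K) s z X = z := by simp [ev2]

/-- `(s, z)` reduces to `(a, b)` at `v`. -/
structure ReducesTo (v : Place K F) (s z : F) (a b : K) : Prop where
  fst : s - algebraMap K F a ∈ filt v 1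
  snd : z - algebraMap K F b ∈ filt v 1

theorem algebraMap_mem_filt_zero (v : Place K F) (c : K) : algebraMap K F c ∈ filt v 0 :=
  mem_filt_zero.mpr (v.algebraMap_mem' c)

theorem exists_decomp (a b : K) (P : Polynomial (Polynomial K)) :
    ∃ (p₁ : Polynomial K) (P₂ : Polynomial (Polynomial K)),
      P = C (C (val2 a b P)) + C ((X - C a) * p₁) + (X - C (C b)) * P₂ := by
  obtain ⟨P₂, hP₂⟩ := X_sub_C_dvd_sub_C_eval (a := C b) (p := P)
  obtain ⟨p₁, hp₁⟩ := X_sub_C_dvd_sub_C_eval (a := a) (p := P.eval (C b))
  refine ⟨p₁, P₂, ?_⟩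
  rw [val2_apply, ← hp₁, map_sub, ← hP₂]
  ring

namespace ReducesTo

variable {v : Place K F} {s z : F} {a b : K} (h : ReducesTo v s z a b)

include h

theorem mem_fst : s ∈ filt v 0 := by
  rw [show s = (s - algebraMap K F a) + algebraMap K F a by ring]
  exact add_mem (filt_antitone v zero_le_one h.fst) (algebraMap_mem_filt_zero v a)

theorem mem_snd : z ∈ filt v 0 := by
  rw [show z = (z - algebraMap K F b) + algebraMap K F b by ring]
  exact add_mem (filt_antitone v zero_le_one h.snd) (algebraMap_mem_filt_zero v b)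

theorem ev2_mem (P : Polynomial (Polynomial K)) : ev2 s z P ∈ v.toValuationSubring := by
  induction P using Polynomial.induction_on' with
  | add u w hu hw => rw [map_add]; exact add_mem hu hw
  | monomial n q =>
    rw [← C_mul_X_pow_eq_monomial, map_mul, map_pow, ev2_X, ev2_C]
    refine mul_mem ?_ (pow_mem (mem_filt_zero.mp h.mem_snd) n)
    induction q using Polynomial.induction_on' with
    | add u w hu hw => rw [eval₂_add]; exact add_mem hu hw
    | monomial m c =>
      rw [eval₂_monomial]
      exact mul_mem (v.algebraMap_mem' c) (pow_mem (mem_filt_zero.mp h.mem_fst) m)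

theorem ev2_sub_mem (P : Polynomial (Polynomial K)) :
    ev2 s z P - algebraMap K F (val2 a b P) ∈ filt v 1 := by
  obtain ⟨p₁, P₂, hP⟩ := exists_decomp a b P
  have e : ev2 s z P - algebraMap K F (val2 a b P) =
      (s - algebraMap K F a) * ev2 s z (C p₁) + (z - algebraMap K F b) * ev2 s z P₂ := by
    conv_lhs => arg 1; rw [hP]
    simp only [map_add, map_mul, map_sub, ev2_C, ev2_X, eval₂_C, eval₂_X]
    ring
  rw [e]
  exact add_mem
    (by simpa using mul_mem_filt h.fst (mem_filt_zero.mpr (h.ev2_mem (C p₁))))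
    (by simpa using mul_mem_filt h.snd (mem_filt_zero.mpr (h.ev2_mem P₂)))

theorem ord_ev2_eq_zero {P : Polynomial (Polynomial K)} (hP : val2 a b P ≠ 0) :
    ev2 s z P ≠ 0 ∧ v.ord (ev2 s z P) = 0 := by
  have hc : algebraMap K F (val2 a b P) ≠ 0 := by simpa using hP
  obtain ⟨h1, h2⟩ := ord_add_eq_left v hc (g := ev2 s z P - algebraMap K F (val2 a b P))
    (by rw [ord_algebraMap, zero_add]; exact h.ev2_sub_mem P)
  rw [add_sub_cancel] at h1 h2
  exact ⟨h1, by rw [h2, ord_algebraMap]⟩

end ReducesTo

/-- A simple point of a relation satisfied by `(s, z)`. -/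
structure SimplePoint (s z : F) (a b : K) (H : Polynomial (Polynomial K)) : Prop where
  gen : IntermediateField.adjoin K ({s, z} : Set F) = ⊤
  ne : s - algebraMap K F a ≠ 0
  rel : ev2 s z H = 0
  on : val2 a b H = 0
  simple : val2 a b (derivative H) ≠ 0

namespace SimplePoint

variable {s z : F} {a b : K} {H : Polynomial (Polynomial K)} (hS : SimplePoint s z a b H)

include hS

omit hS in
theorem exists_fraction (f : F) (hgen : IntermediateField.adjoin K ({s, z} : Set F) = ⊤) :
    ∃ P Q : Polynomial (Polynomial K), ev2 s z Q ≠ 0 ∧ f * ev2 s z Q = ev2 s z P := by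
  have hf : f ∈ IntermediateField.adjoin K ({s, z} : Set F) := by rw [hgen]; trivial
  refine FFBasic.exists_mul_eq_of_mem_adjoin (ev2 s z : Polynomial (Polynomial K) →+* F)
    (fun c => ⟨C (C c), 1, by simp, by simp⟩) (fun x hx => ?_) hf
  rcases hx with rfl | rfl
  · exact ⟨C X, 1, by simp, by simp⟩
  · exact ⟨X, 1, by simp, by simp⟩

theorem exists_ord_eq_mul {v : Place K F} (hv : ReducesTo v s z a b)
    (P : Polynomial (Polynomial K)) (hP : ev2 s z P ≠ 0) :
    ∃ n : ℕ, ∀ w : Place K F, ReducesTo w s z a b →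
      w.ord (ev2 s z P) = n * w.ord (s - algebraMap K F a) := by
  induction hn : (v.ord (ev2 s z P)).toNat using Nat.strong_induction_on generalizing P with
  | _ N ih =>
    by_cases hPab : val2 a b P = 0
    swap
    · exact ⟨0, fun w hw => by simp [(hw.ord_ev2_eq_zero hPab).2]⟩
    obtain ⟨p₁, P₂, hPdec⟩ := exists_decomp a b P
    rw [hPab, map_zero, map_zero, zero_add] at hPdec
    obtain ⟨G, hG⟩ := X_sub_C_dvd_sub_C_eval (a := C b) (p := H)
    obtain ⟨E, hE⟩ : (X - C a) ∣ H.eval (C b) :=
      dvd_iff_isRoot.mpr (by rw [IsRoot, ← val2_apply]; exact hS.on)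
    have hHdec : H = C ((X - C a) * E) + (X - C (C b)) * G := by
      rw [← hE, ← hG]; ring
    have hg : val2 a b G ≠ 0 := by
      have hd : derivative H = G + (X - C (C b)) * derivative G := by
        rw [hHdec]; simp [derivative_mul]
      have := hS.simple
      rw [hd, map_add, map_mul] at this
      simpa [val2] using this
    set P' := G * C p₁ - C E * P₂ with hP'
    have hrel : (s - algebraMap K F a) * ev2 s z (C E) +
        (z - algebraMap K F b) * ev2 s z G = 0 := by
      have := hS.rel
      rw [hHdec] at this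
      simpa [map_add, map_mul, map_sub, eval₂_mul, eval₂_sub] using this
    have key : ev2 s z G * ev2 s z P = (s - algebraMap K F a) * ev2 s z P' := by
      rw [hP', map_sub, map_mul, map_mul]
      conv_lhs => arg 2; rw [hPdec]
      simp only [map_add, map_mul, map_sub, ev2_C, ev2_X, eval₂_X, eval₂_C]
      rw [ev2_C] at hrel
      linear_combination (ev2 s z P₂) * hrel
    obtain ⟨hg0, hgord⟩ := hv.ord_ev2_eq_zero hg
    have hP'0 : ev2 s z P' ≠ 0 := fun h0 => mul_ne_zero hg0 hP (by rw [key, h0, mul_zero])
    have hord : ∀ w : Place K F, ReducesTo w s z a b →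
        w.ord (ev2 s z P) = w.ord (s - algebraMap K F a) + w.ord (ev2 s z P') := fun w hw => by
      obtain ⟨hg0', hgord'⟩ := hw.ord_ev2_eq_zero hg
      have := congrArg w.ord key
      rwa [w.ord_mul hg0' hP, hgord', zero_add, w.ord_mul hS.ne hP'0] at this
    have h1 : 1 ≤ v.ord (s - algebraMap K F a) := le_ord_of_mem_filt hv.fst hS.ne
    have h2 : 0 ≤ v.ord (ev2 s z P') := ord_nonneg_of_mem v (hv.ev2_mem P')
    obtain ⟨n, hn'⟩ := ih (v.ord (ev2 s z P')).toNat (by have := hord v hv; omega) P' hP'0 rfl
    exact ⟨n + 1, fun w hw => by rw [hord w hw, hn' w hw]; push_cast; ring⟩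

theorem exists_ord_eq_mul_all {v : Place K F} (hv : ReducesTo v s z a b) {f : F} (hf : f ≠ 0) :
    ∃ n : ℤ, ∀ w : Place K F, ReducesTo w s z a b →
      w.ord f = n * w.ord (s - algebraMap K F a) := by
  obtain ⟨P, Q, hQ, hPQ⟩ := exists_fraction f hS.gen
  have hP : ev2 s z P ≠ 0 := hPQ ▸ mul_ne_zero hf hQ
  obtain ⟨m, hm⟩ := hS.exists_ord_eq_mul hv P hP
  obtain ⟨l, hl⟩ := hS.exists_ord_eq_mul hv Q hQ
  refine ⟨(m : ℤ) - l, fun w hw => ?_⟩
  have h := congrArg w.ord hPQ
  rw [w.ord_mul hf hQ, hl w hw, hm w hw] at h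
  linear_combination h

/-- `s - a` is a uniformiser at a place over a simple point. -/
theorem ord_eq_one {v : Place K F} (hv : ReducesTo v s z a b) :
    v.ord (s - algebraMap K F a) = 1 := by
  obtain ⟨f, hf, hf1⟩ := exists_ord_eq v 1
  obtain ⟨n, hn⟩ := hS.exists_ord_eq_mul_all hv hf
  have h := hn v hv
  rw [hf1] at h
  have h1 : 1 ≤ v.ord (s - algebraMap K F a) := le_ord_of_mem_filt hv.fst hS.ne
  rcases Int.eq_one_or_neg_one_of_mul_eq_one' h.symm with ⟨-, h'⟩ | ⟨-, h'⟩ <;> omega

/-- At most one place lies over a simple point. -/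
theorem unique {v w : Place K F} (hv : ReducesTo v s z a b) (hw : ReducesTo w s z a b) :
    v = w := by
  refine place_eq_of_le fun f hf => ?_
  rcases eq_or_ne f 0 with rfl | hf0
  · exact zero_mem _
  obtain ⟨n, hn⟩ := hS.exists_ord_eq_mul_all hv hf0
  have h := ord_nonneg_of_mem v hf
  rw [hn v hv, hS.ord_eq_one hv, mul_one] at h
  exact mem_of_ord_nonneg w (by rw [hn w hw, hS.ord_eq_one hw, mul_one]; exact h)

end SimplePoint

theorem mem_filt_one_of_mem_nonunits (v : Place K F) {x : F}
    (hx : x ∈ v.toValuationSubring.nonunits) : x ∈ filt v 1 := by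
  rcases eq_or_ne x 0 with rfl | hx0
  · exact zero_mem _
  have hmem : x ∈ v.toValuationSubring := nonunits_subset hx
  refine mem_filt_of_le ?_
  by_contra hlt
  push Not at hlt
  have h0 := ord_nonneg_of_mem v hmem
  have hinv : x⁻¹ ∈ v.toValuationSubring := mem_of_ord_nonneg v (by rw [v.ord_inv]; omega)
  have := mul_mem_nonunits hx hinv
  rw [mul_inv_cancel₀ hx0] at this
  exact not_mem_nonunits_one _ this

/-- A point of a monic relation of full degree is reduced to by some place. -/
theorem exists_reducesTo [IsFunctionField K F] {s z : F} {a b : K}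
    (hgen : IntermediateField.adjoin K ({s, z} : Set F) = ⊤) (hs : Transcendental K s)
    {Φ : Polynomial (Polynomial K)} (hmon : Φ.Monic) (hrel : ev2 s z Φ = 0)
    (hdeg : Φ.natDegree = Module.finrank (IntermediateField.adjoin K {s}) F)
    (hon : val2 a b Φ = 0) : ∃ v : Place K F, ReducesTo v s z a b := by
  classical
  set E := IntermediateField.adjoin K ({s} : Set F) with hE
  have : FiniteDimensional E F := IsFunctionField.finiteDimensional_adjoin hs
  have htop : IntermediateField.adjoin E ({z} : Set F) = ⊤ := by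
    apply IntermediateField.restrictScalars_injective K
    rw [hE, IntermediateField.adjoin_adjoin_left, IntermediateField.restrictScalars_top]
    rw [← hgen]
    congr 1
  have hzd : (minpoly E z).natDegree = Φ.natDegree := by
    rw [hdeg, ← IntermediateField.adjoin.finrank (IsIntegral.of_finite E z), htop,
      IntermediateField.finrank_top']
  set φ : Polynomial K →+* E :=
    eval₂RingHom (algebraMap K E) ⟨s, IntermediateField.mem_adjoin_simple_self K s⟩ with hφ
  have hφs : (algebraMap E F).comp φ = eval₂RingHom (algebraMap K F) s := by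
    refine Polynomial.ringHom_ext (fun c => ?_) ?_ <;> simp [hφ, ← IsScalarTower.algebraMap_apply]
  have hφinj : Function.Injective φ := by
    intro p q hpq
    have h := congrArg (algebraMap E F) hpq
    rw [← RingHom.comp_apply, ← RingHom.comp_apply, hφs] at h
    exact (transcendental_iff_injective.mp hs) h
  have hker : ∀ P, ev2 s z P = 0 → Φ ∣ P := by
    intro P hP
    rw [← modByMonic_eq_zero_iff_dvd hmon]
    by_contra hne
    have hR : ev2 s z (P %ₘ Φ) = 0 := by
      have h := congrArg (ev2 s z) (modByMonic_add_div P Φ)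
      rwa [map_add, map_mul, hrel, zero_mul, add_zero, hP] at h
    have haev : aeval z ((P %ₘ Φ).map φ) = 0 := by
      rw [aeval_def, eval₂_map, hφs]
      exact hR
    have hne' : (P %ₘ Φ).map φ ≠ 0 := (Polynomial.map_ne_zero_iff hφinj).mpr hne
    have h1 := natDegree_le_natDegree (minpoly.degree_le_of_ne_zero E z hne' haev)
    rw [hzd, natDegree_map_eq_of_injective hφinj] at h1
    have h2 := degree_modByMonic_lt P hmon
    exact absurd (natDegree_lt_natDegree hne h2) (not_lt.mpr h1)
  set R := (ev2 (K := K) s z).range with hR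
  set I : Ideal R := (RingHom.ker (val2 a b)).map (ev2 (K := K) s z).rangeRestrict with hI
  have hI : I ≠ ⊤ := by
    rw [Ideal.ne_top_iff_one]
    intro h1
    obtain ⟨P, hP, hP1⟩ := (Ideal.mem_map_iff_of_surjective _
      (ev2 (K := K) s z).rangeRestrict_surjective).mp h1
    obtain ⟨Q, hQ⟩ := hker (P - 1) (by
      have := congrArg Subtype.val hP1
      rw [map_sub, map_one, sub_eq_zero]
      exact this)
    have := congrArg (val2 a b) hQ
    rw [map_sub, map_mul, hon, zero_mul, map_one, RingHom.mem_ker.mp hP, zero_sub] at this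
    exact one_ne_zero (neg_eq_zero.mp this)
  obtain ⟨V, hle, himg⟩ := Ideal.image_subset_nonunits_valuationSubring I hI
  have hmem : ∀ P, val2 a b P = 0 → ev2 s z P ∈ V.nonunits := fun P hP =>
    himg ⟨(ev2 (K := K) s z).rangeRestrict P, Ideal.mem_map_of_mem _ (RingHom.mem_ker.mpr hP), rfl⟩
  have hs' : s - algebraMap K F a ∈ V.nonunits := by
    have h := hmem (C (X - C a)) (by simp [val2])
    rwa [show ev2 s z (C (X - C a)) = s - algebraMap K F a by simp [ev2]] at h
  have hz' : z - algebraMap K F b ∈ V.nonunits := by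
    have h := hmem (X - C (C b)) (by simp [val2])
    rwa [show ev2 s z (X - C (C b)) = z - algebraMap K F b by simp [ev2]] at h
  have hK : ∀ c : K, algebraMap K F c ∈ V := fun c => hle ⟨C (C c), by simp⟩
  have hV : V ≠ ⊤ := by
    intro h
    have hne : s - algebraMap K F a ≠ 0 := fun h0 =>
      hs (by rw [sub_eq_zero.mp h0]; exact isAlgebraic_algebraMap a)
    have := mul_mem_nonunits hs' (b := (s - algebraMap K F a)⁻¹) (h ▸ ValuationSubring.mem_top _)
    rw [mul_inv_cancel₀ hne] at this
    exact not_mem_nonunits_one _ this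
  exact ⟨placeOfValuationSubring V hK hV,
    ⟨mem_filt_one_of_mem_nonunits _ hs', mem_filt_one_of_mem_nonunits _ hz'⟩⟩

end FLTAgent.MazurModuli
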