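import Fermat.Agent.MazurModuli.PhiNewton
import Fermat.Agent.MazurModuli.PlacePoint
import Fermat.Agent.Igusa.Data
import Fermat.Prelude.Def_ModularCurve_X0ModL
import Mathlib.Algebra.Polynomial.Reverse

/-!
# The two cusps of `X₀(p)` in characteristic prime to `p`

`CuspSetting p k F` with `F = k(j, j_p) ⊆ k((q))`: exactly two places `cInf`, `cZero` have `j`
non-integral (`cusp_cases`), with orders of `(j, j_p)` equal to `(-1, -p)` and `(-p, -1)`, and
`[F : k(j)] = p + 1` (`finrank_eq`). Used by `Point`, `Unit` and `Reduction`.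
-/

set_option autoImplicit false

noncomputable section

open Polynomial AlgebraicCurve ModularCurve IntermediateField

namespace FLTAgent.MazurModuli

attribute [local instance high] SubalgebraClass.toAlgebra HahnSeries.powerSeriesAlgebra
  IntermediateField.instAlgebraSubtypeMem

open FLTAgent.Igusa (jv qx Lead ZetaRing PolyData allData zetaHom transcendental_jv)
open FLTAgent.FFBasic

/-- `F` is the function field of `X₀(p)` over `k`, and `p` is a prime invertible in `k`. -/
structure CuspSetting (p : ℕ) [NeZero p] (k : Type) [Field k]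
    (F : IntermediateField k (LaurentSeries k)) : Prop where
  prime : p.Prime
  ne_zero : (p : k) ≠ 0
  eq_fullC : F = modularFunctionFieldFullC k p

/-- The chosen modular polynomial of level `p`. -/
def phiData {p : ℕ} [NeZero p] (hp : p.Prime) : PolyData p := allData p hp

/-- `(1/j, j_p / j^p) ↦` the modular relation divided by `j ^ (p (p + 1))`. -/
def hPoly {p : ℕ} [NeZero p] {k : Type} [CommRing k] (D : PolyData p) (f : ZetaRing p →+* k) :
    Polynomial (Polynomial k) :=
  ∑ i ∈ Finset.range (p + 2), C (reflect (p * (p + 1 - i)) ((D.Φ.coeff i).map f)) * X ^ i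

theorem hPoly_map_eval_zero {p : ℕ} [NeZero p] {k : Type} [CommRing k] (hp : 2 ≤ p)
    (D : PolyData p) (f : ZetaRing p →+* k) :
    (hPoly D f).map (evalRingHom 0) = X ^ (p + 1) - X ^ p := by
  have hS := phiShape hp D
  have hterm : ∀ i ∈ Finset.range p,
      (reflect (p * (p + 1 - i)) ((D.Φ.coeff i).map f)).eval 0 = 0 := by
    intro i hi
    rw [← coeff_zero_eq_eval_zero, coeff_reflect, revAt_le (Nat.zero_le _), Nat.sub_zero,
      Polynomial.coeff_map]
    rw [Finset.mem_range] at hi
    have hd : (D.Φ.coeff i).natDegree < p * (p + 1 - i) := by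
      rcases Nat.eq_zero_or_pos i with rfl | h0
      · have := hS.coeff_zero_le
        simp only [Nat.sub_zero]
        nlinarith
      · have := hS.coeff_le i h0
        have h2 : 2 ≤ p + 1 - i := by omega
        nlinarith
    rw [coeff_eq_zero_of_natDegree_lt hd, map_zero]
  have hp1 : D.Φ.coeff (p + 1) = 1 := by
    rw [← hS.natDegree_eq]; exact D.Φ_monic.coeff_natDegree
  rw [hPoly, Polynomial.map_sum, Finset.sum_range_succ, Finset.sum_range_succ,
    Finset.sum_eq_zero fun i hi => by
      rw [Polynomial.map_mul, map_C, coe_evalRingHom, hterm i hi, map_zero, zero_mul]]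
  simp only [Polynomial.map_mul, map_C, Polynomial.map_pow, map_X, coe_evalRingHom, hp1,
    Nat.sub_self, mul_zero, ← coeff_zero_eq_eval_zero, coeff_reflect, revAt_le le_rfl,
    revAt_le (Nat.zero_le _), Nat.sub_zero, show p + 1 - p = 1 by omega, mul_one,
    Polynomial.coeff_map, hS.coeff_top, map_neg, map_one, Polynomial.map_one, coeff_one_zero]
  ring

theorem val2_hPoly {p : ℕ} [NeZero p] {k : Type} [Field k] (hp : 2 ≤ p) (D : PolyData p)
    (f : ZetaRing p →+* k) (b : k) :
    val2 0 b (hPoly D f) = b ^ (p + 1) - b ^ p ∧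
      val2 0 b (derivative (hPoly D f)) = (p + 1 : k) * b ^ p - p * b ^ (p - 1) := by
  have e : ∀ P : Polynomial (Polynomial k), val2 0 b P = (P.map (evalRingHom 0)).eval b :=
    fun P => by rw [val2, coe_eval₂RingHom, eval_map]
  refine ⟨by rw [e, hPoly_map_eval_zero hp]; simp, ?_⟩
  rw [e, ← derivative_map, hPoly_map_eval_zero hp]
  simp [derivative_X_pow]

namespace CuspSetting

variable {p : ℕ} [NeZero p] {k : Type} [Field k] {F : IntermediateField k (LaurentSeries k)}
  (S : CuspSetting p k F)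

include S

theorem two_le : 2 ≤ p := S.prime.two_le

theorem eq_pair : F = IntermediateField.adjoin k {jqModC k, qExpand k p (jqModC k)} := by
  rw [S.eq_fullC, modularFunctionFieldFullC]
  congr 1
  ext x
  constructor
  · rintro ⟨d, hd0, hd, rfl⟩
    rcases (Nat.dvd_prime S.prime).mp hd with rfl | rfl
    · exact Or.inl (qExpand_one_apply _)
    · exact Or.inr rfl
  · rintro (rfl | rfl)
    · exact ⟨1, inferInstance, one_dvd _, (qExpand_one_apply _).symm⟩
    · exact ⟨p, inferInstance, dvd_rfl, rfl⟩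

/-- `j`. -/
def jE : F := ⟨jqModC k, S.eq_fullC ▸ jqModC_mem_full k p⟩

/-- `j_p`. -/
def jpE : F := ⟨qExpand k p (jqModC k), S.eq_fullC ▸ jqModCd_mem_full k p dvd_rfl⟩

omit S in
theorem coe_jE (S : CuspSetting p k F) : (S.jE : LaurentSeries k) = jqModC k := rfl

omit S in
theorem coe_jpE (S : CuspSetting p k F) :
    (S.jpE : LaurentSeries k) = qExpand k p (jqModC k) := rfl

theorem adjoin_eq_top : IntermediateField.adjoin k ({S.jE, S.jpE} : Set F) = ⊤ := by
  apply IntermediateField.map_injective F.val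
  rw [IntermediateField.adjoin_map, Set.image_pair]
  show IntermediateField.adjoin k {jqModC k, qExpand k p (jqModC k)} = _
  rw [← S.eq_pair, ← AlgHom.fieldRange_eq_map, IntermediateField.fieldRange_val]

theorem transcendental_jE : Transcendental k S.jE := by
  intro h
  have h' := h.algHom F.val
  rw [show F.val S.jE = jv (1 : kˣ) 1 from FLTAgent.Igusa.jv_one_one.symm] at h'
  exact transcendental_jv 1 one_ne_zero h'

theorem jE_ne_zero : S.jE ≠ 0 := fun h => S.transcendental_jE (h ▸ isAlgebraic_zero)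

/-- The modular relation in `F`. -/
theorem relation (f : ZetaRing p →+* k) :
    (phiAt (phiData S.prime) ((algebraMap k F).comp f) S.jE).eval S.jpE = 0 := by
  have : NeZero (p : k) := ⟨S.ne_zero⟩
  have hroot : IsPrimitiveRoot (f (AdjoinRoot.root (cyclotomic p ℤ))) p := by
    refine (isRoot_cyclotomic_iff (R := k)).mp ?_
    rw [IsRoot, ← map_cyclotomic p (Int.castRingHom k), eval_map,
      show (Int.castRingHom k) = f.comp (AdjoinRoot.of (cyclotomic p ℤ)) from RingHom.ext_int _ _,
      ← hom_eval₂, AdjoinRoot.eval₂_root, map_zero]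
  obtain ⟨ζ, hζ⟩ := hroot.isUnit (NeZero.ne p)
  rw [← hζ] at hroot
  have hf : f = zetaHom (ζ : k) hroot := by
    refine RingHom.ext fun a => ?_
    induction a using AdjoinRoot.induction_on with
    | ih g =>
      rw [zetaHom, AdjoinRoot.lift_mk, ← AdjoinRoot.aeval_eq, aeval_def, hom_eval₂, hζ]
      congr 1
      exact RingHom.ext_int _ _
  have hinj : Function.Injective ((qExpand k p).comp (algebraMap F (LaurentSeries k))) :=
    (qExpand_injective (R := k) p).comp (algebraMap F (LaurentSeries k)).injective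
  apply hinj
  rw [map_zero, ← Polynomial.eval_map_apply, phiAt_map, RingHom.comp_apply, RingHom.comp_apply]
  have h := congrArg (Polynomial.eval (jv (1 : kˣ) (p * p)))
    ((phiData S.prime).phiK_eq hroot 1 one_ne_zero)
  rw [one_pow, one_pow, one_mul, eval_mul] at h
  simp only [eval_sub, eval_X, eval_C, one_mul, sub_self, zero_mul] at h
  rw [PolyData.phiK, Polynomial.map_map] at h
  rw [show qExpand k p (algebraMap F (LaurentSeries k) S.jpE) = jv (1 : kˣ) (p * p) by
      show qExpand k p (qExpand k p (jqModC k)) = _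
      rw [qExpand_qExpand, FLTAgent.Igusa.jv_one_eq],
    show qExpand k p (algebraMap F (LaurentSeries k) S.jE) = jv (1 : kˣ) p by
      rw [FLTAgent.Igusa.jv_one_eq]; rfl]
  refine (congrArg
    (fun P : Polynomial (LaurentSeries k) => P.eval (jv (1 : kˣ) (p * p))) ?_).trans h
  rw [phiAt]
  congr 1
  refine Polynomial.ringHom_ext (fun a => ?_) ?_
  · simp [hf, algebraMap_laurentSeries_eq_single]
  · simp

theorem jpE_not_mem [IsAlgClosed k] : S.jpE ∉ k⟮S.jE⟯ := by
  have : NeZero (p : k) := ⟨S.ne_zero⟩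
  obtain ⟨z, hz⟩ := HasEnoughRootsOfUnity.exists_primitiveRoot k p
  obtain ⟨ζ, rfl⟩ := hz.isUnit (NeZero.ne p)
  intro h
  have h1 : (S.jpE : LaurentSeries k) ∈ (k⟮S.jE⟯).map F.val := ⟨_, h, rfl⟩
  rw [IntermediateField.adjoin_map, Set.image_singleton] at h1
  have h2 : qExpand k p (S.jpE : LaurentSeries k) ∈
      (k⟮(S.jE : LaurentSeries k)⟯).map (qExpandAlgHomC k p) := ⟨_, h1, rfl⟩
  rw [IntermediateField.adjoin_map, Set.image_singleton] at h2
  refine (phiData S.prime).jv_not_mem_adjoin hz S.prime.one_lt S.ne_zero one_ne_zero ?_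
  rw [one_mul, one_mul]
  rw [show jv (1 : kˣ) p = qExpandAlgHomC k p (S.jE : LaurentSeries k) by
      rw [qExpandAlgHomC_apply, coe_jE, FLTAgent.Igusa.jv_one_eq],
    show jv (1 : kˣ) (p * p) = qExpand k p (S.jpE : LaurentSeries k) by
      rw [coe_jpE, qExpand_qExpand, FLTAgent.Igusa.jv_one_eq]]
  exact h2

theorem exists_hom [IsAlgClosed k] : ∃ _f : ZetaRing p →+* k, True := by
  have : NeZero (p : k) := ⟨S.ne_zero⟩
  obtain ⟨z, hz⟩ := HasEnoughRootsOfUnity.exists_primitiveRoot k p
  exact ⟨zetaHom z hz, trivial⟩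

/-- A chosen map `ℤ[ζ_p] → k`. -/
def someHom [IsAlgClosed k] : ZetaRing p →+* k := S.exists_hom.choose

theorem finite_over_j [IsAlgClosed k] :
    FiniteDimensional k⟮S.jE⟯ F ∧ Module.finrank k⟮S.jE⟯ F ≤ p + 1 ∧
      IntermediateField.adjoin k⟮S.jE⟯ ({S.jpE} : Set F) = ⊤ := by
  let E := k⟮S.jE⟯
  let P : Polynomial E := phiAt (phiData S.prime) ((algebraMap k E).comp S.someHom)
    ⟨S.jE, mem_adjoin_simple_self k S.jE⟩
  have hroot : aeval S.jpE P = 0 := by
    have h := S.relation S.someHom
    rw [aeval_def, ← eval_map, phiAt_map]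
    exact h
  have hmon : P.Monic := phiAt_monic _ _ _
  have hint : IsIntegral E S.jpE := ⟨P, hmon, hroot⟩
  have htop : IntermediateField.adjoin E ({S.jpE} : Set F) = ⊤ := by
    apply IntermediateField.restrictScalars_injective k
    rw [IntermediateField.adjoin_adjoin_left, IntermediateField.restrictScalars_top]
    rw [← S.adjoin_eq_top]
    congr 1
  have : FiniteDimensional E (IntermediateField.adjoin E ({S.jpE} : Set F)) :=
    IntermediateField.adjoin.finiteDimensional hint
  have hfin : FiniteDimensional E F := by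
    let _ : Algebra E (⊤ : IntermediateField E F) := SubalgebraClass.toAlgebra _
    have : FiniteDimensional E (⊤ : IntermediateField E F) := htop ▸ ‹_›
    exact LinearEquiv.finiteDimensional IntermediateField.topEquiv.toLinearEquiv
  refine ⟨hfin, ?_, htop⟩
  rw [← IntermediateField.finrank_top' (F := E) (E := F), ← htop,
    IntermediateField.adjoin.finrank hint]
  refine (natDegree_le_natDegree (minpoly.degree_le_of_ne_zero E _ hmon.ne_zero hroot)).trans ?_
  show ((phiData S.prime).Φ.map _).natDegree ≤ p + 1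
  rw [(phiData S.prime).Φ_monic.natDegree_map, (phiShape S.two_le _).natDegree_eq]

theorem isFunctionField [IsAlgClosed k] : IsFunctionField k F :=
  ⟨S.jE, S.transcendental_jE, S.finite_over_j.1⟩

end CuspSetting

/-! ### The place of the parameter `q` -/

section Order

variable {k : Type} [Field k] (F : IntermediateField k (LaurentSeries k))

/-- Series without polar part. -/
def qRing : ValuationSubring F where
  carrier := {x | Below (x : LaurentSeries k) 0}
  mul_mem' {x y} hx hy := by
    have := hx.mul hy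
    rwa [add_zero] at this
  one_mem' := FLTAgent.Igusa.lead_one.2
  add_mem' {x y} hx hy := fun i hi => by
    show ((x : LaurentSeries k) + (y : LaurentSeries k)).coeff i = 0
    rw [HahnSeries.coeff_add, hx i hi, hy i hi, add_zero]
  zero_mem' := below_zero 0
  neg_mem' {x} hx := hx.neg
  mem_or_inv_mem' x := by
    by_cases h : 0 ≤ (x : LaurentSeries k).order
    · exact Or.inl fun i hi => HahnSeries.coeff_eq_zero_of_lt_order (hi.trans_le h)
    · right
      intro i hi
      push Not at h
      have hx : (x : LaurentSeries k) ≠ 0 := fun h0 => by simp [h0] at h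
      show ((x : LaurentSeries k)⁻¹).coeff i = 0
      refine HahnSeries.coeff_eq_zero_of_lt_order ?_
      have := HahnSeries.order_mul hx (inv_ne_zero hx)
      rw [mul_inv_cancel₀ hx, HahnSeries.order_one] at this
      omega

variable {F}

theorem mem_qRing_iff {x : F} (hx : x ≠ 0) :
    x ∈ qRing F ↔ 0 ≤ (x : LaurentSeries k).order := by
  refine ⟨fun h => ?_, fun h i hi => HahnSeries.coeff_eq_zero_of_lt_order (hi.trans_le h)⟩
  by_contra hlt
  push Not at hlt
  have hx' : (x : LaurentSeries k) ≠ 0 := fun h0 => hx (Subtype.ext h0)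
  exact HahnSeries.coeff_order_eq_zero.not.mpr hx' (h _ hlt)

theorem algebraMap_mem_qRing (c : k) : algebraMap k F c ∈ qRing F := fun i hi => by
  show (algebraMap k (LaurentSeries k) c).coeff i = 0
  rw [algebraMap_laurentSeries_eq_single, HahnSeries.coeff_single_of_ne hi.ne]

theorem order_eq_of_lead {R : Type} [CommRing R] {x : LaurentSeries R} {n : ℤ} {a : R}
    (h : FLTAgent.Igusa.Lead x n a) (ha : a ≠ 0) : x.order = n := by
  refine le_antisymm (HahnSeries.order_le_of_coeff_ne_zero (by rw [h.1]; exact ha)) ?_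
  by_contra hlt
  push Not at hlt
  exact HahnSeries.coeff_order_eq_zero.not.mpr (h.ne_zero ha) (h.2 _ hlt)

end Order

section Valuation

variable {K F : Type*} [Field K] [Field F] [Algebra K F] (v : Place K F)

theorem valuation_eq_iff_ord_eq {a b : F} (ha : a ≠ 0) (hb : b ≠ 0) :
    v.toValuationSubring.valuation a = v.toValuationSubring.valuation b ↔ v.ord a = v.ord b := by
  have key : ∀ c d : F, c ≠ 0 → d ≠ 0 →
      (v.toValuationSubring.valuation c ≤ v.toValuationSubring.valuation d ↔
        v.ord d ≤ v.ord c) := by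
    intro c d hc hd
    rw [← div_le_one₀ ((Valuation.pos_iff _).mpr hd), ← map_div₀,
      ValuationSubring.valuation_le_one_iff,
      mem_iff_ord_nonneg v (div_ne_zero hc hd), div_eq_mul_inv, v.ord_mul hc (inv_ne_zero hd),
      v.ord_inv]
    omega
  constructor
  · intro h
    exact le_antisymm ((key b a hb ha).mp h.ge) ((key a b ha hb).mp h.le)
  · intro h
    exact le_antisymm ((key a b ha hb).mpr h.ge) ((key b a hb ha).mpr h.le)

theorem exists_residue [IsAlgClosed K] [IsFunctionField K F] {f : F}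
    (hf : f ∈ v.toValuationSubring) : ∃ r : K, f - algebraMap K F r ∈ filt v 1 := by
  have : Algebra.IsIntegral K v.ResidueField := Algebra.IsIntegral.of_finite K v.ResidueField
  obtain ⟨r, hr⟩ :=
    (IsAlgClosed.algebraMap_bijective_of_isIntegral (k := K) (K := v.ResidueField)).2
      (IsLocalRing.residue _ ⟨f, hf⟩)
  refine ⟨r, ?_⟩
  have h := (FLTAgent.FFBasic.residue_eq_zero_iff v
    (⟨f, hf⟩ - algebraMap K v.toValuationSubring r)).mp
      (by rw [map_sub, sub_eq_zero]; exact hr.symm)
  simpa using h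

theorem one_lt_valuation_iff_ord_neg {a : F} (ha : a ≠ 0) :
    1 < v.toValuationSubring.valuation a ↔ v.ord a < 0 := by
  rw [← not_le, ValuationSubring.valuation_le_one_iff, mem_iff_ord_nonneg v ha, not_le]

end Valuation

namespace CuspSetting

variable {p : ℕ} [NeZero p] {k : Type} [Field k] [IsAlgClosed k]
  {F : IntermediateField k (LaurentSeries k)} (S : CuspSetting p k F)

include S

omit [IsAlgClosed k] in
theorem jpE_ne_zero : S.jpE ≠ 0 := fun h => by
  have h' := congrArg (fun x : F => (x : LaurentSeries k)) h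
  simp only [coe_jpE, ZeroMemClass.coe_zero] at h'
  exact jqModC_ne_zero_of_nontrivial k (qExpand_injective p (by rw [h', map_zero]))

omit [IsAlgClosed k] in
theorem order_jE : (S.jE : LaurentSeries k).order = -1 :=
  order_eq_of_lead FLTAgent.Igusa.lead_jqModC one_ne_zero

omit [IsAlgClosed k] in
theorem order_jpE : (S.jpE : LaurentSeries k).order = -p := by
  have h := (FLTAgent.Igusa.lead_jqModC (R := k)).qx (NeZero.ne p)
  rw [FLTAgent.Igusa.qx_eq, mul_neg, mul_one] at h
  exact order_eq_of_lead h one_ne_zero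

/-- At a pole of `j` either `ord j_p = p ord j` or `p ord j_p = ord j`. -/
theorem ord_cases (v : Place k F) (hv : v.ord S.jE < 0) :
    v.ord S.jpE = p * v.ord S.jE ∨ p * v.ord S.jpE = v.ord S.jE := by
  set V := v.toValuationSubring
  set D := phiData S.prime
  set g := (algebraMap k F).comp S.someHom
  have hS := phiShape S.two_le D
  have hM : 1 < V.valuation S.jE := (one_lt_valuation_iff_ord_neg v S.jE_ne_zero).mpr hv
  have hco : ∀ i, (phiAt D g S.jE).coeff i = eval₂ g S.jE (D.Φ.coeff i) := fun i => by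
    rw [phiAt, Polynomial.coeff_map, coe_eval₂RingHom]
  have h := valuation_root V S.two_le
    (by rw [phiAt, D.Φ_monic.natDegree_map, hS.natDegree_eq]) (phiAt_monic D g S.jE) hM
    (fun i hi => (hco i).symm ▸ valuation_eval₂_le V g hM (hS.coeff_le i hi))
    ((hco p).symm ▸ valuation_eval₂_eq V g hM (hS.coeff_le p (by have := S.two_le; omega))
      (hS.coeff_top.symm ▸ isUnit_one.neg))
    ((hco 0).symm ▸ valuation_eval₂_eq V g hM hS.coeff_zero_le hS.coeff_zero_unit)
    (S.relation S.someHom)
  rcases h with h | h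
  · left
    rw [← map_pow, valuation_eq_iff_ord_eq v S.jpE_ne_zero (pow_ne_zero _ S.jE_ne_zero),
      ord_pow] at h
    exact h
  · right
    rw [← map_pow, valuation_eq_iff_ord_eq v (pow_ne_zero _ S.jpE_ne_zero) S.jE_ne_zero,
      ord_pow] at h
    exact h

/-- `1 / j`. -/
def sE : F := S.jE⁻¹

/-- `j_p / j ^ p`. -/
def zE : F := S.jpE / S.jE ^ p

omit [IsAlgClosed k] in
theorem adjoin_sE_zE : IntermediateField.adjoin k ({S.sE, S.zE} : Set F) = ⊤ := by
  rw [eq_top_iff, ← S.adjoin_eq_top, IntermediateField.adjoin_le_iff]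
  have hs : S.sE ∈ IntermediateField.adjoin k ({S.sE, S.zE} : Set F) :=
    subset_adjoin k _ (Set.mem_insert _ _)
  have hz : S.zE ∈ IntermediateField.adjoin k ({S.sE, S.zE} : Set F) :=
    subset_adjoin k _ (Set.mem_insert_of_mem _ rfl)
  have hj : S.jE ∈ IntermediateField.adjoin k ({S.sE, S.zE} : Set F) := by
    simpa [sE] using inv_mem hs
  rintro x (rfl | rfl)
  · exact hj
  · have : S.jpE = S.zE * S.jE ^ p := by
      rw [zE, div_mul_cancel₀ _ (pow_ne_zero _ S.jE_ne_zero)]
    rw [this]
    exact mul_mem hz (pow_mem hj p)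

omit [IsAlgClosed k] in
theorem ev2_hPoly (f : ZetaRing p →+* k) :
    ev2 S.sE S.zE (hPoly (phiData S.prime) f) = 0 := by
  set D := phiData S.prime
  have hS := phiShape S.two_le D
  have hj := S.jE_ne_zero
  have key : S.jE ^ (p * (p + 1)) * ev2 S.sE S.zE (hPoly D f) =
      (phiAt D ((algebraMap k F).comp f) S.jE).eval S.jpE := by
    rw [eval_eq_sum_range' (n := p + 2) (by
      rw [phiAt, D.Φ_monic.natDegree_map, hS.natDegree_eq]; omega), hPoly, map_sum, Finset.mul_sum]
    refine Finset.sum_congr rfl fun i hi => ?_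
    rw [Finset.mem_range] at hi
    rw [map_mul, map_pow, ev2_C, ev2_X, phiAt, Polynomial.coeff_map, coe_eval₂RingHom,
      ← eval₂_map (f := f) (g := algebraMap k F)]
    have hd : ((D.Φ.coeff i).map f).natDegree ≤ p * (p + 1 - i) := by
      refine natDegree_map_le.trans ?_
      rcases Nat.eq_zero_or_pos i with rfl | h0
      · have := hS.coeff_zero_le
        have := S.two_le
        simp only [Nat.sub_zero]
        nlinarith
      · rcases Nat.lt_or_ge i (p + 1) with h1 | h1
        · have := hS.coeff_le i h0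
          have h2 : 1 ≤ p + 1 - i := by omega
          nlinarith
        · obtain rfl : i = D.Φ.natDegree := by rw [hS.natDegree_eq]; omega
          rw [D.Φ_monic.coeff_natDegree, natDegree_one]
          exact Nat.zero_le _
    let : Invertible S.jE := invertibleOfNonzero hj
    rw [← eval₂_reflect_mul_pow (algebraMap k F) S.jE _ _ hd, invOf_eq_inv]
    have hpow : S.jE ^ (p * (p + 1)) = S.jE ^ (p * (p + 1 - i)) * (S.jE ^ p) ^ i := by
      rw [← pow_mul, ← pow_add, ← Nat.mul_add]
      congr 2
      omega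
    rw [hpow, sE, zE, div_pow]
    field_simp
  rw [S.relation f] at key
  exact (mul_eq_zero.mp key).resolve_left (pow_ne_zero _ hj)

theorem simplePoint : SimplePoint S.sE S.zE (0 : k) 1 (hPoly (phiData S.prime) S.someHom) where
  gen := S.adjoin_sE_zE
  ne := by rw [map_zero, sub_zero]; exact inv_ne_zero S.jE_ne_zero
  rel := S.ev2_hPoly _
  on := by rw [(val2_hPoly S.two_le _ _ _).1]; simp
  simple := by rw [(val2_hPoly S.two_le _ _ _).2]; simp

/-- `ord j_p = p ord j` at a pole of `j`. -/
def IsBig (v : Place k F) : Prop := v.ord S.jE < 0 ∧ v.ord S.jpE = p * v.ord S.jE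

theorem IsBig.reducesTo {v : Place k F} (hv : S.IsBig v) : ReducesTo v S.sE S.zE (0 : k) 1 := by
  have := S.isFunctionField
  obtain ⟨hneg, hbig⟩ := hv
  have hj := S.jE_ne_zero
  have hsord : v.ord S.sE = -v.ord S.jE := v.ord_inv _
  have hs : S.sE - algebraMap k F 0 ∈ filt v 1 := by
    rw [map_zero, sub_zero]; exact mem_filt_of_le (by omega)
  have hz0 : S.zE ≠ 0 := div_ne_zero S.jpE_ne_zero (pow_ne_zero _ hj)
  have hzord : v.ord S.zE = 0 := by
    rw [zE, div_eq_mul_inv, v.ord_mul S.jpE_ne_zero (inv_ne_zero (pow_ne_zero _ hj)), v.ord_inv,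
      ord_pow, hbig]
    ring
  obtain ⟨r, hr⟩ := exists_residue v (mem_of_ord_nonneg v hzord.ge)
  have hred : ReducesTo v S.sE S.zE (0 : k) r := ⟨hs, hr⟩
  have hH : val2 0 r (hPoly (phiData S.prime) S.someHom) = 0 := by
    by_contra hne
    exact (hred.ord_ev2_eq_zero hne).1 (S.ev2_hPoly _)
  rw [(val2_hPoly S.two_le _ _ _).1, pow_succ, ← mul_sub_one] at hH
  rcases mul_eq_zero.mp hH with h | h
  · exfalso
    have hr0 : r = 0 := pow_eq_zero_iff (NeZero.ne p) |>.mp h
    rw [hr0, map_zero, sub_zero] at hr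
    have := le_ord_of_mem_filt hr hz0
    omega
  · rwa [sub_eq_zero.mp h] at hred

omit [IsAlgClosed k] in
theorem qRing_ne_top : qRing F ≠ ⊤ := by
  intro h
  have h1 : S.jE ∈ qRing F := h ▸ ValuationSubring.mem_top _
  rw [mem_qRing_iff S.jE_ne_zero, S.order_jE] at h1
  omega

/-- The cusp `∞`: the place of `q`. -/
def cInf : Place k F :=
  haveI := S.isFunctionField
  placeOfValuationSubring (qRing F) (fun c => algebraMap_mem_qRing c) S.qRing_ne_top

theorem mem_cInf_iff {x : F} (hx : x ≠ 0) :
    0 ≤ S.cInf.ord x ↔ 0 ≤ (x : LaurentSeries k).order := by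
  rw [← mem_iff_ord_nonneg _ hx, ← mem_qRing_iff hx]
  rfl

theorem isBig_cInf : S.IsBig S.cInf := by
  have h1 : S.cInf.ord S.jE < 0 := by
    by_contra h
    push Not at h
    rw [S.mem_cInf_iff S.jE_ne_zero, S.order_jE] at h
    omega
  refine ⟨h1, ?_⟩
  have hj := S.jE_ne_zero
  have hne : S.jpE * (S.jE ^ p)⁻¹ ≠ 0 := mul_ne_zero S.jpE_ne_zero (inv_ne_zero (pow_ne_zero _ hj))
  have hj' : ((S.jE : F) : LaurentSeries k) ≠ 0 := fun h => hj (Subtype.ext h)
  have hjp' : ((S.jpE : F) : LaurentSeries k) ≠ 0 := fun h => S.jpE_ne_zero (Subtype.ext h)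
  have hord : ((S.jpE * (S.jE ^ p)⁻¹ : F) : LaurentSeries k).order = 0 := by
    have h2 := HahnSeries.order_mul (inv_ne_zero (pow_ne_zero p hj')) (pow_ne_zero p hj')
    rw [inv_mul_cancel₀ (pow_ne_zero p hj'), HahnSeries.order_one, HahnSeries.order_pow,
      S.order_jE] at h2
    push_cast
    rw [HahnSeries.order_mul hjp' (inv_ne_zero (pow_ne_zero p hj')), S.order_jpE]
    simp only [nsmul_eq_mul, mul_neg, mul_one] at h2
    omega
  have ha := (S.mem_cInf_iff hne).mpr hord.ge
  have hinv : 0 ≤ S.cInf.ord (S.jpE * (S.jE ^ p)⁻¹)⁻¹ := by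
    rw [S.mem_cInf_iff (inv_ne_zero hne)]
    have h3 := HahnSeries.order_mul (show ((S.jpE * (S.jE ^ p)⁻¹ : F) : LaurentSeries k) ≠ 0 from
      fun h => hne (Subtype.ext h)) (inv_ne_zero fun h => hne (Subtype.ext h))
    rw [mul_inv_cancel₀ (fun h => hne (Subtype.ext h)), HahnSeries.order_one, hord] at h3
    push_cast at h3 ⊢
    omega
  rw [(S.cInf).ord_inv] at hinv
  rw [(S.cInf).ord_mul S.jpE_ne_zero (inv_ne_zero (pow_ne_zero _ hj)), (S.cInf).ord_inv, ord_pow]
    at ha hinv
  omega

theorem IsBig.eq_cInf {v : Place k F} (hv : S.IsBig v) : v = S.cInf :=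
  S.simplePoint.unique (hv.reducesTo S) (S.isBig_cInf.reducesTo S)

theorem ord_cInf_jE : S.cInf.ord S.jE = -1 := by
  have h := S.simplePoint.ord_eq_one (S.isBig_cInf.reducesTo S)
  rw [map_zero, sub_zero, sE, (S.cInf).ord_inv] at h
  omega

theorem ord_cInf_jpE : S.cInf.ord S.jpE = -p := by
  rw [S.isBig_cInf.2, S.ord_cInf_jE]; ring

/-- `ord` at `∞` is the order of the `q`-expansion. -/
theorem ord_cInf_eq_order {x : F} (hx : x ≠ 0) :
    S.cInf.ord x = (x : LaurentSeries k).order := by
  have hj : ((S.jE : F) : LaurentSeries k) ≠ 0 := fun h => S.jE_ne_zero (Subtype.ext h)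
  have hx' : (x : LaurentSeries k) ≠ 0 := fun h => hx (Subtype.ext h)
  set n := S.cInf.ord x
  set m := (x : LaurentSeries k).order
  have hzp : ∀ e : ℤ, ((x * S.jE ^ e : F) : LaurentSeries k).order = m - e := by
    intro e
    have hpow : ((S.jE ^ e : F) : LaurentSeries k) = (jqModC k) ^ e :=
      map_zpow₀ (algebraMap F (LaurentSeries k)) S.jE e
    have hne : (jqModC k) ^ e ≠ 0 := zpow_ne_zero _ hj
    show ((x : LaurentSeries k) * ((S.jE ^ e : F) : LaurentSeries k)).order = _
    rw [hpow, HahnSeries.order_mul hx' hne]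
    have hz : ((jqModC k) ^ e).order = -e := by
      obtain ⟨a, rfl | rfl⟩ := e.eq_nat_or_neg
      · rw [zpow_natCast, HahnSeries.order_pow, ← S.coe_jE, S.order_jE]; simp
      · rw [zpow_neg, zpow_natCast]
        have h2 := HahnSeries.order_mul (pow_ne_zero a hj) (inv_ne_zero (pow_ne_zero a hj))
        rw [mul_inv_cancel₀ (pow_ne_zero a hj), HahnSeries.order_one, HahnSeries.order_pow,
          S.order_jE] at h2
        rw [coe_jE] at h2
        simp at h2 ⊢
        omega
    rw [hz]; ring
  have hne : ∀ e : ℤ, x * S.jE ^ e ≠ 0 := fun e => mul_ne_zero hx (zpow_ne_zero _ S.jE_ne_zero)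
  have hord : ∀ e : ℤ, S.cInf.ord (x * S.jE ^ e) = n - e := fun e => by
    rw [(S.cInf).ord_mul hx (zpow_ne_zero _ S.jE_ne_zero), (S.cInf).ord_zpow, S.ord_cInf_jE]; ring
  refine le_antisymm ?_ ?_
  · have := (S.mem_cInf_iff (hne n)).mp (by rw [hord]; omega)
    rw [hzp] at this
    omega
  · have := (S.mem_cInf_iff (hne m)).mpr (by rw [hzp]; omega)
    rw [hord] at this
    omega

theorem small_of_ne {v : Place k F} (hv : v.ord S.jE < 0) (hne : v ≠ S.cInf) :
    p * v.ord S.jpE = v.ord S.jE :=
  (S.ord_cases v hv).resolve_left fun h => hne (IsBig.eq_cInf S ⟨hv, h⟩)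

theorem exists_cZero : ∃ c : Place k F, c ≠ S.cInf ∧ c.ord S.jE = -p ∧ c.ord S.jpE = -1 ∧
    (∀ v : Place k F, v.ord S.jE < 0 → v = S.cInf ∨ v = c) ∧
    Module.finrank k⟮S.jE⟯ F = p + 1 := by
  classical
  have := S.isFunctionField
  obtain ⟨hfd, hle, htop⟩ := S.finite_over_j
  set B := divPos (-divFun (K := k) S.jE) with hB
  have hdeg : Divisor.degree B = Module.finrank k⟮S.jE⟯ F := degree_poles S.transcendental_jE
  have hsum : ∀ T : Finset (Place k F), ∑ v ∈ T, B v ≤ Divisor.degree B := by
    intro T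
    rw [degree_eq_sum_support]
    have h1 : ∀ v : Place k F, B v * v.deg = B v := fun v => by simp [place_deg_eq_one v]
    simp only [h1]
    calc ∑ v ∈ T, B v ≤ ∑ v ∈ T ∪ B.support, B v :=
          Finset.sum_le_sum_of_subset_of_nonneg Finset.subset_union_left
            fun v _ _ => divPos_nonneg _ v
      _ = ∑ v ∈ B.support, B v :=
          (Finset.sum_subset Finset.subset_union_right fun v _ hv =>
            Finsupp.notMem_support_iff.mp hv).symm
  have hBv : ∀ v : Place k F, v.ord S.jE < 0 → B v = -v.ord S.jE := fun v hv => by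
    simp [hB, max_eq_left (show (0 : ℤ) ≤ -v.ord S.jE by omega)]
  have hsmall : ∀ v : Place k F, v.ord S.jE < 0 → v ≠ S.cInf →
      (p : ℤ) ≤ B v ∧ v.ord S.jE = p * v.ord S.jpE ∧ v.ord S.jpE < 0 := fun v hv hne => by
    have h := S.small_of_ne hv hne
    have hp0 : (0 : ℤ) < p := by exact_mod_cast S.prime.pos
    have hneg : v.ord S.jpE < 0 := by
      by_contra hc
      push Not at hc
      have := mul_nonneg hp0.le hc
      omega
    refine ⟨?_, h.symm, hneg⟩
    rw [hBv v hv, ← h]
    nlinarith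
  have hinf : B S.cInf = 1 := by
    rw [hBv _ S.isBig_cInf.1, S.ord_cInf_jE]; ring
  have hn1 : Module.finrank k⟮S.jE⟯ F ≠ 1 := by
    intro h1
    have hbot : (IntermediateField.adjoin k⟮S.jE⟯ ({S.jpE} : Set F)) = ⊥ :=
      IntermediateField.finrank_eq_one_iff.mp (by rw [htop, IntermediateField.finrank_top', h1])
    have hm : S.jpE ∈ (⊥ : IntermediateField k⟮S.jE⟯ F) :=
      hbot ▸ mem_adjoin_simple_self _ _
    obtain ⟨e, he⟩ := IntermediateField.mem_bot.mp hm
    exact S.jpE_not_mem (he ▸ e.2)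
  obtain ⟨c, hc, hcne⟩ : ∃ c : Place k F, c.ord S.jE < 0 ∧ c ≠ S.cInf := by
    by_contra hcon
    push Not at hcon
    apply hn1
    have h1 : B = Finsupp.single S.cInf 1 := by
      ext v
      rcases eq_or_ne v S.cInf with rfl | hne
      · rw [hinf, Finsupp.single_eq_same]
      · rw [Finsupp.single_eq_of_ne hne]
        have : 0 ≤ v.ord S.jE := le_of_not_gt fun h => hne (hcon v h)
        simp [hB, this]
    rw [h1, Divisor.degree_single, place_deg_eq_one] at hdeg
    exact_mod_cast hdeg.symm
  obtain ⟨hcB, hcj, hcjp⟩ := hsmall c hc hcne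
  have h2 := hsum {S.cInf, c}
  rw [Finset.sum_pair hcne.symm, hinf, hdeg] at h2
  have hle' : (Module.finrank k⟮S.jE⟯ F : ℤ) ≤ p + 1 := by exact_mod_cast hle
  have hBc : B c = p := by omega
  rw [hBv c hc] at hBc
  have hord : c.ord S.jpE = -1 := by
    have hp0 : (p : ℤ) ≠ 0 := by exact_mod_cast NeZero.ne p
    apply mul_left_cancel₀ hp0
    linarith
  refine ⟨c, hcne, by omega, hord, fun v hv => ?_, by omega⟩
  by_contra hcon
  push Not at hcon
  have h3 := hsum {S.cInf, c, v}
  rw [Finset.sum_insert (by simp [hcne.symm, hcon.1.symm]), Finset.sum_pair hcon.2.symm, hinf,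
    hdeg, hBv c hc] at h3
  have := (hsmall v hv hcon.1).1
  have := S.two_le
  omega

/-- The cusp `0`. -/
def cZero : Place k F := S.exists_cZero.choose

theorem cZero_ne_cInf : S.cZero ≠ S.cInf := S.exists_cZero.choose_spec.1

theorem ord_cZero_jE : S.cZero.ord S.jE = -p := S.exists_cZero.choose_spec.2.1

theorem ord_cZero_jpE : S.cZero.ord S.jpE = -1 := S.exists_cZero.choose_spec.2.2.1

theorem cusp_cases {v : Place k F} (hv : v.ord S.jE < 0) : v = S.cInf ∨ v = S.cZero :=
  S.exists_cZero.choose_spec.2.2.2.1 v hv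

theorem finrank_eq : Module.finrank k⟮S.jE⟯ F = p + 1 :=
  S.exists_cZero.choose_spec.2.2.2.2

/-- `j_p` is integral where `j` is. -/
theorem jpE_mem {v : Place k F} (hv : 0 ≤ v.ord S.jE) : S.jpE ∈ v.toValuationSubring := by
  have hj : S.jE ∈ v.toValuationSubring := mem_of_ord_nonneg v hv
  have hint : IsIntegral v.toValuationSubring S.jpE := by
    refine ⟨phiAt (phiData S.prime) ((algebraMap k v.toValuationSubring).comp S.someHom) ⟨_, hj⟩,
      phiAt_monic _ _ _, ?_⟩
    rw [← eval_map, phiAt_map]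
    exact S.relation S.someHom
  obtain ⟨y, hy⟩ := IsIntegrallyClosed.isIntegral_iff.mp hint
  exact hy ▸ y.2

end CuspSetting

end FLTAgent.MazurModuli
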