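import Fermat.Agent.CongruenceRel.DivisorLemmas
import Fermat.Agent.MazurModuli.Cusps
import Fermat.Prelude.Def_ModularCurve_ReductionModL

/-!
# Reduction of places near the cusps

For a place reduction along `A → κ`: a place of `X₀(p)` at which `1 / j` is congruent to an
element of the maximal ideal reduces to a cusp, `0` or `∞` according as `j_p / j ^ p` is congruent
to a non-unit or a unit (`red_reducesTo`, `reducesTo_cusps`). Used by `Main`.
-/

set_option autoImplicit false

noncomputable section

open Polynomial AlgebraicCurve ModularCurve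

namespace FLTAgent.MazurModuli

attribute [local instance high] SubalgebraClass.toAlgebra HahnSeries.powerSeriesAlgebra

open FLTAgent.FFBasic

section Divisors

variable {α β : Type*}

theorem mapDomain_eq_zero_of_forall (r : α → β) (D : α →₀ ℤ) {b : β}
    (h : ∀ a, D a ≠ 0 → r a ≠ b) : Finsupp.mapDomain r D b = 0 := by
  classical
  rw [Finsupp.mapDomain, Finsupp.sum_apply]
  exact Finset.sum_eq_zero fun a ha => Finsupp.single_eq_of_ne
    (h a (Finsupp.mem_support_iff.mp ha)).symm

theorem le_mapDomain_apply (r : α → β) (D : α →₀ ℤ) (hD : ∀ a, 0 ≤ D a) (a : α) :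
    D a ≤ Finsupp.mapDomain r D (r a) := by
  classical
  rw [Finsupp.mapDomain, Finsupp.sum_apply]
  rcases eq_or_ne (D a) 0 with h | h
  · rw [h]
    refine Finset.sum_nonneg fun x _ => ?_
    simp only [Finsupp.single_apply]
    split_ifs
    exacts [hD x, le_rfl]
  · refine le_trans (le_of_eq ?_) (Finset.single_le_sum
      (f := fun x => Finsupp.single (r x) (D x) (r a))
      (fun x _ => ?_) (Finsupp.mem_support_iff.mpr h))
    · simp
    · simp only [Finsupp.single_apply]
      split_ifs
      exacts [hD x, le_rfl]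

end Divisors

section Reduction

variable {L : Type} [Field L] [Algebra ℚ L] [IsAlgClosed L] {A : ValuationSubring L} {p : ℕ}
  [NeZero p] {k : Type} [Field k] [IsAlgClosed k] {π : A →+* k}
  (S : CuspSetting p L (laurentBaseChange L (modularFunctionFieldFull p)))
  (T : CuspSetting p k (modularFunctionFieldFullC k p))
  {r : Place L (laurentBaseChange L (modularFunctionFieldFull p)) →
    Place k (modularFunctionFieldFullC k p)}
  (hr : IsPlaceReductionAlong A π p r)

omit [IsAlgClosed L] [NeZero p] [IsAlgClosed k] in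
include hr in
theorem mapDomain_divFun [IsFunctionField L (laurentBaseChange L (modularFunctionFieldFull p))]
    [IsFunctionField k (modularFunctionFieldFullC k p)]
    {y : LaurentSeries A} {f : laurentBaseChange L (modularFunctionFieldFull p)}
    {g : modularFunctionFieldFullC k p} (hf : coeffMap A.subtype y = f)
    (hg : coeffMap π y = g) (hg0 : g ≠ 0) :
    Finsupp.mapDomain r (divFun f) = divFun g := by
  have hgne : coeffMap π y ≠ 0 := by rw [hg]; exact fun h => hg0 (Subtype.ext h)
  ext Q
  rw [divFun_apply, hr.2 y (hf ▸ f.2) (hg ▸ g.2) hgne (divFun f) (fun P => by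
    rw [divFun_apply]; congr 1; exact Subtype.ext hf.symm) Q]
  congr 1
  exact Subtype.ext hg

omit [IsAlgClosed L] [NeZero p] in
include hr in
theorem mapDomain_divPos [IsFunctionField L (laurentBaseChange L (modularFunctionFieldFull p))]
    [IsFunctionField k (modularFunctionFieldFullC k p)]
    {D : Divisor L (laurentBaseChange L (modularFunctionFieldFull p))}
    {E : Divisor k (modularFunctionFieldFullC k p)} (h : Finsupp.mapDomain r D = E)
    (hdeg : Divisor.degree (divPos D) = Divisor.degree (divPos E)) :
    Finsupp.mapDomain r (divPos D) = divPos E := by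
  classical
  set P := Finsupp.mapDomain r (divPos D) with hP
  set N := Finsupp.mapDomain r (divPos (-D))
  have hsplit : ∀ Q, P Q - N Q = E Q := fun Q => by
    rw [← h]
    conv_rhs => rw [← divPos_sub_divPos_neg D]
    rw [← Finsupp.mapDomain.addMonoidHom_apply, map_sub]
    rfl
  have hnn : ∀ Q, 0 ≤ P Q - divPos E Q := fun Q => by
    have h1 : 0 ≤ P Q := CongruenceRel.mapDomain_apply_nonneg r (fun v => divPos_nonneg _ v) Q
    have h2 : 0 ≤ N Q := CongruenceRel.mapDomain_apply_nonneg r (fun v => divPos_nonneg _ v) Q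
    have h3 := hsplit Q
    rw [divPos_apply]
    omega
  have hzero : Divisor.degree (P - divPos E) = 0 := by
    rw [map_sub, hP, degree_mapDomain_of_deg_eq hr.1, hdeg, sub_self]
  rw [degree_eq_sum_support] at hzero
  have h0 := (Finset.sum_eq_zero_iff_of_nonneg fun Q _ => by
    rw [place_deg_eq_one, Nat.cast_one, mul_one]; exact hnn Q).mp hzero
  ext Q
  by_cases hQ : Q ∈ (P - divPos E).support
  · have := h0 Q hQ
    rw [place_deg_eq_one, Nat.cast_one, mul_one, Finsupp.sub_apply] at this
    omega
  · rw [Finsupp.notMem_support_iff, Finsupp.sub_apply] at hQ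
    omega

/-- The series of `1/j` over a ring. -/
def jInvSeries (R : Type) [CommRing R] : LaurentSeries R :=
  HahnSeries.single (1 : ℤ) 1 *
    HahnSeries.ofPowerSeries ℤ R ((jNum.invOfUnit 1).map (Int.castRingHom R))

theorem jqModC_mul_jInvSeries (R : Type) [CommRing R] : jqModC R * jInvSeries R = 1 := by
  rw [jqModC, jInvSeries, mul_mul_mul_comm, HahnSeries.single_mul_single, ← map_mul, ← map_mul,
    PowerSeries.mul_invOfUnit _ _ (by rw [constantCoeff_jNum]; rfl), map_one, map_one]
  simp

theorem coeffMap_jInvSeries {R K : Type} [CommRing R] [Field K] (g : R →+* K) :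
    coeffMap g (jInvSeries R) = (jqModC K)⁻¹ := by
  refine eq_inv_of_mul_eq_one_right ?_
  rw [← coeffMap_jqModC g, ← map_mul, jqModC_mul_jInvSeries, map_one]

theorem coeffMap_C {R K : Type} [CommRing R] [CommRing K] (g : R →+* K) (c : R) :
    coeffMap g (HahnSeries.C c) = HahnSeries.C (g c) := by
  rw [HahnSeries.C_apply, coeffMap_single]
  rfl

theorem coe_sE_sub {K : Type} [Field K] {F : IntermediateField K (LaurentSeries K)}
    (U : CuspSetting p K F) (c : K) :
    ((U.sE - algebraMap K F c : F) : LaurentSeries K) = (jqModC K)⁻¹ - HahnSeries.C c := by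
  show (jqModC K)⁻¹ - algebraMap K (LaurentSeries K) c = _
  rw [algebraMap_laurentSeries_eq_single]
  rfl

theorem coe_zE_sub {K : Type} [Field K] {F : IntermediateField K (LaurentSeries K)}
    (U : CuspSetting p K F) (c : K) :
    ((U.zE - algebraMap K F c : F) : LaurentSeries K) =
      qExpand K p (jqModC K) * ((jqModC K)⁻¹) ^ p - HahnSeries.C c := by
  show qExpand K p (jqModC K) / jqModC K ^ p - algebraMap K (LaurentSeries K) c = _
  rw [algebraMap_laurentSeries_eq_single, inv_pow, div_eq_mul_inv]
  rfl

theorem degree_affine {K : Type} [Field K] [IsAlgClosed K]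
    {F : IntermediateField K (LaurentSeries K)} (U : CuspSetting p K F) (c : K) :
    haveI := U.isFunctionField
    U.sE - algebraMap K F c ≠ 0 ∧
      Divisor.degree (divPos (divFun (K := K) (U.sE - algebraMap K F c))) = p + 1 ∧
      Divisor.degree (divPos (-divFun (K := K) (U.sE - algebraMap K F c))) = p + 1 := by
  have := U.isFunctionField
  set f := U.sE - algebraMap K F c with hf
  have htr : Transcendental K f := by
    intro halg
    have hs : IsAlgebraic K U.sE := by
      rw [show U.sE = f + algebraMap K F c by rw [hf]; ring]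
      exact halg.add (isAlgebraic_algebraMap c)
    have := hs.inv
    rw [CuspSetting.sE, inv_inv] at this
    exact U.transcendental_jE this
  have heq : IntermediateField.adjoin K {f} = IntermediateField.adjoin K {U.jE} := by
    refine le_antisymm (IntermediateField.adjoin_simple_le_iff.mpr ?_)
      (IntermediateField.adjoin_simple_le_iff.mpr ?_)
    · exact sub_mem (inv_mem (IntermediateField.mem_adjoin_simple_self K _))
        (IntermediateField.algebraMap_mem _ c)
    · rw [← inv_inv U.jE, ← CuspSetting.sE, show U.sE = f + algebraMap K F c by rw [hf]; ring]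
      exact inv_mem (add_mem (IntermediateField.mem_adjoin_simple_self K _)
        (IntermediateField.algebraMap_mem _ c))
  refine ⟨fun h => htr (h ▸ isAlgebraic_zero), ?_, ?_⟩
  · rw [degree_zeros htr, heq, U.finrank_eq]; push_cast; rfl
  · rw [degree_poles htr, heq, U.finrank_eq]; push_cast; rfl

include S T hr in
/-- Zeros of `1/j - a`, `a` in the maximal ideal, reduce to cusps and zeros of `j` do not. -/
theorem ord_sE_red {a : A} (ha : π a = 0)
    (v : Place L (laurentBaseChange L (modularFunctionFieldFull p))) :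
    (0 < v.ord (S.sE - algebraMap L _ (a : L)) → 0 < (r v).ord T.sE) ∧
      (v.ord S.sE < 0 → (r v).ord T.sE < 0) := by
  classical
  have := S.isFunctionField
  have := T.isFunctionField
  obtain ⟨hf0, hfz, hfp⟩ := degree_affine S (a : L)
  obtain ⟨hg0, hgz, hgp⟩ := degree_affine T (0 : k)
  rw [map_zero, sub_zero] at hg0 hgz hgp
  have hmap := mapDomain_divFun hr (f := S.sE - algebraMap L _ (a : L)) (g := T.sE)
    (y := jInvSeries A - HahnSeries.C a)
    (by rw [map_sub, coeffMap_jInvSeries, coeffMap_C, coe_sE_sub]; rfl)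
    (by rw [map_sub, coeffMap_jInvSeries, coeffMap_C, ha, map_zero, sub_zero]; rfl) hg0
  constructor
  · intro hv
    have h := mapDomain_divPos hr hmap (by rw [hfz, hgz])
    have h1 := le_mapDomain_apply r (divPos (divFun (K := L) (S.sE - algebraMap L _ (a : L))))
      (fun w => divPos_nonneg _ w) v
    rw [h, divPos_apply, divPos_apply, divFun_apply, divFun_apply] at h1
    omega
  · intro hv
    have hmap' : Finsupp.mapDomain r (-divFun (S.sE - algebraMap L _ (a : L))) =
        -divFun (K := k) T.sE := by
      rw [← hmap, ← Finsupp.mapDomain.addMonoidHom_apply, map_neg,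
        Finsupp.mapDomain.addMonoidHom_apply]
    have h := mapDomain_divPos hr hmap' (by rw [hfp, hgp])
    have h1 := le_mapDomain_apply r (divPos (-divFun (K := L) (S.sE - algebraMap L _ (a : L))))
      (fun w => divPos_nonneg _ w) v
    rw [h, divPos_apply, divPos_apply, Finsupp.neg_apply, Finsupp.neg_apply, divFun_apply,
      divFun_apply] at h1
    have hlt : v.ord (S.sE - algebraMap L _ (a : L)) < 0 := by
      have hs0 : S.sE ≠ 0 := inv_ne_zero S.jE_ne_zero
      have hsum := (ord_add_eq_left v hs0 (g := -algebraMap L _ (a : L))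
        (neg_mem (filt_antitone v (by omega) (algebraMap_mem_filt_zero v (a : L))))).2
      rw [← sub_eq_add_neg] at hsum
      omega
    omega

theorem zE_mem {K : Type} [Field K] [IsAlgClosed K]
    {F : IntermediateField K (LaurentSeries K)} (U : CuspSetting p K F) {v : Place K F}
    (hv : v.ord U.jE ≤ 0) : U.zE ∈ v.toValuationSubring := by
  have hj := U.jE_ne_zero
  refine mem_of_ord_nonneg v ?_
  rw [CuspSetting.zE, div_eq_mul_inv, v.ord_mul U.jpE_ne_zero (inv_ne_zero (pow_ne_zero _ hj)),
    v.ord_inv, ord_pow]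
  rcases lt_or_eq_of_le hv with h | h
  · rcases U.cusp_cases h with rfl | rfl
    · rw [U.ord_cInf_jE, U.ord_cInf_jpE]; simp
    · rw [U.ord_cZero_jE, U.ord_cZero_jpE]
      have := U.two_le
      nlinarith
  · have := ord_nonneg_of_mem v (U.jpE_mem h.ge)
    rw [h]
    omega

theorem ord_zE_cusps {K : Type} [Field K] [IsAlgClosed K]
    {F : IntermediateField K (LaurentSeries K)} (U : CuspSetting p K F) :
    U.zE ≠ 0 ∧ U.cInf.ord U.zE = 0 ∧ 0 < U.cZero.ord U.zE := by
  have hj := U.jE_ne_zero
  refine ⟨div_ne_zero U.jpE_ne_zero (pow_ne_zero _ hj), ?_, ?_⟩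
  · rw [CuspSetting.zE, div_eq_mul_inv,
      (U.cInf).ord_mul U.jpE_ne_zero (inv_ne_zero (pow_ne_zero _ hj)), (U.cInf).ord_inv, ord_pow,
      U.ord_cInf_jE, U.ord_cInf_jpE]
    ring
  · rw [CuspSetting.zE, div_eq_mul_inv,
      (U.cZero).ord_mul U.jpE_ne_zero (inv_ne_zero (pow_ne_zero _ hj)), (U.cZero).ord_inv, ord_pow,
      U.ord_cZero_jE, U.ord_cZero_jpE]
    have := U.two_le
    nlinarith

include S T hr in
/-- Zeros of `z - b` over a cusp reduce to zeros of `z - b`. -/
theorem ord_zE_red (b : A) {v : Place L (laurentBaseChange L (modularFunctionFieldFull p))}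
    (hcusp : 0 < (r v).ord T.sE) (hv : 0 < v.ord (S.zE - algebraMap L _ (b : L))) :
    0 < (r v).ord (T.zE - algebraMap k _ (π b)) := by
  classical
  have := S.isFunctionField
  have := T.isFunctionField
  set f := S.zE - algebraMap L _ (b : L)
  set g := T.zE - algebraMap k _ (π b) with hgdef
  obtain ⟨hz0, hzI, hzZ⟩ := ord_zE_cusps T
  have hg0 : g ≠ 0 := by
    intro h
    rw [hgdef, sub_eq_zero] at h
    rw [h, ord_algebraMap] at hzZ
    omega
  have hmap := mapDomain_divFun hr (f := f) (g := g)
    (y := qExpand A p (jqModC A) * jInvSeries A ^ p - HahnSeries.C b)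
    (by rw [map_sub, map_mul, map_pow, coeffMap_jInvSeries, coeffMap_C, coeffMap_qExpand,
      coeffMap_jqModC, coe_zE_sub]; rfl)
    (by rw [map_sub, map_mul, map_pow, coeffMap_jInvSeries, coeffMap_C, coeffMap_qExpand,
      coeffMap_jqModC, coe_zE_sub]) hg0
  have hnn : ∀ w, r w = r v → 0 ≤ w.ord f := by
    intro w hw
    have h1 : ¬ w.ord S.sE < 0 := fun h => by
      have := (ord_sE_red S T hr (a := 0) (map_zero π) w).2 h
      rw [hw] at this
      omega
    rw [CuspSetting.sE, w.ord_inv] at h1
    exact ord_nonneg_of_mem w (sub_mem (zE_mem S (by omega)) (w.algebraMap_mem' _))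
  have hneg : Finsupp.mapDomain r (divPos (-divFun (K := L) f)) (r v) = 0 := by
    refine mapDomain_eq_zero_of_forall r _ fun w hw hwv => hw ?_
    rw [divPos_apply, Finsupp.neg_apply, divFun_apply]
    have := hnn w hwv
    omega
  have hQ : Finsupp.mapDomain r (divPos (divFun (K := L) f)) (r v) = (r v).ord g := by
    rw [← divFun_apply (K := k) g, ← hmap]
    conv_rhs => rw [← divPos_sub_divPos_neg (divFun (K := L) f)]
    rw [Finsupp.mapDomain_sub, Finsupp.sub_apply, hneg, sub_zero]
  have h1 := le_mapDomain_apply r (divPos (divFun (K := L) f)) (fun w => divPos_nonneg _ w) v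
  rw [hQ, divPos_apply, divFun_apply] at h1
  omega

include S T hr in
/-- A place with `(1/j, j_p/j^p) ≡ (a, b)`, `a ≡ 0`, reduces to a cusp, read off from `b`. -/
theorem red_reducesTo {v : Place L (laurentBaseChange L (modularFunctionFieldFull p))} {a b : A}
    (hv : ReducesTo v S.sE S.zE (a : L) (b : L)) (ha : π a = 0) :
    (π b = 0 → r v = T.cZero) ∧ (π b ≠ 0 → r v = T.cInf) := by
  have := S.isFunctionField
  have := T.isFunctionField
  obtain ⟨hf0, -, -⟩ := degree_affine S (a : L)
  have hs : 0 < v.ord (S.sE - algebraMap L _ (a : L)) := le_ord_of_mem_filt hv.fst hf0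
  have hcusp := (ord_sE_red S T hr ha v).1 hs
  have hcases : r v = T.cInf ∨ r v = T.cZero := T.cusp_cases (by
    rw [CuspSetting.sE, (r v).ord_inv] at hcusp; omega)
  obtain ⟨hz0, hzI, hzZ⟩ := ord_zE_cusps S
  have hg0 : S.zE - algebraMap L _ (b : L) ≠ 0 := by
    intro h
    rw [sub_eq_zero] at h
    rw [h, ord_algebraMap] at hzZ
    omega
  have hz := ord_zE_red S T hr b hcusp (le_ord_of_mem_filt hv.snd hg0)
  obtain ⟨tz0, tzI, tzZ⟩ := ord_zE_cusps T
  constructor
  · intro hb
    rw [hb, map_zero, sub_zero] at hz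
    refine hcases.resolve_left fun h => ?_
    rw [h] at hz
    omega
  · intro hb
    refine hcases.resolve_right fun h => ?_
    rw [h] at hz
    have hc : algebraMap k (modularFunctionFieldFullC k p) (π b) ≠ 0 :=
      (_root_.map_ne_zero _).mpr hb
    have := (ord_add_eq_left T.cZero (f := -algebraMap k (modularFunctionFieldFullC k p) (π b))
      (neg_ne_zero.mpr hc) (g := T.zE) (mem_filt_of_le (by rw [ord_neg, ord_algebraMap]; omega))).2
    rw [neg_add_eq_sub, ord_neg, ord_algebraMap] at this
    omega

end Reduction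

/-- The `(1/j, j_p/j^p)` of the two cusps. -/
theorem reducesTo_cusps {p : ℕ} [NeZero p] {K : Type} [Field K] [IsAlgClosed K]
    {F : IntermediateField K (LaurentSeries K)} (U : CuspSetting p K F) :
    ReducesTo U.cInf U.sE U.zE (0 : K) 1 ∧ ReducesTo U.cZero U.sE U.zE (0 : K) 0 := by
  refine ⟨U.isBig_cInf.reducesTo U, ?_, ?_⟩
  · rw [map_zero, sub_zero]
    refine mem_filt_of_le ?_
    rw [CuspSetting.sE, (U.cZero).ord_inv, U.ord_cZero_jE]
    have := U.two_le
    omega
  · rw [map_zero, sub_zero]
    exact mem_filt_of_le (ord_zE_cusps U).2.2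

end FLTAgent.MazurModuli
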