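import Fermat.Agent.Igusa.IsogenyFunctions
import Mathlib.RingTheory.PowerSeries.Derivative
import Mathlib.Algebra.CharP.Lemmas

/-!
# The series of `Δ(q ^ p) / Δ(q)`

`unitSeries` and its leading term. In characteristic `r ≠ p` no nonzero constant multiple is an
`r ^ v`-th power once `r ^ v ∣ p - 1` and `r ^ v ∤ 24` (`pow_ne_const_mul_unitSeries`).
Used by `Unit`.
-/

set_option autoImplicit false

noncomputable section

open HahnSeries ModularCurve
open scoped PowerSeries.WithPiTopology

namespace FLTAgent.MazurModuli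

open FLTAgent.Igusa (qx Lead lead_single lead_ofPowerSeries deltaQ)

section Ring

variable (R : Type) [CommRing R]

/-- The series of `Δ(q^p) / Δ(q)`. -/
def unitSeries (p : ℕ) : LaurentSeries R :=
  single ((p : ℤ) - 1) 1 *
    qx R p (ofPowerSeries ℤ R (dedekindEtaUnit.map (Int.castRingHom R))) *
    ofPowerSeries ℤ R (dedekindEtaUnitInv.map (Int.castRingHom R))

theorem lead_etaUnit :
    Lead (ofPowerSeries ℤ R (dedekindEtaUnit.map (Int.castRingHom R))) 0 1 := by
  have h := lead_ofPowerSeries (dedekindEtaUnit.map (Int.castRingHom R))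
  rwa [← PowerSeries.coeff_zero_eq_constantCoeff, PowerSeries.coeff_map,
    PowerSeries.coeff_zero_eq_constantCoeff, constantCoeff_dedekindEtaUnit, map_one] at h

theorem lead_etaUnitInv :
    Lead (ofPowerSeries ℤ R (dedekindEtaUnitInv.map (Int.castRingHom R))) 0 1 := by
  have h := lead_ofPowerSeries (dedekindEtaUnitInv.map (Int.castRingHom R))
  rwa [← PowerSeries.coeff_zero_eq_constantCoeff, PowerSeries.coeff_map,
    PowerSeries.coeff_zero_eq_constantCoeff, constantCoeff_dedekindEtaUnitInv, map_one] at h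

theorem lead_unitSeries (p : ℕ) [NeZero p] : Lead (unitSeries R p) ((p : ℤ) - 1) 1 := by
  simpa [unitSeries] using ((lead_single ((p : ℤ) - 1) (1 : R)).mul
    ((lead_etaUnit R).qx (NeZero.ne p))).mul (lead_etaUnitInv R)

theorem qx_unitSeries (p : ℕ) [NeZero p] : qx R p (unitSeries R p) = deltaQ R p := by
  rw [unitSeries, deltaQ, map_mul, map_mul, FLTAgent.Igusa.qx_single (NeZero.ne p),
    FLTAgent.Igusa.qx_qx (NeZero.ne p) (NeZero.ne p), mul_sub, mul_one]

end Ring

theorem coeff_one_etaProd : PowerSeries.coeff 1 etaProd = -1 := by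
  classical
  have h : HasProd (fun n : ℕ => (1 : PowerSeries ℤ) - PowerSeries.X ^ (n + 1)) etaProd :=
    (PowerSeries.WithPiTopology.multipliable_one_sub_X_pow ℤ).hasProd
  have h1 := ((PowerSeries.WithPiTopology.continuous_coeff ℤ 1).tendsto etaProd).comp h
  have key : ∀ s : Finset ℕ,
      PowerSeries.coeff 0 (∏ n ∈ s, ((1 : PowerSeries ℤ) - PowerSeries.X ^ (n + 1))) = 1 ∧
        PowerSeries.coeff 1 (∏ n ∈ s, ((1 : PowerSeries ℤ) - PowerSeries.X ^ (n + 1))) =
          if 0 ∈ s then -1 else 0 := by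
    intro s
    induction s using Finset.induction_on with
    | empty => simp
    | insert a s ha ih =>
      rw [Finset.prod_insert ha, PowerSeries.coeff_mul, PowerSeries.coeff_mul]
      simp only [Finset.Nat.antidiagonal_succ, Finset.Nat.antidiagonal_zero, Finset.sum_cons,
        Finset.map_singleton, Finset.sum_singleton, Function.Embedding.coe_prodMap,
        Prod.map_apply, map_sub, PowerSeries.coeff_one, PowerSeries.coeff_X_pow,
        Function.Embedding.refl_apply, Function.Embedding.coeFn_mk, ih.1, ih.2]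
      rcases eq_or_ne a 0 with rfl | ha0
      · simp [ha]
      · simp [ha0, Ne.symm ha0]
  refine tendsto_nhds_unique h1 (tendsto_const_nhds.congr' ?_)
  filter_upwards [Filter.eventually_ge_atTop ({0} : Finset ℕ)] with s hs
  show (-1 : ℤ) = PowerSeries.coeff 1 (∏ n ∈ s, ((1 : PowerSeries ℤ) - PowerSeries.X ^ (n + 1)))
  rw [(key s).2, if_pos (hs (Finset.mem_singleton_self 0))]

section Field

variable (k : Type) [Field k]

/-- The series of `η` without its power of `q`. -/
def etaSeries : LaurentSeries k := ofPowerSeries ℤ k (etaProd.map (Int.castRingHom k))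

theorem lead_etaSeries : Lead (etaSeries k) 0 1 := by
  have h := lead_ofPowerSeries (etaProd.map (Int.castRingHom k))
  rwa [← PowerSeries.coeff_zero_eq_constantCoeff, PowerSeries.coeff_map,
    PowerSeries.coeff_zero_eq_constantCoeff, constantCoeff_etaProd, map_one] at h

theorem etaSeries_ne_zero : etaSeries k ≠ 0 := (lead_etaSeries k).ne_zero one_ne_zero

/-- `η(q^p) / η(q)` without its power of `q`. -/
def etaQuot (p : ℕ) : LaurentSeries k := qx k p (etaSeries k) / etaSeries k

theorem unitSeries_eq (p : ℕ) [NeZero p] :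
    unitSeries k p = single ((p : ℤ) - 1) 1 * etaQuot k p ^ 24 := by
  have hE : ofPowerSeries ℤ k (dedekindEtaUnit.map (Int.castRingHom k)) = etaSeries k ^ 24 := by
    rw [etaSeries, dedekindEtaUnit, map_pow, map_pow]
  have hI : ofPowerSeries ℤ k (dedekindEtaUnitInv.map (Int.castRingHom k)) =
      (etaSeries k ^ 24)⁻¹ := by
    refine eq_inv_of_mul_eq_one_left ?_
    rw [← hE, ← map_mul, ← map_mul, mul_comm, dedekindEtaUnit_mul_inv, map_one, map_one]
  rw [unitSeries, hE, hI, map_pow, etaQuot, div_pow, mul_assoc, ← div_eq_mul_inv]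

theorem lead_etaQuot_sub_one {p : ℕ} [NeZero p] (hp : 2 ≤ p) :
    Lead (etaQuot k p - 1) 1 1 ∧ Lead (etaQuot k p) 0 1 := by
  have h0 := lead_etaSeries k
  have hq := h0.qx (NeZero.ne p)
  rw [mul_zero] at hq
  have hne := etaSeries_ne_zero k
  have hinv : Lead (etaSeries k)⁻¹ 0 1 := by
    have e : (etaSeries k)⁻¹ = ofPowerSeries ℤ k ((etaProd.map (Int.castRingHom k))⁻¹) := by
      refine (eq_inv_of_mul_eq_one_left ?_).symm
      rw [etaSeries, ← map_mul, PowerSeries.inv_mul_cancel _ (by
        rw [← PowerSeries.coeff_zero_eq_constantCoeff, PowerSeries.coeff_map,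
          PowerSeries.coeff_zero_eq_constantCoeff, constantCoeff_etaProd, map_one]
        exact one_ne_zero), map_one]
    rw [e]
    have h := lead_ofPowerSeries ((etaProd.map (Int.castRingHom k))⁻¹)
    rwa [PowerSeries.constantCoeff_inv, ← PowerSeries.coeff_zero_eq_constantCoeff,
      PowerSeries.coeff_map, PowerSeries.coeff_zero_eq_constantCoeff, constantCoeff_etaProd,
      map_one, inv_one] at h
  have h1 : Lead (qx k p (etaSeries k) - etaSeries k) 1 1 := by
    refine ⟨?_, fun i hi => ?_⟩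
    · rw [coeff_sub, FLTAgent.Igusa.qx_coeff_of_not_dvd (NeZero.ne p) _ (by
        intro hd; have := Int.le_of_dvd one_pos hd; omega),
        etaSeries, show (1 : ℤ) = ((1 : ℕ) : ℤ) from rfl, ofPowerSeries_apply_coeff,
        PowerSeries.coeff_map, coeff_one_etaProd]
      simp
    · rcases lt_or_eq_of_le (Int.lt_add_one_iff.mp (show i < 0 + 1 by simpa using hi)) with h | h
      · rw [coeff_sub, hq.2 i h, h0.2 i h, sub_zero]
      · rw [h, coeff_sub, hq.1, h0.1, sub_self]
  refine ⟨?_, ?_⟩
  · rw [etaQuot, div_eq_mul_inv,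
      show qx k p (etaSeries k) * (etaSeries k)⁻¹ - 1 =
        (qx k p (etaSeries k) - etaSeries k) * (etaSeries k)⁻¹ by rw [sub_mul, mul_inv_cancel₀ hne]]
    simpa using h1.mul hinv
  · rw [etaQuot, div_eq_mul_inv]
    simpa using hq.mul hinv

variable {k}

theorem exists_pow_eq_qExpand {r : ℕ} [Fact r.Prime] [CharP k r] (x : LaurentSeries k) :
    ∃ y : LaurentSeries k, x ^ r = qx k r y := by
  have hr : r ≠ 0 := (Fact.out : r.Prime).ne_zero
  set F := x.powerSeriesPart ^ r with hF
  have hzero : ∀ n : ℕ, ¬ r ∣ n → PowerSeries.coeff n F = 0 := by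
    intro n hn
    cases n with
    | zero => exact absurd (dvd_zero r) hn
    | succ m =>
      have h := PowerSeries.coeff_derivative F m
      rw [hF, PowerSeries.derivative_pow, ← map_natCast (PowerSeries.C (R := k)) r,
        CharP.cast_eq_zero,
        map_zero, zero_mul, zero_mul, map_zero] at h
      refine (mul_eq_zero.mp h.symm).resolve_right ?_
      rw [← Nat.cast_add_one, CharP.cast_eq_zero_iff k r]
      exact hn
  set G : PowerSeries k := PowerSeries.mk fun m => PowerSeries.coeff (r * m) F with hG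
  have hFG : ofPowerSeries ℤ k F = qx k r (ofPowerSeries ℤ k G) := by
    ext i
    by_cases hd : (r : ℤ) ∣ i
    · obtain ⟨m, rfl⟩ := hd
      rw [FLTAgent.Igusa.qx_coeff_mul hr]
      rcases le_or_gt 0 m with hm | hm
      · lift m to ℕ using hm
        rw [show (r : ℤ) * m = ((r * m : ℕ) : ℤ) by push_cast; ring, ofPowerSeries_apply_coeff,
          ofPowerSeries_apply_coeff, hG, PowerSeries.coeff_mk]
      · rw [ofPowerSeries_coeff_of_neg _ hm, ofPowerSeries_coeff_of_neg _
          (mul_neg_of_pos_of_neg (by exact_mod_cast Nat.pos_of_ne_zero hr) hm)]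
    · rw [FLTAgent.Igusa.qx_coeff_of_not_dvd hr _ hd]
      rcases le_or_gt 0 i with hi | hi
      · lift i to ℕ using hi
        rw [ofPowerSeries_apply_coeff]
        exact hzero i fun h => hd (by exact_mod_cast h)
      · exact ofPowerSeries_coeff_of_neg _ hi
  refine ⟨single x.order 1 * ofPowerSeries ℤ k G, ?_⟩
  conv_lhs => rw [← x.single_order_mul_powerSeriesPart]
  rw [mul_pow, single_pow, one_pow, ← map_pow, ← hF, hFG, map_mul,
    FLTAgent.Igusa.qx_single hr, nsmul_eq_mul]

theorem coeff_pow_eq_zero {r : ℕ} [Fact r.Prime] [CharP k r] :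
    ∀ (v : ℕ) (x : LaurentSeries k) (n : ℤ), ¬ ((r ^ v : ℕ) : ℤ) ∣ n →
      (x ^ r ^ v).coeff n = 0 := by
  intro v
  induction v with
  | zero => intro x n hn; exact absurd (by simp) hn
  | succ v ih =>
    intro x n hn
    have hr : r ≠ 0 := (Fact.out : r.Prime).ne_zero
    obtain ⟨y, hy⟩ := exists_pow_eq_qExpand (r := r) x
    rw [pow_succ', pow_mul, hy, ← map_pow]
    by_cases hd : (r : ℤ) ∣ n
    · obtain ⟨m, rfl⟩ := hd
      rw [FLTAgent.Igusa.qx_coeff_mul hr]
      refine ih y m fun h => hn ?_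
      rw [pow_succ', Nat.cast_mul]
      exact mul_dvd_mul_left _ h
    · exact FLTAgent.Igusa.qx_coeff_of_not_dvd hr _ hd

/-- No nonzero multiple of `Δ(q^p)/Δ(q)` is an `r^v`-th power, `r^v ∣ p - 1`, `r^v ∤ 24`. -/
theorem pow_ne_const_mul_unitSeries {r p : ℕ} [Fact r.Prime] [CharP k r] [NeZero p] (hp : 2 ≤ p)
    {v : ℕ} (hv : r ^ v ∣ p - 1) (h24 : ¬ r ^ v ∣ 24) (x : LaurentSeries k) {c : k} (hc : c ≠ 0) :
    x ^ r ^ v ≠ HahnSeries.C c * unitSeries k p := by
  intro h
  have hr : r.Prime := Fact.out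
  have : ExpChar k r := ExpChar.prime hr
  have : CharP (LaurentSeries k) r :=
    charP_of_injective_algebraMap (algebraMap k (LaurentSeries k)).injective r
  have : ExpChar (LaurentSeries k) r := ExpChar.prime hr
  set j := (24 : ℕ).factorization r with hjdef
  set e := 24 / r ^ j with he
  have h24e : 24 = r ^ j * e := (Nat.mul_div_cancel' (Nat.ordProj_dvd 24 r)).symm
  have hre : ¬ r ∣ e := Nat.not_dvd_ordCompl hr (by norm_num)
  have hjv : j < v := by
    by_contra hle
    push Not at hle
    exact h24 ((pow_dvd_pow r hle).trans (Nat.ordProj_dvd 24 r))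
  have he0 : (e : k) ≠ 0 := fun h0 => hre ((CharP.cast_eq_zero_iff k r e).mp h0)
  obtain ⟨hd, h0⟩ := lead_etaQuot_sub_one k hp
  set H := etaQuot k p ^ e with hH
  have hH1 : Lead (H - 1) 1 (e : k) := by
    have hsum : Lead (∑ i ∈ Finset.range e, etaQuot k p ^ i) 0 (e : k) := by
      refine ⟨?_, fun i hi => ?_⟩
      · rw [coeff_sum, Finset.sum_congr rfl fun i _ => show (etaQuot k p ^ i).coeff 0 = 1 by
          have := (h0.pow i).1; rwa [mul_zero, one_pow] at this]
        simp
      · rw [coeff_sum]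
        exact Finset.sum_eq_zero fun l _ => (h0.pow l).2 i (by simpa using hi)
    rw [hH, ← geom_sum_mul]
    simpa using hsum.mul hd
  have hu : unitSeries k p = single ((p : ℤ) - 1) 1 +
      single ((p : ℤ) - 1) 1 * (H - 1) ^ r ^ j := by
    rw [unitSeries_eq, h24e, mul_comm (r ^ j) e, pow_mul, ← hH, sub_pow_char_pow, one_pow]
    ring
  have hN : (unitSeries k p).coeff ((p : ℤ) - 1 + (r ^ j : ℕ)) = (e : k) ^ r ^ j := by
    have hl := ((lead_single ((p : ℤ) - 1) (1 : k)).mul (hH1.pow (r ^ j))).1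
    rw [mul_one, one_mul] at hl
    rw [hu, coeff_add, coeff_single_of_ne (by
      have : 0 < r ^ j := pow_pos hr.pos j
      omega), zero_add]
    exact hl
  have hnd : ¬ ((r ^ v : ℕ) : ℤ) ∣ (p : ℤ) - 1 + (r ^ j : ℕ) := by
    intro hdiv
    have h1 : ((r ^ v : ℕ) : ℤ) ∣ (((p - 1 : ℕ)) : ℤ) := by exact_mod_cast hv
    rw [Nat.cast_sub (by omega), Nat.cast_one] at h1
    have h2 : ((r ^ v : ℕ) : ℤ) ∣ ((r ^ j : ℕ) : ℤ) := by simpa using dvd_sub hdiv h1
    exact absurd (Nat.pow_dvd_pow_iff_le_right hr.one_lt |>.mp (by exact_mod_cast h2)) (by omega)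
  have hz := coeff_pow_eq_zero v x _ hnd
  rw [h, C_apply, coeff_single_zero_mul, hN] at hz
  exact mul_ne_zero hc (pow_ne_zero _ he0) hz

end Field

end FLTAgent.MazurModuli
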