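import Fermat.Agent.MazurModuli.Cusps
import Fermat.Agent.MazurModuli.UnitSeries
import Fermat.Agent.Igusa.ModularPolynomial

/-!
# The unit `Δ(q ^ p) / Δ(q)` of `X₀(p)`

It lies in the function field (`uE`) and its divisor is `(p - 1)((∞) - (0))` in characteristic
prime to `p` (`divFun_uE`). Used by `Main` for the order of the cuspidal class.
-/

set_option autoImplicit false

noncomputable section

open Polynomial AlgebraicCurve ModularCurve

namespace FLTAgent.MazurModuli

open FLTAgent.Igusa (jv qx Lead ZetaRing PolyData zetaU ev deltaQ isoFSeries pairPsi expandPair)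
open FLTAgent.FFBasic

theorem lead_const_pow {R : Type} [CommRing R] (a : R) (n : ℕ) :
    Lead ((HahnSeries.C a : LaurentSeries R) ^ n) 0 (a ^ n) := by
  simpa using (FLTAgent.Igusa.lead_C a).pow n

/-- The polynomial with roots the conjugates of `p^12 Δ(q^p)/Δ(q)`: its constant term is a
constant. -/
theorem exists_unitPoly (p : ℕ) [NeZero p] (hp : p.Prime) :
    ∃ (Ψ : Polynomial (Polynomial (ZetaRing p))) (ε : ZetaRing p), Ψ.Monic ∧ IsUnit ε ∧
      Ψ.map (ev (jv 1 p)) = ∏ i, (X - C (isoFSeries p i)) ∧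
      Ψ.coeff 0 = C (ε * (p : ZetaRing p) ^ 12) := by
  classical
  have : Fact p.Prime := ⟨hp⟩
  have := nontrivial_zetaRing (p := p)
  obtain ⟨-, h2, -⟩ := FLTAgent.Igusa.mem_lifts_all p
  obtain ⟨Ψ, hΨ, -, hm⟩ := lifts_and_natDegree_eq_and_monic h2
    (FLTAgent.Igusa.monic_expand_prod p _)
  have hprod : Ψ.map (ev (jv 1 p)) = ∏ i, (X - C (isoFSeries p i)) := by
    rw [hΨ, pairPsi]
    simp [Polynomial.map_prod]
  have hsome : ∀ b : ZMod p, Lead (-isoFSeries p (some b)) (1 - (p : ℤ))
      (-((zetaU p ^ b.val : (ZetaRing p)ˣ) : ZetaRing p)) := by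
    intro b
    have hd : Lead (FLTAgent.Igusa.discSeries (ZetaRing p)) 1 1 := by
      simpa [FLTAgent.Igusa.discSeries] using
        (FLTAgent.Igusa.lead_single (1 : ℤ) (1 : ZetaRing p)).mul (lead_etaUnit _)
    have hi : Lead (FLTAgent.Igusa.discInvSeries (ZetaRing p)) (-1) 1 := by
      simpa [FLTAgent.Igusa.discInvSeries] using
        (FLTAgent.Igusa.lead_single (-1 : ℤ) (1 : ZetaRing p)).mul (lead_etaUnitInv _)
    have h := (hd.scale (zetaU p ^ b.val)).mul (hi.qx (NeZero.ne p))
    rw [zpow_one, mul_one, mul_one, mul_neg, mul_one, ← sub_eq_add_neg] at h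
    exact lead_neg h
  have hnone : Lead (-isoFSeries p none) ((p : ℤ) * p - p) (-((p : ZetaRing p) ^ 12)) := by
    refine lead_neg ?_
    have h := (lead_const_pow (p : ZetaRing p) 12).mul (FLTAgent.Igusa.lead_deltaQ (ZetaRing p) p)
    rw [map_natCast, zero_add, mul_one] at h
    exact h
  set ε : ZetaRing p := -∏ b : ZMod p, -((zetaU p ^ b.val : (ZetaRing p)ˣ) : ZetaRing p) with hεdef
  have hlead : Lead (ev (jv 1 p) (Ψ.coeff 0)) 0 (ε * (p : ZetaRing p) ^ 12) := by
    rw [← Polynomial.coeff_map, hprod, coeff_zero_eq_eval_zero, eval_prod]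
    simp only [eval_sub, eval_X, eval_C, zero_sub]
    rw [Fintype.prod_option]
    convert hnone.mul (lead_prod Finset.univ (fun b : ZMod p => -isoFSeries p (some b))
      (fun b => -((zetaU p ^ b.val : (ZetaRing p)ˣ) : ZetaRing p)) fun b _ => hsome b) using 1
    · rw [Finset.card_univ, ZMod.card]; ring
    · rw [hεdef]; ring
  have hdeg : (Ψ.coeff 0).natDegree ≤ 0 := by
    refine natDegree_le_of_below (lead_jv_one p) (by have := hp.pos; omega) hlead.2 ?_
    have := hp.pos
    push_cast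
    omega
  refine ⟨Ψ, ε, hm, (IsUnit.prod_iff.mpr fun b _ => (zetaU p ^ b.val).isUnit.neg).neg, hprod, ?_⟩
  · rw [eq_C_of_natDegree_le_zero hdeg]
    congr 1
    have h := (lead_ev (lead_jv_one p) (by have := hp.pos; omega) _ hdeg).1
    rw [Nat.cast_zero, zero_mul] at h
    rw [← h, hlead.1]

namespace CuspSetting

variable {p : ℕ} [NeZero p] {k : Type} [Field k] {F : IntermediateField k (LaurentSeries k)}
  (S : CuspSetting p k F)

include S

/-- `q ↦ q^p` on `F`. -/
def psiHom (_S : CuspSetting p k F) : F →+* LaurentSeries k :=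
  (qExpand k p).comp (algebraMap F (LaurentSeries k))

omit S in
theorem psiHom_injective (S : CuspSetting p k F) : Function.Injective S.psiHom :=
  (qExpand_injective (R := k) p).comp (algebraMap F (LaurentSeries k)).injective

theorem psiHom_eval (f : ZetaRing p →+* k) (P : Polynomial (Polynomial (ZetaRing p))) (x : F) :
    S.psiHom ((P.map (eval₂RingHom ((algebraMap k F).comp f) S.jE)).eval x) =
      ((P.map (ev (jv 1 p))).map (coeffMap f)).eval (S.psiHom x) := by
  rw [← eval_map_apply, Polynomial.map_map, Polynomial.map_map]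
  congr 2
  refine Polynomial.ringHom_ext (fun a => ?_) ?_
  · simp [psiHom, ev, algebraMap_laurentSeries_eq_single, HahnSeries.C_apply]
  · simp only [RingHom.comp_apply, coe_eval₂RingHom, eval₂_X, ev, psiHom]
    rw [FLTAgent.Igusa.coeffMap_jv f 1 (NeZero.ne p), map_one, FLTAgent.Igusa.jv_one_eq]
    rfl

variable [IsAlgClosed k]

theorem unitSeries_mem : unitSeries k p ∈ F := by
  set D := phiData S.prime
  set f := S.someHom
  set x₀ := jv (1 : (ZetaRing p)ˣ) (p * p)
  set P₀ := ((derivative D.Φ).map (ev (jv 1 p))).eval x₀ with hP₀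
  have hd : P₀ = ∏ a ∈ Finset.range p, (x₀ - jv (zetaU p ^ a) 1) := by
    rw [hP₀, ← derivative_map, D.Φ_eq, derivative_mul, eval_add, eval_mul, eval_mul]
    simp [eval_prod, x₀]
  have hx : S.psiHom S.jpE = coeffMap f x₀ := by
    rw [FLTAgent.Igusa.coeffMap_jv _ _ (mul_ne_zero (NeZero.ne p) (NeZero.ne p)), map_one]
    show qExpand k p (qExpand k p (jqModC k)) = _
    rw [qExpand_qExpand, FLTAgent.Igusa.jv_one_eq]
  set g := (D.G.map (eval₂RingHom ((algebraMap k F).comp f) S.jE)).eval S.jpE with hg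
  set d := ((derivative D.Φ).map (eval₂RingHom ((algebraMap k F).comp f) S.jE)).eval S.jpE with hd'
  have hdψ : S.psiHom d = coeffMap f P₀ := by
    rw [hd', S.psiHom_eval, hx, eval_map_apply, hP₀]
  have hgψ : S.psiHom g =
      (p : LaurentSeries k) ^ 12 * qx k p (unitSeries k p) * coeffMap f P₀ := by
    rw [hg, S.psiHom_eval, hx, eval_map_apply, D.G_eq, map_mul, map_mul, map_pow, map_natCast,
      FLTAgent.Igusa.coeffMap_deltaQ, hd, qx_unitSeries]
  have hd0 : d ≠ 0 := by
    intro h0
    have h1 := congrArg (coeffMap f) hd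
    rw [← hdψ, h0, map_zero, map_prod] at h1
    obtain ⟨a, -, ha⟩ := Finset.prod_eq_zero_iff.mp h1.symm
    rw [map_sub, sub_eq_zero, FLTAgent.Igusa.coeffMap_jv _ _
      (mul_ne_zero (NeZero.ne p) (NeZero.ne p)),
      FLTAgent.Igusa.coeffMap_jv _ _ one_ne_zero, map_one] at ha
    have := (FLTAgent.Igusa.jv_inj (mul_ne_zero (NeZero.ne p) (NeZero.ne p)) one_ne_zero ha).1
    have h2 := S.two_le
    nlinarith
  have key : (g : LaurentSeries k) =
      (p : LaurentSeries k) ^ 12 * unitSeries k p * (d : LaurentSeries k) := by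
    refine qExpand_injective (R := k) p ?_
    rw [map_mul, map_mul, map_pow, map_natCast, ← FLTAgent.Igusa.qx_eq]
    show (qx k p) (g : LaurentSeries k) = _
    rw [FLTAgent.Igusa.qx_eq] at hgψ ⊢
    exact hgψ.trans (by rw [← hdψ]; rfl)
  have hpk : (p : LaurentSeries k) ^ 12 ≠ 0 := by
    rw [← map_natCast (HahnSeries.C : k →+* LaurentSeries k)]
    exact pow_ne_zero _ ((_root_.map_ne_zero _).mpr S.ne_zero)
  have hdne : (d : LaurentSeries k) ≠ 0 := fun h => hd0 (Subtype.ext h)
  have e : unitSeries k p =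
      (g : LaurentSeries k) / ((p : LaurentSeries k) ^ 12 * (d : LaurentSeries k)) := by
    rw [key, eq_div_iff (mul_ne_zero hpk hdne)]; ring
  rw [e]
  exact div_mem g.2 (mul_mem (pow_mem (natCast_mem F p) 12) d.2)

/-- `Δ(q^p)/Δ(q)` in `F`. -/
def uE : F := ⟨unitSeries k p, S.unitSeries_mem⟩

theorem coe_uE : (S.uE : LaurentSeries k) = unitSeries k p := rfl

theorem uE_ne_zero : S.uE ≠ 0 := fun h =>
  (lead_unitSeries k p).ne_zero one_ne_zero (congrArg Subtype.val h)

/-- The unit has no zero or pole where `j` is integral. -/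
theorem ord_uE_of_nonneg {v : Place k F} (hv : 0 ≤ v.ord S.jE) : v.ord S.uE = 0 := by
  obtain ⟨Ψ, ε, hm, hε, hprod, h0⟩ := exists_unitPoly p S.prime
  have hroot : (Ψ.map (ev (jv 1 p))).eval
      ((p : LaurentSeries (ZetaRing p)) ^ 12 * deltaQ (ZetaRing p) p) = 0 := by
    rw [hprod, eval_prod]
    refine Finset.prod_eq_zero (Finset.mem_univ none) ?_
    rw [eval_sub, eval_X, eval_C, sub_eq_zero]
    rfl
  set f := S.someHom
  set w : F := (p : F) ^ 12 * S.uE with hw
  have hj : S.jE ∈ v.toValuationSubring := mem_of_ord_nonneg v hv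
  set gO := eval₂RingHom ((algebraMap k v.toValuationSubring).comp f) ⟨S.jE, hj⟩ with hgO
  have hcomp : (algebraMap v.toValuationSubring F).comp gO =
      eval₂RingHom ((algebraMap k F).comp f) S.jE := by
    refine Polynomial.ringHom_ext (fun a => ?_) ?_ <;> simp [hgO]
  have hev : ((Ψ.map gO).map (algebraMap v.toValuationSubring F)).eval w = 0 := by
    rw [Polynomial.map_map, hcomp]
    refine S.psiHom_injective ?_
    rw [map_zero, S.psiHom_eval]
    have hwψ : S.psiHom w =
        coeffMap f ((p : LaurentSeries (ZetaRing p)) ^ 12 * deltaQ (ZetaRing p) p) := by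
      rw [hw, map_mul, map_pow, map_natCast, map_mul, map_pow, map_natCast,
        FLTAgent.Igusa.coeffMap_deltaQ, ← qx_unitSeries, FLTAgent.Igusa.qx_eq]
      rfl
    rw [hwψ, eval_map_apply, hroot, map_zero]
  have hwO : w ∈ v.toValuationSubring := by
    have hint : IsIntegral v.toValuationSubring w :=
      ⟨Ψ.map gO, hm.map _, by rw [← eval_map]; exact hev⟩
    obtain ⟨y, hy⟩ := IsIntegrallyClosed.isIntegral_iff.mp hint
    exact hy ▸ y.2
  set rest : v.toValuationSubring := (Ψ.map gO).divX.eval ⟨w, hwO⟩ with hrest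
  have hc : w * (rest : F) = -algebraMap k F (f (ε * (p : ZetaRing p) ^ 12)) := by
    have h1 : (Ψ.map gO).eval (⟨w, hwO⟩ : v.toValuationSubring) = 0 := by
      apply Subtype.ext
      rw [ZeroMemClass.coe_zero, ← hev]
      exact (eval_map_apply (f := algebraMap v.toValuationSubring F) _).symm
    rw [← Polynomial.X_mul_divX_add (Ψ.map gO), eval_add, eval_mul, eval_X, eval_C,
      Polynomial.coeff_map, h0] at h1
    have h2 := congrArg (algebraMap v.toValuationSubring F) h1
    rw [map_add, map_mul, map_zero, ← RingHom.comp_apply, hcomp, coe_eval₂RingHom, eval₂_C] at h2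
    exact eq_neg_of_add_eq_zero_left h2
  have hc0 : f (ε * (p : ZetaRing p) ^ 12) ≠ 0 := by
    rw [map_mul, map_pow, map_natCast]
    exact mul_ne_zero (hε.map f).ne_zero (pow_ne_zero _ S.ne_zero)
  have hc0' : algebraMap k F (f (ε * (p : ZetaRing p) ^ 12)) ≠ 0 := (_root_.map_ne_zero _).mpr hc0
  have hp12 : (p : F) ^ 12 ≠ 0 ∧ v.ord ((p : F) ^ 12) = 0 := by
    rw [← map_natCast (algebraMap k F), ← map_pow]
    exact ⟨(_root_.map_ne_zero _).mpr (pow_ne_zero _ S.ne_zero), ord_algebraMap v _⟩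
  have hw0 : w ≠ 0 := mul_ne_zero hp12.1 S.uE_ne_zero
  have hr0 : (rest : F) ≠ 0 := fun h => hc0' (by rw [← neg_eq_zero, ← hc, h, mul_zero])
  have hord := congrArg v.ord hc
  rw [v.ord_mul hw0 hr0, ord_neg, ord_algebraMap] at hord
  have h1 := ord_nonneg_of_mem v hwO
  have h2 := ord_nonneg_of_mem v rest.2
  have h3 : v.ord w = v.ord S.uE := by rw [hw, v.ord_mul hp12.1 S.uE_ne_zero, hp12.2, zero_add]
  omega

theorem ord_cInf_uE : S.cInf.ord S.uE = (p : ℤ) - 1 := by
  rw [S.ord_cInf_eq_order S.uE_ne_zero, coe_uE]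
  exact order_eq_of_lead (lead_unitSeries k p) one_ne_zero

/-- The divisor of the unit. -/
theorem divFun_uE [IsFunctionField k F] :
    divFun (K := k) S.uE =
      ((p : ℤ) - 1) • (Finsupp.single S.cInf 1 - Finsupp.single S.cZero 1) := by
  classical
  have hne := S.cZero_ne_cInf
  have hzero : ∀ v : Place k F, v ≠ S.cInf → v ≠ S.cZero → v.ord S.uE = 0 := fun v h1 h2 =>
    S.ord_uE_of_nonneg (le_of_not_gt fun h => (S.cusp_cases h).elim h1 h2)
  set m := S.cZero.ord S.uE
  have hdiv : divFun (K := k) S.uE =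
      ((p : ℤ) - 1) • Finsupp.single S.cInf 1 + m • Finsupp.single S.cZero 1 := by
    ext v
    rcases eq_or_ne v S.cInf with rfl | h1
    · simp [Finsupp.single_eq_of_ne hne.symm, S.ord_cInf_uE]
    rcases eq_or_ne v S.cZero with rfl | h2
    · simp [Finsupp.single_eq_of_ne hne, m]
    · simp [Finsupp.single_eq_of_ne h1, Finsupp.single_eq_of_ne h2, hzero v h1 h2]
  have hdeg := degree_divFun (K := k) S.uE
  rw [hdiv, map_add, map_zsmul, map_zsmul, Divisor.degree_single, Divisor.degree_single,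
    place_deg_eq_one, place_deg_eq_one] at hdeg
  simp only [Nat.cast_one, mul_one, zsmul_eq_mul, Int.cast_id] at hdeg
  rw [hdiv, show m = -((p : ℤ) - 1) by omega, neg_smul, smul_sub]
  exact (sub_eq_add_neg _ _).symm

end CuspSetting

end FLTAgent.MazurModuli
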