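import Fermat.Agent.MazurModuli.Point
import Fermat.Agent.MazurModuli.Reduction
import Fermat.Agent.MazurModuli.Unit
import Fermat.Agent.GoodReduction.IntegralBasis
import Fermat.Agent.Deuring.Archimedean

/-!
# The moduli point and the cusps on `J₀(p)`

For a curve over `ℤ` with a rational point `Q` of order `p`: `exists_moduliPoints` gives rational
classes `y = (x) - (0)` (`x` the moduli point) and `t = (∞) - (0)`. At a multiplicative place `y`
reduces to `0` or `t` as `Q` meets the node or not, and `t` keeps order `(p - 1)` up to divisors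
of `24`. Used by `MazurStep.Main`.
-/

set_option autoImplicit false

noncomputable section

open Polynomial AlgebraicCurve ModularCurve

namespace FLTAgent.MazurModuli

attribute [local instance high] SubalgebraClass.toAlgebra HahnSeries.powerSeriesAlgebra

open FLTAgent.FFBasic FLTAgent.ECReduction FLTAgent.Igusa
open scoped WeierstrassCurve.Affine

/-- The classes `y = (x) - (0)` and `t = (∞) - (0)` and what is known of their reductions. -/
structure ModuliPoints (p : ℕ) [NeZero p] (W : WeierstrassCurve ℤ)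
    (Q : ((W.map (Int.castRingHom ℚ))⁄(AlgebraicClosure ℚ)).Point) (y t : JZero p) : Prop where
  fix_y : ∀ σ : AlgebraicClosure ℚ ≃ₐ[ℚ] AlgebraicClosure ℚ, σ • y = y
  fix_t : ∀ σ : AlgebraicClosure ℚ ≃ₐ[ℚ] AlgebraicClosure ℚ, σ • t = t
  torsion_t : (p - 1) • t = 0
  red_ne_zero : ∀ r : ℕ, r.Prime → r ≠ p → ¬ r ^ (p - 1).factorization r ∣ 24 →
    ∀ A : ValuationSubring (AlgebraicClosure ℚ), A.LiesOverPrime r → ReductionInputsModL A p →
      reductionModL A p (((p - 1) / r ^ (p - 1).factorization r) • t) ≠ 0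
  outside : ∀ q : ℕ, q.Prime → q ≠ p → (q : ℤ) ∣ W.Δ → ¬ (q : ℤ) ∣ W.c₄ →
    ∀ A : ValuationSubring (AlgebraicClosure ℚ), A.LiesOverPrime q → ReductionInputsModL A p →
      ¬ W.InZeroComponentAt A Q → reductionModL A p y = 0
  inside : ∀ q : ℕ, q.Prime → 5 ≤ q → q ≠ p → (q : ℤ) ∣ W.Δ → ¬ (q : ℤ) ∣ W.c₄ →
    ∀ A : ValuationSubring (AlgebraicClosure ℚ), A.LiesOverPrime q → ReductionInputsModL A p →
      W.InZeroComponentAt A Q → reductionModL A p y = reductionModL A p t

theorem hPoly_monic {p : ℕ} [NeZero p] {k : Type} [CommRing k] [Nontrivial k] (hp : 2 ≤ p)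
    (D : PolyData p) (f : ZetaRing p →+* k) :
    (hPoly D f).Monic ∧ (hPoly D f).natDegree = p + 1 := by
  have hS := phiShape hp D
  have hp1 : D.Φ.coeff (p + 1) = 1 := by
    rw [← hS.natDegree_eq]; exact D.Φ_monic.coeff_natDegree
  have hco : (hPoly D f).coeff (p + 1) = 1 := by
    rw [hPoly, finsetSum_coeff, Finset.sum_eq_single (p + 1)]
    · simp [hp1]
    · intro b _ hb
      rw [coeff_C_mul, coeff_X_pow, if_neg hb.symm, mul_zero]
    · simp
  have hle : (hPoly D f).natDegree ≤ p + 1 :=
    natDegree_sum_le_of_forall_le _ _ fun i hi => (natDegree_C_mul_X_pow_le _ _).trans (by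
      rw [Finset.mem_range] at hi; omega)
  exact ⟨monic_of_natDegree_le_of_coeff_eq_one _ hle hco,
    natDegree_eq_of_le_of_coeff_ne_zero hle (by rw [hco]; exact one_ne_zero)⟩

theorem pic0_mk_eq_zero {K F : Type*} [Field K] [Field F] [Algebra K F]
    (D : Divisor.degZero (K := K) (F := F)) :
    Pic0.mk D = 0 ↔ Divisor.IsPrincipal (D : Divisor K F) :=
  (QuotientAddGroup.eq_zero_iff D).trans AddSubgroup.mem_addSubgroupOf

theorem pic0_nsmul_mk {K F : Type*} [Field K] [Field F] [Algebra K F] (n : ℕ)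
    (D : Divisor.degZero (K := K) (F := F)) : n • Pic0.mk D = Pic0.mk (n • D) :=
  rfl

local notation "Qb" => AlgebraicClosure ℚ

variable {p : ℕ} [NeZero p]

theorem cuspSettingBar (hp : p.Prime) : CuspSetting p Qb (modularFunctionFieldBar p) :=
  ⟨hp, Nat.cast_ne_zero.2 hp.ne_zero,
    GoodReduction.laurentBaseChange_eq_fullC Qb p⟩

theorem cuspSettingRes (hp : p.Prime) {q : ℕ} (hq : q.Prime) (hqp : q ≠ p)
    {A : ValuationSubring Qb} (hA : A.LiesOverPrime q) :
    CuspSetting p (IsLocalRing.ResidueField A)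
      (modularFunctionFieldFullC (IsLocalRing.ResidueField A) p) := by
  refine ⟨hp, ?_, rfl⟩
  have : Fact q.Prime := ⟨hq⟩
  exact Deuring.natCast_residue_ne_zero hA fun h => hqp ((Nat.prime_dvd_prime_iff_eq hq hp).1 h)

section Galois

variable (S : CuspSetting p Qb (modularFunctionFieldBar p))
  (σ : Qb ≃ₐ[ℚ] Qb)

theorem galois_smul_jE :
    arithmeticGalois (modularFunctionFieldFull p) σ • S.jE = S.jE := by
  apply Subtype.ext
  rw [coe_arithmeticGalois_smul, CuspSetting.coe_jE, coeffMap_jqModC]

theorem galois_smul_sE :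
    arithmeticGalois (modularFunctionFieldFull p) σ • S.sE = S.sE := by
  apply Subtype.ext
  rw [coe_arithmeticGalois_smul]
  show coeffMap _ (jqModC Qb)⁻¹ = (jqModC Qb)⁻¹
  rw [map_inv₀, coeffMap_jqModC]

theorem galois_smul_zE :
    arithmeticGalois (modularFunctionFieldFull p) σ • S.zE = S.zE := by
  apply Subtype.ext
  rw [coe_arithmeticGalois_smul]
  show coeffMap _ (qExpand Qb p (jqModC Qb) / jqModC Qb ^ p) =
    qExpand Qb p (jqModC Qb) / jqModC Qb ^ p
  rw [map_div₀, map_pow, coeffMap_qExpand, coeffMap_jqModC]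

theorem galois_smul_reducesTo {v : Place Qb (modularFunctionFieldBar p)} {a b : Qb}
    (h : ReducesTo v S.sE S.zE a b) (ha : σ a = a) (hb : σ b = b) :
    ReducesTo (arithmeticGalois (modularFunctionFieldFull p) σ • v) S.sE S.zE a b := by
  set g := arithmeticGalois (modularFunctionFieldFull p) σ with hg
  have hf : ∀ x ∈ filt v 1, g • x ∈ filt (g • v) 1 := by
    intro x hx
    rcases eq_or_ne x 0 with rfl | h0
    · rw [smul_zero]; exact zero_mem _
    exact mem_filt_of_le (by rw [SemilinearAut.ord_smul]; exact le_ord_of_mem_filt hx h0)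
  have hc : ∀ c : Qb, σ c = c →
      g • algebraMap Qb (modularFunctionFieldBar p) c = algebraMap Qb _ c := fun c hc => by
    rw [SemilinearAut.smul_algebraMap, hg, baseAut_arithmeticGalois]
    exact congrArg _ hc
  constructor
  · have := hf _ h.fst
    rwa [smul_sub, hc a ha, hg, galois_smul_sE] at this
  · have := hf _ h.snd
    rwa [smul_sub, hc b hb, hg, galois_smul_zE] at this

theorem galois_smul_cusps :
    arithmeticGalois (modularFunctionFieldFull p) σ • S.cInf = S.cInf ∧
      arithmeticGalois (modularFunctionFieldFull p) σ • S.cZero = S.cZero := by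
  set g := arithmeticGalois (modularFunctionFieldFull p) σ with hg
  have hord : ∀ v : Place Qb (modularFunctionFieldBar p),
      (g • v).ord S.jE = v.ord S.jE := fun v => by
    conv_lhs => rw [← galois_smul_jE S σ]
    exact SemilinearAut.ord_smul g v S.jE
  have hp2 := S.two_le
  constructor
  · refine (S.cusp_cases (v := g • S.cInf) (by rw [hord, S.ord_cInf_jE]; omega)).resolve_right
      fun h => ?_
    have := hord S.cInf
    rw [h, S.ord_cInf_jE, S.ord_cZero_jE] at this
    omega
  · refine (S.cusp_cases (v := g • S.cZero) (by rw [hord, S.ord_cZero_jE]; omega)).resolve_left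
      fun h => ?_
    have := hord S.cZero
    rw [h, S.ord_cInf_jE, S.ord_cZero_jE] at this
    omega

end Galois

section Classes

variable {K : Type} [Field K] [IsAlgClosed K] {F : IntermediateField K (LaurentSeries K)}
  [IsFunctionField K F]

theorem sub_single_mem_degZero (u v : Place K F) :
    Finsupp.single u (1 : ℤ) - Finsupp.single v 1 ∈ Divisor.degZero (K := K) (F := F) := by
  rw [Divisor.mem_degZero, map_sub, Divisor.degree_single, Divisor.degree_single, place_deg_eq_one,
    place_deg_eq_one, sub_self]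

/-- The class of `u - v`. -/
def diffClass (u v : Place K F) : Pic0 K F :=
  Pic0.mk ⟨_, sub_single_mem_degZero u v⟩

theorem diffClass_self (u : Place K F) : diffClass u u = 0 := by
  rw [diffClass, show (⟨_, sub_single_mem_degZero u u⟩ : Divisor.degZero (K := K) (F := F)) = 0
    from Subtype.ext (sub_self _)]
  rfl

end Classes

theorem galois_smul_diffClass (S : CuspSetting p Qb (modularFunctionFieldBar p))
    (σ : Qb ≃ₐ[ℚ] Qb) (u v : Place Qb (modularFunctionFieldBar p))
    (hu : arithmeticGalois (modularFunctionFieldFull p) σ • u = u)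
    (hv : arithmeticGalois (modularFunctionFieldFull p) σ • v = v) :
    haveI := S.isFunctionField
    σ • diffClass u v = diffClass u v := by
  have := S.isFunctionField
  rw [diffClass, galois_smul_pic0_def, SemilinearAut.pic0_smul_mk]
  refine congrArg Pic0.mk (Subtype.ext ?_)
  rw [SemilinearAut.coe_degZeroSMulHom, smul_sub, SemilinearAut.smul_single,
    SemilinearAut.smul_single, hu, hv]

theorem reductionModL_diffClass (S : CuspSetting p Qb (modularFunctionFieldBar p))
    {A : ValuationSubring Qb} [IsAlgClosed (IsLocalRing.ResidueField A)]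
    (T : CuspSetting p (IsLocalRing.ResidueField A)
      (modularFunctionFieldFullC (IsLocalRing.ResidueField A) p))
    (h : ReductionInputsModL A p) (u v : Place Qb (modularFunctionFieldBar p)) :
    haveI := S.isFunctionField
    haveI := T.isFunctionField
    reductionModL A p (diffClass u v) =
      diffClass (placeReductionModL h u) (placeReductionModL h v) := by
  have := S.isFunctionField
  have := T.isFunctionField
  rw [diffClass, reductionModL_mk h]
  refine congrArg Pic0.mk (Subtype.ext ?_)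
  rw [coe_reductionDegZeroAlong, Finsupp.mapDomain_sub, Finsupp.mapDomain_single,
    Finsupp.mapDomain_single]

/-- `(∞) - (0)` is not divisible down in the residue characteristic. -/
theorem nsmul_diffClass_ne_zero {r : ℕ} [Fact r.Prime] {k : Type} [Field k] [IsAlgClosed k]
    [CharP k r] (T : CuspSetting p k (modularFunctionFieldFullC k p))
    (h24 : ¬ r ^ (p - 1).factorization r ∣ 24) :
    haveI := T.isFunctionField
    ((p - 1) / r ^ (p - 1).factorization r) • diffClass T.cInf T.cZero ≠ 0 := by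
  have := T.isFunctionField
  intro h
  set v := (p - 1).factorization r
  set m := (p - 1) / r ^ v with hm
  have hvd : r ^ v ∣ p - 1 := Nat.ordProj_dvd _ _
  have hmul : r ^ v * m = p - 1 := Nat.mul_div_cancel' hvd
  rw [diffClass, pic0_nsmul_mk, pic0_mk_eq_zero] at h
  obtain ⟨g, hg0, hg⟩ := h
  set w := g ^ r ^ v / T.uE with hw
  have hw0 : w ≠ 0 := div_ne_zero (pow_ne_zero _ hg0) T.uE_ne_zero
  have hord : ∀ P : Place k (modularFunctionFieldFullC k p), P.ord w = 0 := by
    intro P
    rw [hw, div_eq_mul_inv, P.ord_mul (pow_ne_zero _ hg0) (inv_ne_zero T.uE_ne_zero), P.ord_inv,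
      FLTAgent.FFBasic.ord_pow, ← hg P, ← divFun_apply (K := k) T.uE, T.divFun_uE]
    simp only [AddSubgroupClass.coe_nsmul, Finsupp.smul_apply, nsmul_eq_mul, smul_eq_mul]
    have hcast : ((r ^ v : ℕ) : ℤ) * (m : ℤ) = (p : ℤ) - 1 := by
      rw [← Nat.cast_mul, hmul, Nat.cast_sub (by have := T.two_le; omega), Nat.cast_one]
    rw [← mul_assoc, hcast]
    ring
  obtain ⟨c, hc⟩ : w ∈ (algebraMap k (modularFunctionFieldFullC k p)).range := by
    have halg : IsAlgebraic k w := isAlgebraic_iff_forall_ord_eq_zero.2 hord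
    exact minpoly.degree_eq_one_iff.1
      (IsAlgClosed.degree_eq_one_of_irreducible k (minpoly.irreducible halg.isIntegral))
  have hc0 : c ≠ 0 := fun h0 => hw0 (by rw [← hc, h0, map_zero])
  refine pow_ne_const_mul_unitSeries T.two_le hvd h24 (g : LaurentSeries k) hc0 ?_
  have h1 : g ^ r ^ v = algebraMap k _ c * T.uE := by
    rw [hc, hw, div_mul_cancel₀ _ T.uE_ne_zero]
  have h2 := congrArg (fun z : modularFunctionFieldFullC k p => (z : LaurentSeries k)) h1
  simp only [IntermediateField.coe_pow, IntermediateField.coe_mul, T.coe_uE] at h2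
  rw [h2]
  congr 1
  show algebraMap k (LaurentSeries k) c = _
  rw [algebraMap_laurentSeries_eq_single]
  rfl

/-- The classes `y` and `t` exist as soon as `Q` avoids the node at one place over some `ℓ ≥ 5`. -/
theorem exists_moduliPoints (hp : p.Prime) (hp5 : 5 ≤ p) (W : WeierstrassCurve ℤ) (hΔ : W.Δ ≠ 0)
    (Q : ((W.map (Int.castRingHom ℚ))⁄(AlgebraicClosure ℚ)).Point)
    (hQfix : ∀ σ : AlgebraicClosure ℚ ≃ₐ[ℚ] AlgebraicClosure ℚ, σ • Q = Q)
    (hQord : addOrderOf Q = p)
    {ℓ : ℕ} (hℓ : ℓ.Prime) (hℓ5 : 5 ≤ ℓ) (hℓp : ℓ ≠ p) (hℓΔ : (ℓ : ℤ) ∣ W.Δ)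
    (hℓc₄ : ¬ (ℓ : ℤ) ∣ W.c₄) {A₀ : ValuationSubring (AlgebraicClosure ℚ)}
    (hA₀ : A₀.LiesOverPrime ℓ) (hin : W.InZeroComponentAt A₀ Q) :
    ∃ y t : JZero p, ModuliPoints p W Q y t := by
  obtain ⟨f, a, b, hC⟩ := exists_curvePoint hp hp5 W hΔ Q hQfix hQord hℓ hℓ5 hℓp hℓΔ hℓc₄ hA₀ hin
  set S := cuspSettingBar hp
  have := S.isFunctionField
  obtain ⟨hmon, hdeg⟩ := hPoly_monic hp.two_le (phiData hp) f
  have htr : Transcendental Qb S.sE := fun h => S.transcendental_jE (by
    have := h.inv
    rwa [CuspSetting.sE, inv_inv] at this)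
  obtain ⟨x, hx⟩ := exists_reducesTo S.adjoin_sE_zE htr hmon (S.ev2_hPoly f)
    (by rw [hdeg, CuspSetting.sE, adjoin_simple_inv, S.finrank_eq]) (hC.on hp)
  have hsimp : SimplePoint S.sE S.zE a b (hPoly (phiData hp) f) :=
    { gen := S.adjoin_sE_zE
      ne := fun h => htr (by rw [sub_eq_zero.1 h]; exact isAlgebraic_algebraMap a)
      rel := S.ev2_hPoly f
      on := hC.on hp
      simple := hC.simple hp }
  refine ⟨diffClass x S.cZero, diffClass S.cInf S.cZero, ?_, ?_, ?_, ?_, ?_, ?_⟩
  · intro σ
    exact galois_smul_diffClass S σ _ _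
      (hsimp.unique (galois_smul_reducesTo S σ hx (hC.fixed σ).1 (hC.fixed σ).2) hx)
      (galois_smul_cusps S σ).2
  · intro σ
    exact galois_smul_diffClass S σ _ _ (galois_smul_cusps S σ).1 (galois_smul_cusps S σ).2
  · rw [diffClass, pic0_nsmul_mk, pic0_mk_eq_zero]
    refine ⟨S.uE, S.uE_ne_zero, fun v => ?_⟩
    rw [← divFun_apply (K := Qb) S.uE, S.divFun_uE]
    simp only [AddSubgroupClass.coe_nsmul, Finsupp.smul_apply, nsmul_eq_mul, smul_eq_mul]
    rw [Nat.cast_sub hp.one_le, Nat.cast_one]
  all_goals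
    have hcusps : ∀ {A : ValuationSubring Qb} [IsAlgClosed (IsLocalRing.ResidueField A)]
        (T : CuspSetting p (IsLocalRing.ResidueField A)
          (modularFunctionFieldFullC (IsLocalRing.ResidueField A) p))
        (h : ReductionInputsModL A p),
        placeReductionModL h S.cInf = T.cInf ∧ placeReductionModL h S.cZero = T.cZero := by
      intro A _ T h
      have hr := isPlaceReductionModL_placeReductionModL h
      obtain ⟨h1, h0⟩ := reducesTo_cusps S
      exact ⟨(red_reducesTo S T hr (a := 0) (b := 1) h1 (map_zero _)).2 (by simp),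
        (red_reducesTo S T hr (a := 0) (b := 0) h0 (map_zero _)).1 (map_zero _)⟩
  · intro r hr hrp h24 A hA hI
    have := Deuring.isAlgClosed_residueField A
    have : Fact r.Prime := ⟨hr⟩
    have : CharP (IsLocalRing.ResidueField A) r :=
      (CharP.charP_iff_prime_eq_zero hr).2 (by
        rw [← map_natCast (IsLocalRing.residue A), residue_eq_zero_iff_val_lt]
        exact A.mem_nonunits_iff.1 hA)
    have T := cuspSettingRes hp hr hrp hA
    have := T.isFunctionField
    obtain ⟨hi, hz⟩ := hcusps T hI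
    rw [map_nsmul, reductionModL_diffClass S T hI, hi, hz]
    exact nsmul_diffClass_ne_zero T h24
  · intro q hq hqp hqΔ hqc₄ A hA hI hout
    have := Deuring.isAlgClosed_residueField A
    have T := cuspSettingRes hp hq hqp hA
    have := T.isFunctionField
    obtain ⟨ha, hb, -⟩ := hC.at_pole q hq hqp hqΔ hqc₄ A hA
    obtain ⟨-, hz⟩ := hcusps T hI
    have hbA : b ∈ A := (A.valuation_le_one_iff b).1 (hb hout).le
    have haA : a ∈ A := (A.valuation_le_one_iff a).1 ha.le
    have hxz := (red_reducesTo S T (isPlaceReductionModL_placeReductionModL hI)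
      (a := ⟨a, haA⟩) (b := ⟨b, hbA⟩) hx ((residue_eq_zero_iff_val_lt _).2 ha)).1
      ((residue_eq_zero_iff_val_lt _).2 (hb hout))
    rw [reductionModL_diffClass S T hI, hxz, hz, diffClass_self]
  · intro q hq hq5 hqp hqΔ hqc₄ A hA hI hins
    have := Deuring.isAlgClosed_residueField A
    have T := cuspSettingRes hp hq hqp hA
    have := T.isFunctionField
    obtain ⟨ha, -, hb⟩ := hC.at_pole q hq hqp hqΔ hqc₄ A hA
    obtain ⟨hi, hz⟩ := hcusps T hI
    have hb1 := hb hq5 hins
    have hbA : b ∈ A := (A.valuation_le_one_iff b).1 hb1.le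
    have haA : a ∈ A := (A.valuation_le_one_iff a).1 ha.le
    have hxi := (red_reducesTo S T (isPlaceReductionModL_placeReductionModL hI)
      (a := ⟨a, haA⟩) (b := ⟨b, hbA⟩) hx ((residue_eq_zero_iff_val_lt _).2 ha)).2
      (fun h0 => ((residue_eq_zero_iff_val_lt _).1 h0).ne hb1)
    rw [reductionModL_diffClass S T hI, reductionModL_diffClass S T hI, hxi, hz, hi]

end FLTAgent.MazurModuli
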