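import Fermat.Agent.LevelM.WeierstrassInj

/-!
# The addition theorem of the Weierstrass `℘` function

`weierstrassP_add`, `derivWeierstrassP_add` and the duplication formula `weierstrassP_two_mul`,
proved with Liouville's theorem. Used by `Uniformization` and `SuperLattice`.
-/

set_option autoImplicit false

noncomputable section

open Filter
open scoped Topology PeriodPair

namespace FLTAgent.MazurModuli

open FLTAgent.LevelM (weierstrassP_periodic' derivWeierstrassP_periodic' weierstrassP_eq_inv_sq_add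
  derivWeierstrassP_eq_add exists_sub_eq_mul eventually_notMem_lattice
  two_mul_mem_of_derivWeierstrassP_eq_zero removable_translate eq_const_of_periodic_of_removable
  addition_identity weierstrassP_eq_iff hasDerivAt_weierstrassP)

variable {L : PeriodPair}

/-- The slope of the chord through the points of `z` and `a`. -/
def chord (L : PeriodPair) (a z : ℂ) : ℂ :=
  (℘'[L] z - ℘'[L] a) / (℘[L] z - ℘[L] a)

theorem chord_periodic {a z l : ℂ} (hl : l ∈ L.lattice) : chord L a (z + l) = chord L a z := by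
  rw [chord, chord, weierstrassP_periodic' hl, derivWeierstrassP_periodic' hl]

theorem derivWeierstrassP_ne_zero {a : ℂ} (ha : a ∉ L.lattice) (h2 : 2 * a ∉ L.lattice) :
    ℘'[L] a ≠ 0 := fun h => h2 (two_mul_mem_of_derivWeierstrassP_eq_zero ha h)

/-- The second derivative at a point where the first one does not vanish. -/
theorem hasDerivAt_derivWeierstrassP {a : ℂ} (ha : a ∉ L.lattice) (h2 : 2 * a ∉ L.lattice) :
    HasDerivAt ℘'[L] (6 * ℘[L] a ^ 2 - L.g₂ / 2) a := by
  have hd : DifferentiableAt ℂ ℘'[L] a := (L.analyticOnNhd_derivWeierstrassP a ha).differentiableAt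
  have h1 := hd.hasDerivAt
  have hsq := h1.pow 2
  have hP := hasDerivAt_weierstrassP ha
  have hrhs : HasDerivAt (fun z => 4 * ℘[L] z ^ 3 - L.g₂ * ℘[L] z - L.g₃)
      (4 * (3 * ℘[L] a ^ 2 * ℘'[L] a) - L.g₂ * ℘'[L] a) a := by
    have := (((hP.pow 3).const_mul 4).sub (hP.const_mul L.g₂)).sub_const L.g₃
    simpa using this
  have heq : (fun z => ℘'[L] z ^ 2) =ᶠ[𝓝 a] fun z => 4 * ℘[L] z ^ 3 - L.g₂ * ℘[L] z - L.g₃ := by
    filter_upwards [L.isClosed_lattice.isOpen_compl.mem_nhds ha] with z hz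
    exact L.derivWeierstrassP_sq z hz
  have := (hrhs.congr_of_eventuallyEq heq).unique hsq
  have hval : 6 * ℘[L] a ^ 2 - L.g₂ / 2 = deriv ℘'[L] a := by
    refine mul_left_cancel₀ (mul_ne_zero two_ne_zero (derivWeierstrassP_ne_zero ha h2)) ?_
    push_cast at this
    linear_combination this
  rw [hval]
  exact h1

/-- Removable singularity of the chord slope at `a`. -/
theorem exists_chord_ext {a : ℂ} (ha : a ∉ L.lattice) (h2 : 2 * a ∉ L.lattice) :
    ∃ Q : ℂ → ℂ, AnalyticAt ℂ Q a ∧ Q a = (6 * ℘[L] a ^ 2 - L.g₂ / 2) / ℘'[L] a ∧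
      chord L a =ᶠ[𝓝[≠] a] Q := by
  obtain ⟨φ, hφ, hφa, hφeq⟩ := exists_sub_eq_mul ha
  obtain ⟨q, hq⟩ := L.analyticOnNhd_derivWeierstrassP a ha
  set ψ := dslope ℘'[L] a with hψ
  have hψan : AnalyticAt ℂ ψ a := ⟨_, hq.has_fpower_series_dslope_fslope⟩
  have hψeq : ∀ z, ℘'[L] z - ℘'[L] a = (z - a) * ψ z := fun z => by
    simpa using (sub_smul_dslope ℘'[L] a z).symm
  have hφ0 : φ a ≠ 0 := by rw [hφa]; exact derivWeierstrassP_ne_zero ha h2
  refine ⟨fun z => ψ z / φ z, hψan.div hφ hφ0, ?_, ?_⟩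
  · show ψ a / φ a = _
    rw [hφa, hψ, dslope_same, (hasDerivAt_derivWeierstrassP ha h2).deriv]
  · filter_upwards [self_mem_nhdsWithin] with z hz
    have hz' : z - a ≠ 0 := sub_ne_zero.mpr hz
    rw [chord, hψeq, hφeq, mul_div_mul_left _ _ hz']

theorem tendsto_add_const_punctured (a c : ℂ) :
    Tendsto (fun z => z + c) (𝓝[≠] a) (𝓝[≠] (a + c)) := by
  refine tendsto_nhdsWithin_iff.mpr ⟨?_, ?_⟩
  · exact (Continuous.tendsto' (by fun_prop) _ _ rfl).mono_left nhdsWithin_le_nhds
  · filter_upwards [self_mem_nhdsWithin] with y hy h0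
    exact hy (by simp only [Set.mem_singleton_iff] at h0 ⊢; linear_combination h0)

theorem weierstrassP_ne {a z : ℂ} (ha : a ∉ L.lattice) (hz : z ∉ L.lattice)
    (hza : z + a ∉ L.lattice) (hza' : z - a ∉ L.lattice) : ℘[L] z - ℘[L] a ≠ 0 :=
  sub_ne_zero.mpr fun h => ((weierstrassP_eq_iff ha hz).mp h.symm).elim hza' hza

/-- The defect of the addition theorem. -/
def addDefect (L : PeriodPair) (a z : ℂ) : ℂ :=
  ℘[L] (z + a) - (chord L a z ^ 2 / 4 - ℘[L] z - ℘[L] a)

theorem addDefect_neg {a z : ℂ} (ha : a ∉ L.lattice) (h2 : 2 * a ∉ L.lattice) (hz : z ∉ L.lattice)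
    (hza : z + a ∉ L.lattice) (hza' : z - a ∉ L.lattice) :
    addDefect L a (-z) = addDefect L a z := by
  have hid := addition_identity ha h2 hz hza hza'
  have hD := weierstrassP_ne ha hz hza hza'
  rw [addDefect, addDefect, chord, chord, L.weierstrassP_neg, L.derivWeierstrassP_neg,
    show -z + a = -(z - a) by ring, L.weierstrassP_neg]
  field_simp
  linear_combination -4 * hid

theorem exists_addDefect_ext_zero {a : ℂ} (ha : a ∉ L.lattice) :
    ∃ G : ℂ → ℂ, AnalyticAt ℂ G 0 ∧ G 0 = 0 ∧ addDefect L a =ᶠ[𝓝[≠] 0] G := by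
  set e := ℘[L] a with he
  set p := ℘'[L] a with hp
  let H : ℂ → ℂ := fun z => 1 + z ^ 2 * (℘[L - (0 : ℂ)] z - e)
  let α : ℂ → ℂ := fun z =>
    (-(z / 2) * (℘'[L - (0 : ℂ)] z - p) - (℘[L - (0 : ℂ)] z - e)) / H z
  have hP0 := L.analyticAt_weierstrassPExcept 0
  have hD0 := L.analyticAt_derivWeierstrassPExcept 0
  have hH : AnalyticAt ℂ H 0 := by simp only [H]; fun_prop
  have hH0 : H 0 = 1 := by simp [H]
  have hα : AnalyticAt ℂ α 0 := by
    refine AnalyticAt.div ?_ hH (by rw [hH0]; exact one_ne_zero)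
    fun_prop
  have hα0 : α 0 = e := by simp [α, hH0]
  refine ⟨fun z => ℘[L] (z + a) - (2 * α z + z ^ 2 * α z ^ 2 - ℘[L - (0 : ℂ)] z - e), ?_, ?_, ?_⟩
  · have h1 : AnalyticAt ℂ (fun z => ℘[L] (z + a)) 0 :=
      (L.analyticOnNhd_weierstrassP (0 + a) (by simpa using ha)).comp (f := fun z => z + a)
        (by fun_prop)
    fun_prop
  · simp [hα0, he]; ring
  · filter_upwards [self_mem_nhdsWithin,
      nhdsWithin_le_nhds (hH.continuousAt.eventually_ne (by rw [hH0]; exact one_ne_zero))]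
      with z hz hHz
    have hz' : z ≠ 0 := hz
    have hαz : α z * H z = -(z / 2) * (℘'[L - (0 : ℂ)] z - p) - (℘[L - (0 : ℂ)] z - e) := by
      simp only [α]; rw [div_mul_cancel₀ _ hHz]
    have hden : ℘[L] z - e = H z / z ^ 2 := by
      rw [weierstrassP_eq_inv_sq_add]; simp only [H]; field_simp; ring
    have hq : chord L a z = -2 * (1 + z ^ 2 * α z) / z := by
      rw [chord, ← he, ← hp, hden, derivWeierstrassP_eq_add]
      field_simp
      simp only [H] at hαz ⊢
      linear_combination 2 * z ^ 2 * hαz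
    rw [addDefect, hq, ← he, weierstrassP_eq_inv_sq_add (z := z)]
    field_simp
    ring

theorem exists_addDefect_ext_self {a : ℂ} (ha : a ∉ L.lattice) (h2 : 2 * a ∉ L.lattice) :
    ∃ G : ℂ → ℂ, AnalyticAt ℂ G a ∧ addDefect L a =ᶠ[𝓝[≠] a] G := by
  obtain ⟨Q, hQ, -, hQeq⟩ := exists_chord_ext ha h2
  refine ⟨fun z => ℘[L] (z + a) - (Q z ^ 2 / 4 - ℘[L] z - ℘[L] a), ?_, ?_⟩
  · have h1 : AnalyticAt ℂ (fun z => ℘[L] (z + a)) a :=
      (L.analyticOnNhd_weierstrassP (a + a) (by rwa [← two_mul])).comp (f := fun z => z + a)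
        (by fun_prop)
    have h0 := L.analyticOnNhd_weierstrassP a ha
    fun_prop
  · filter_upwards [hQeq] with z hz
    rw [addDefect, hz]

/-- The addition theorem. -/
theorem weierstrassP_add {a z : ℂ} (ha : a ∉ L.lattice) (h2 : 2 * a ∉ L.lattice)
    (hz : z ∉ L.lattice)
    (hza : z + a ∉ L.lattice) (hza' : z - a ∉ L.lattice) :
    ℘[L] (z + a) = chord L a z ^ 2 / 4 - ℘[L] z - ℘[L] a := by
  have hper : ∀ l ∈ L.lattice, ∀ w, addDefect L a (w + l) = addDefect L a w := fun l hl w => by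
    rw [addDefect, addDefect, chord_periodic hl, add_right_comm, weierstrassP_periodic' hl,
      weierstrassP_periodic' hl]
  have hna : -a ∉ L.lattice := fun h => ha (by simpa using neg_mem h)
  obtain ⟨G₀, hG₀, hG₀0, hG₀eq⟩ := exists_addDefect_ext_zero ha
  obtain ⟨Gₐ, hGₐ, hGₐeq⟩ := exists_addDefect_ext_self ha h2
  have hGn : ∃ G : ℂ → ℂ, AnalyticAt ℂ G (-a) ∧ addDefect L a =ᶠ[𝓝[≠] (-a)] G := by
    refine ⟨fun w => Gₐ (-w), ?_, ?_⟩
    · exact (show AnalyticAt ℂ Gₐ (- -a) by rwa [neg_neg]).comp (f := fun w => -w) (by fun_prop)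
    · have hmap : Tendsto (fun w : ℂ => -w) (𝓝[≠] (-a)) (𝓝[≠] a) := by
        refine tendsto_nhdsWithin_iff.mpr ⟨?_, ?_⟩
        · exact (Continuous.tendsto' (by fun_prop) _ _ (neg_neg a)).mono_left nhdsWithin_le_nhds
        · filter_upwards [self_mem_nhdsWithin] with y hy h0
          exact hy (by simp only [Set.mem_singleton_iff] at h0 ⊢; linear_combination -h0)
      filter_upwards [hmap.eventually hGₐeq, eventually_notMem_lattice (L := L) (-a),
        (tendsto_add_const_punctured (-a) a).eventually (eventually_notMem_lattice (L := L) _),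
        (tendsto_add_const_punctured (-a) (-a)).eventually (eventually_notMem_lattice (L := L) _)]
        with w hw h1 h3 h4
      rw [← hw, addDefect_neg ha h2 h1 h3 (by rwa [sub_eq_add_neg])]
  have hrem : ∀ x, ∃ G : ℂ → ℂ, AnalyticAt ℂ G x ∧ addDefect L a =ᶠ[𝓝[≠] x] G := by
    intro x
    by_cases hx : x ∈ L.lattice
    · exact removable_translate L hper (x₀ := 0) (by simpa using hx) ⟨G₀, hG₀, hG₀eq⟩
    by_cases hxa : x + a ∈ L.lattice
    · exact removable_translate L hper (x₀ := -a) (by simpa using hxa) hGn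
    by_cases hxa' : x - a ∈ L.lattice
    · exact removable_translate L hper (x₀ := a) hxa' ⟨Gₐ, hGₐ, hGₐeq⟩
    refine ⟨addDefect L a, ?_, EventuallyEq.rfl⟩
    have h1 := L.analyticOnNhd_weierstrassP x hx
    have h1' := L.analyticOnNhd_derivWeierstrassP x hx
    have h3 : AnalyticAt ℂ (fun w => ℘[L] (w + a)) x :=
      (L.analyticOnNhd_weierstrassP (x + a) hxa).comp (f := fun w => w + a) (by fun_prop)
    have h4 : AnalyticAt ℂ (fun w => chord L a w) x :=
      (h1'.sub analyticAt_const).div (h1.sub analyticAt_const) (weierstrassP_ne ha hx hxa hxa')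
    show AnalyticAt ℂ (fun w => ℘[L] (w + a) - (chord L a w ^ 2 / 4 - ℘[L] w - ℘[L] a)) x
    fun_prop
  obtain ⟨c, hc⟩ := eq_const_of_periodic_of_removable L hper hrem
  have hc0 : c = 0 := by
    have h1 : Tendsto (fun _ : ℂ => c) (𝓝[≠] (0 : ℂ)) (𝓝 (G₀ 0)) :=
      (hG₀.continuousAt.tendsto.mono_left nhdsWithin_le_nhds).congr'
        (hG₀eq.symm.trans (hc 0).2)
    rw [hG₀0] at h1
    exact tendsto_nhds_unique tendsto_const_nhds h1
  have hcont : ContinuousAt (addDefect L a) z := by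
    have h1 := (L.analyticOnNhd_weierstrassP z hz).continuousAt
    have h1' := (L.analyticOnNhd_derivWeierstrassP z hz).continuousAt
    have h3 : ContinuousAt (fun w => ℘[L] (w + a)) z :=
      (L.analyticOnNhd_weierstrassP (z + a) hza).continuousAt.comp (f := fun w => w + a)
        (by fun_prop)
    have h4 : ContinuousAt (fun w => chord L a w) z :=
      (h1'.sub continuousAt_const).div (h1.sub continuousAt_const) (weierstrassP_ne ha hz hza hza')
    show ContinuousAt (fun w => ℘[L] (w + a) - (chord L a w ^ 2 / 4 - ℘[L] w - ℘[L] a)) z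
    fun_prop
  have := (hc z).1 hcont
  rw [hc0, addDefect, sub_eq_zero] at this
  exact this

/-- The addition theorem for `℘'`. -/
theorem derivWeierstrassP_add {a z : ℂ} (ha : a ∉ L.lattice) (h2 : 2 * a ∉ L.lattice)
    (hz : z ∉ L.lattice) (hz2 : 2 * z ∉ L.lattice)
    (hza : z + a ∉ L.lattice) (hza' : z - a ∉ L.lattice) :
    ℘'[L] (z + a) = -℘'[L] z - chord L a z * (℘[L] (z + a) - ℘[L] z) := by
  set D := ℘[L] z - ℘[L] a with hD
  have hD0 : D ≠ 0 := weierstrassP_ne ha hz hza hza'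
  have hP := hasDerivAt_weierstrassP hz
  have hP' := hasDerivAt_derivWeierstrassP hz hz2
  have hq : HasDerivAt (chord L a)
      (((6 * ℘[L] z ^ 2 - L.g₂ / 2) * D - (℘'[L] z - ℘'[L] a) * ℘'[L] z) / D ^ 2) z :=
    (hP'.sub_const _).div (hP.sub_const _) hD0
  have hrhs := (((hq.pow 2).div_const 4).sub hP).sub_const (℘[L] a)
  have hlhs : HasDerivAt (fun w => ℘[L] (w + a)) (℘'[L] (z + a)) z :=
    HasDerivAt.comp_add_const z a (hasDerivAt_weierstrassP hza)
  have hev : (fun w => ℘[L] (w + a)) =ᶠ[𝓝 z] fun w => chord L a w ^ 2 / 4 - ℘[L] w - ℘[L] a := by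
    have ho := L.isClosed_lattice.isOpen_compl
    filter_upwards [ho.mem_nhds hz, (ho.preimage (continuous_id.add continuous_const)).mem_nhds hza,
      (ho.preimage (continuous_id.sub continuous_const)).mem_nhds hza'] with w h1 h3 h4
    exact weierstrassP_add ha h2 h1 h3 h4
  have huniq := (hrhs.congr_of_eventuallyEq hev).unique hlhs
  rw [← huniq, weierstrassP_add ha h2 hz hza hza']
  have h1 := L.derivWeierstrassP_sq z hz
  have h1' := L.derivWeierstrassP_sq a ha
  simp only [chord, ← hD]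
  push_cast
  field_simp
  simp only [hD]
  linear_combination (-(℘'[L] z - ℘'[L] a)) * (h1 - h1')

/-- The duplication formulas. -/
theorem weierstrassP_two_mul {a : ℂ} (ha : a ∉ L.lattice) (h2 : 2 * a ∉ L.lattice) :
    ℘[L] (2 * a) = ((6 * ℘[L] a ^ 2 - L.g₂ / 2) / ℘'[L] a) ^ 2 / 4 - 2 * ℘[L] a ∧
      ℘'[L] (2 * a) =
        -℘'[L] a - (6 * ℘[L] a ^ 2 - L.g₂ / 2) / ℘'[L] a * (℘[L] (2 * a) - ℘[L] a) := by
  obtain ⟨Q, hQ, hQa, hQeq⟩ := exists_chord_ext ha h2
  have haa : a + a ∉ L.lattice := by rwa [← two_mul]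
  have hev : ∀ᶠ z in 𝓝[≠] a, z ∉ L.lattice ∧ 2 * z ∉ L.lattice ∧ z + a ∉ L.lattice ∧
      z - a ∉ L.lattice := by
    have ho := L.isClosed_lattice.isOpen_compl
    filter_upwards [nhdsWithin_le_nhds (ho.mem_nhds ha),
      nhdsWithin_le_nhds ((ho.preimage (continuous_const.mul continuous_id)).mem_nhds h2),
      nhdsWithin_le_nhds ((ho.preimage (continuous_id.add continuous_const)).mem_nhds haa),
      (tendsto_add_const_punctured a (-a)).eventually (eventually_notMem_lattice (L := L) _)]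
      with z h1 h3 h4 h5
    exact ⟨h1, h3, h4, by rwa [sub_eq_add_neg]⟩
  have hc1 : ContinuousAt ℘[L] a := (L.analyticOnNhd_weierstrassP a ha).continuousAt
  have hc2 : ContinuousAt (fun z => ℘[L] (z + a)) a :=
    (L.analyticOnNhd_weierstrassP (a + a) haa).continuousAt.comp (f := fun z => z + a) (by fun_prop)
  have hc3 : ContinuousAt (fun z => ℘'[L] (z + a)) a :=
    (L.analyticOnNhd_derivWeierstrassP (a + a) haa).continuousAt.comp (f := fun z => z + a)
      (by fun_prop)
  have hc4 : ContinuousAt ℘'[L] a := (L.analyticOnNhd_derivWeierstrassP a ha).continuousAt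
  have hQc := hQ.continuousAt
  have key : ∀ f g : ℂ → ℂ, ContinuousAt f a → ContinuousAt g a →
      (∀ᶠ z in 𝓝[≠] a, f z = g z) → f a = g a := fun f g hf hg h =>
    tendsto_nhds_unique (hf.tendsto.mono_left nhdsWithin_le_nhds)
      ((hg.tendsto.mono_left nhdsWithin_le_nhds).congr' (h.mono fun z hz => hz.symm))
  constructor
  · have := key (fun z => ℘[L] (z + a)) (fun z => Q z ^ 2 / 4 - ℘[L] z - ℘[L] a) hc2
      (by fun_prop) (by
        filter_upwards [hev, hQeq] with z ⟨h1, _, h4, h5⟩ hz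
        rw [weierstrassP_add ha h2 h1 h4 h5, hz])
    simp only [← two_mul, hQa] at this
    linear_combination this
  · have := key (fun z => ℘'[L] (z + a))
      (fun z => -℘'[L] z - Q z * (℘[L] (z + a) - ℘[L] z)) hc3
      (by fun_prop) (by
        filter_upwards [hev, hQeq] with z ⟨h1, h3, h4, h5⟩ hz
        rw [derivWeierstrassP_add ha h2 h1 h3 h4 h5, hz])
    simp only [← two_mul, hQa] at this
    exact this

end FLTAgent.MazurModuli
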