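import Fermat.Agent.LevelM.TorsionX
import Fermat.Agent.ModularFF.JFunction
import Mathlib.Analysis.Complex.Polynomial.Basic
import Mathlib.NumberTheory.LSeries.HurwitzZetaValues
import Mathlib.NumberTheory.ModularForms.EisensteinSeries.QExpansion

/-!
# Lattice invariants and uniformisation

`g₂`, `g₃` and the discriminant of the period lattice of `τ`, their behaviour under scaling,
`latticeJ`, and a lattice with any given invariants (`exists_lattice`). Used by `JIso`.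
-/

set_option autoImplicit false

noncomputable section

open Complex UpperHalfPlane
open scoped Real PeriodPair

namespace FLTAgent.MazurModuli

open FLTAgent.ModularFF (jFun exists_jFun_eq)
open FLTAgent.LevelM (periodPair)

theorem riemannZeta_six : riemannZeta 6 = (π : ℂ) ^ 6 / 945 := by
  have hb : bernoulli 6 = (1 / 42 : ℚ) := by
    have h5 : bernoulli' 5 = 0 := bernoulli'_eq_zero_of_odd (by decide) (by norm_num)
    rw [bernoulli_eq_bernoulli'_of_ne_one (by norm_num), bernoulli'_def]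
    norm_num [Finset.sum_range_succ, Nat.choose, h5, bernoulli'_zero, bernoulli'_one,
      bernoulli'_two, bernoulli'_three, bernoulli'_four]
  have := riemannZeta_two_mul_nat (k := 3) (by norm_num)
  norm_num [hb, Nat.factorial] at this
  rw [this]
  ring

/-- The lattice sum as a multiple of the Eisenstein series. -/
theorem periodPair_G (τ : ℍ) {k : ℕ} (hk : 3 ≤ k) :
    (periodPair τ).G k = 2 * riemannZeta k * ModularForm.E hk τ := by
  have h1 := tsum_eisSummand_eq_riemannZeta_mul_eisensteinSeries hk τ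
  rw [show ModularForm.E hk τ = (1 / 2 : ℂ) • EisensteinSeries.eisensteinSeriesSIF (N := 1) 0 k τ
      from rfl, EisensteinSeries.eisensteinSeriesSIF_apply, smul_eq_mul,
    show 2 * riemannZeta k * (1 / 2 * eisensteinSeries 0 (k : ℤ) τ) =
      riemannZeta k * eisensteinSeries (N := 1) 0 (k : ℤ) τ by ring, ← h1]
  let e : (Fin 2 → ℤ) ≃ (periodPair τ).lattice :=
    (finTwoArrowEquiv ℤ).trans (periodPair τ).latticeEquivProd.symm.toEquiv
  rw [PeriodPair.G, ← e.tsum_eq]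
  refine tsum_congr fun v => ?_
  have : ((e v : (periodPair τ).lattice) : ℂ) = (v 0 : ℂ) * τ + v 1 := by
    show (((periodPair τ).latticeEquivProd.symm (v 0, v 1)).1 : ℂ) = _
    rw [PeriodPair.latticeEquiv_symm_apply]
    simp [periodPair]
  rw [this, EisensteinSeries.eisSummand, zpow_neg, zpow_natCast]

theorem g₂_periodPair (τ : ℍ) :
    (periodPair τ).g₂ = 4 * (π : ℂ) ^ 4 / 3 * ModularForm.E₄ τ := by
  rw [PeriodPair.g₂, periodPair_G τ (show 3 ≤ 4 by norm_num)]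
  simp only [Nat.cast_ofNat, riemannZeta_four]
  ring

theorem g₃_periodPair (τ : ℍ) :
    (periodPair τ).g₃ = 8 * (π : ℂ) ^ 6 / 27 * ModularForm.E₆ τ := by
  rw [PeriodPair.g₃, periodPair_G τ (show 3 ≤ 6 by norm_num)]
  simp only [Nat.cast_ofNat, riemannZeta_six]
  ring

theorem disc_periodPair (τ : ℍ) :
    (periodPair τ).g₂ ^ 3 - 27 * (periodPair τ).g₃ ^ 2 =
      (2 * π) ^ 12 * ModularForm.discriminant τ := by
  rw [g₂_periodPair, g₃_periodPair, ModularForm.discriminant_eq_E₄_cube_sub_E₆_sq]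
  ring

theorem jFun_eq_lattice (τ : ℍ) : jFun τ = 1728 * (periodPair τ).g₂ ^ 3 /
    ((periodPair τ).g₂ ^ 3 - 27 * (periodPair τ).g₃ ^ 2) := by
  have hπ : (π : ℂ) ≠ 0 := by exact_mod_cast Real.pi_ne_zero
  have hΔ := ModularForm.discriminant_ne_zero τ
  rw [disc_periodPair, g₂_periodPair, jFun]
  field_simp
  ring

theorem linearIndependent_scale (L : PeriodPair) {c : ℂ} (hc : c ≠ 0) :
    LinearIndependent ℝ ![c * L.ω₁, c * L.ω₂] := by
  have h := L.indep
  rw [LinearIndependent.pair_iff] at h ⊢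
  intro s t hst
  refine h s t (mul_left_cancel₀ hc ?_)
  simp only [Complex.real_smul] at hst ⊢
  linear_combination hst

/-- A scaled period pair. -/
def scalePair (L : PeriodPair) (c : ℂ) (hc : c ≠ 0) : PeriodPair :=
  ⟨c * L.ω₁, c * L.ω₂, linearIndependent_scale L hc⟩

theorem mem_scalePair {L : PeriodPair} {c : ℂ} (hc : c ≠ 0) (z : ℂ) :
    c * z ∈ (scalePair L c hc).lattice ↔ z ∈ L.lattice := by
  simp only [PeriodPair.mem_lattice, scalePair]
  refine exists_congr fun m => exists_congr fun n => ⟨fun h => mul_left_cancel₀ hc ?_, fun h => ?_⟩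
  · linear_combination h
  · linear_combination c * h

theorem G_scale {L L' : PeriodPair} {c : ℂ} (hc : c ≠ 0)
    (h : ∀ l, c * l ∈ L'.lattice ↔ l ∈ L.lattice) (n : ℕ) : L'.G n = (c ^ n)⁻¹ * L.G n := by
  let e : L.lattice ≃ L'.lattice :=
    { toFun := fun l => ⟨c * l, (h _).mpr l.2⟩
      invFun := fun l => ⟨c⁻¹ * l, (h _).mp (by rw [mul_inv_cancel_left₀ hc]; exact l.2)⟩
      left_inv := fun l => Subtype.ext (inv_mul_cancel_left₀ hc _)
      right_inv := fun l => Subtype.ext (mul_inv_cancel_left₀ hc _) }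
  rw [PeriodPair.G, PeriodPair.G, ← e.tsum_eq, ← tsum_mul_left]
  refine tsum_congr fun l => ?_
  show (((c * l : ℂ)) ^ n)⁻¹ = _
  rw [mul_pow, mul_inv]

theorem g₂_scale {L L' : PeriodPair} {c : ℂ} (hc : c ≠ 0)
    (h : ∀ l, c * l ∈ L'.lattice ↔ l ∈ L.lattice) : L'.g₂ = (c ^ 4)⁻¹ * L.g₂ := by
  rw [PeriodPair.g₂, PeriodPair.g₂, G_scale hc h]; ring

theorem g₃_scale {L L' : PeriodPair} {c : ℂ} (hc : c ≠ 0)
    (h : ∀ l, c * l ∈ L'.lattice ↔ l ∈ L.lattice) : L'.g₃ = (c ^ 6)⁻¹ * L.g₃ := by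
  rw [PeriodPair.g₃, PeriodPair.g₃, G_scale hc h]; ring

/-- `j` of a lattice. -/
def latticeJ (L : PeriodPair) : ℂ := 1728 * L.g₂ ^ 3 / (L.g₂ ^ 3 - 27 * L.g₃ ^ 2)

theorem latticeJ_scale {L L' : PeriodPair} {c : ℂ} (hc : c ≠ 0)
    (h : ∀ l, c * l ∈ L'.lattice ↔ l ∈ L.lattice) : latticeJ L' = latticeJ L := by
  rw [latticeJ, latticeJ, g₂_scale hc h, g₃_scale hc h]
  have e : ((c ^ 4)⁻¹ * L.g₂) ^ 3 - 27 * ((c ^ 6)⁻¹ * L.g₃) ^ 2
      = (c ^ 12)⁻¹ * (L.g₂ ^ 3 - 27 * L.g₃ ^ 2) := by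
    field_simp
  have e' : 1728 * ((c ^ 4)⁻¹ * L.g₂) ^ 3 = (c ^ 12)⁻¹ * (1728 * L.g₂ ^ 3) := by
    field_simp
  rw [e, e', mul_div_mul_left _ _ (inv_ne_zero (pow_ne_zero _ hc))]

theorem latticeJ_periodPair (τ : ℍ) : latticeJ (periodPair τ) = jFun τ := (jFun_eq_lattice τ).symm

/-- Uniformisation of curves with `g₂ g₃ ≠ 0`. -/
theorem exists_lattice {g h : ℂ} (hg : g ≠ 0) (hh : h ≠ 0) (hd : g ^ 3 - 27 * h ^ 2 ≠ 0) :
    ∃ (τ : ℍ) (c : ℂ) (hc : c ≠ 0),
      (scalePair (periodPair τ) c hc).g₂ = g ∧ (scalePair (periodPair τ) c hc).g₃ = h := by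
  obtain ⟨τ, hτ⟩ := exists_jFun_eq (1728 * g ^ 3 / (g ^ 3 - 27 * h ^ 2))
  set L := periodPair τ
  have hdL : L.g₂ ^ 3 - 27 * L.g₃ ^ 2 ≠ 0 := by
    rw [disc_periodPair]
    exact mul_ne_zero (pow_ne_zero _ (mul_ne_zero two_ne_zero (by exact_mod_cast Real.pi_ne_zero)))
      (ModularForm.discriminant_ne_zero τ)
  rw [jFun_eq_lattice, div_eq_div_iff hdL hd] at hτ
  have hG : L.g₂ ≠ 0 := by
    intro h0
    rw [h0] at hτ
    refine pow_ne_zero 3 hg ?_
    rw [h0] at hdL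
    have : g ^ 3 * (0 ^ 3 - 27 * L.g₃ ^ 2) = 0 := by linear_combination (-1 / 1728 : ℂ) * hτ
    exact (mul_eq_zero.mp this).resolve_right hdL
  have hH : L.g₃ ≠ 0 := by
    intro h0
    have : L.g₂ ^ 3 * h ^ 2 = 0 := by
      rw [h0] at hτ
      linear_combination (-1 / 46656 : ℂ) * hτ
    rcases mul_eq_zero.mp this with h1 | h1
    · exact pow_ne_zero 3 hG h1
    · exact pow_ne_zero 2 hh h1
  set lam := (h / L.g₃) / (g / L.g₂) with hlam
  have key : (g / L.g₂) ^ 3 = (h / L.g₃) ^ 2 := by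
    field_simp
    linear_combination (1 / 46656 : ℂ) * hτ
  have hl0 : lam ≠ 0 := div_ne_zero (div_ne_zero hh hH) (div_ne_zero hg hG)
  obtain ⟨c, hc⟩ := IsAlgClosed.exists_pow_nat_eq lam⁻¹ (n := 2) two_pos
  have hc0 : c ≠ 0 := fun h0 => by
    rw [h0, zero_pow two_ne_zero] at hc
    exact inv_ne_zero hl0 hc.symm
  have hq : g / L.g₂ ≠ 0 := div_ne_zero hg hG
  refine ⟨τ, c, hc0, ?_, ?_⟩
  · rw [g₂_scale hc0 (mem_scalePair hc0), show c ^ 4 = (c ^ 2) ^ 2 by ring, hc, inv_pow, inv_inv,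
      hlam, div_pow, ← key, show (g / L.g₂) ^ 3 = (g / L.g₂) * (g / L.g₂) ^ 2 by ring,
      mul_div_assoc, div_self (pow_ne_zero _ hq), mul_one, div_mul_cancel₀ _ hG]
  · have h2 : lam ^ 3 = h / L.g₃ := by
      rw [hlam, div_pow, key, show (h / L.g₃) ^ 3 = (h / L.g₃) * (h / L.g₃) ^ 2 by ring,
        mul_div_assoc, div_self (pow_ne_zero _ (div_ne_zero hh hH)), mul_one]
    rw [g₃_scale hc0 (mem_scalePair hc0), show c ^ 6 = (c ^ 2) ^ 3 by ring, hc, inv_pow, inv_inv,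
      h2, div_mul_cancel₀ _ hH]

end FLTAgent.MazurModuli
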