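import Fermat.Agent.MazurModuli.Addition
import Mathlib.Analysis.Calculus.IteratedDeriv.Lemmas
import Mathlib.RingTheory.Int.Basic
import Mathlib.RingTheory.PrincipalIdealDomain

/-!
# Invariants of a lattice containing another one with prime index

For `SuperData L L' p v`: `℘` of `L'` as a sum of translates (`weierstrassP_super`) and Vélu type
formulas for its `g₂` and discriminant (`g₂_super`, `disc_super`). Used by `JIso`.
-/

set_option autoImplicit false

noncomputable section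

open Filter
open scoped Topology PeriodPair Nat

namespace FLTAgent.MazurModuli

open FLTAgent.LevelM (weierstrassP_periodic' derivWeierstrassP_periodic' weierstrassP_eq_inv_sq_add
  eventually_notMem_lattice removable_translate eq_const_of_periodic_of_removable
  weierstrassP_eq_iff hasDerivAt_weierstrassP exists_product_const exists_sq_mul_of_even
  derivWeierstrassP_eq_zero_of_two_mul_mem)

/-- `L'` is generated by `L` and a point `v` of odd prime order `p` modulo `L`. -/
structure SuperData (L L' : PeriodPair) (p : ℕ) (v : ℂ) : Prop where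
  prime : p.Prime
  odd : Odd p
  mul_mem : (p : ℂ) * v ∈ L.lattice
  notMem : v ∉ L.lattice
  mem_iff : ∀ z, z ∈ L'.lattice ↔ ∃ k : ℤ, z - (k : ℂ) * v ∈ L.lattice

namespace SuperData

variable {L L' : PeriodPair} {p : ℕ} {v : ℂ} (D : SuperData L L' p v)

include D

theorem intCast_mul_mem_iff (k : ℤ) : (k : ℂ) * v ∈ L.lattice ↔ (p : ℤ) ∣ k := by
  constructor
  · intro h
    by_contra hk
    obtain ⟨s, t, hst⟩ := (Nat.prime_iff_prime_int.mp D.prime).coprime_iff_not_dvd.mpr hk
    refine D.notMem ?_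
    have h1 := add_mem (L.lattice.smul_mem s D.mul_mem) (L.lattice.smul_mem t h)
    have : (s : ℂ) * p + (t : ℂ) * k = 1 := by exact_mod_cast hst
    rw [zsmul_eq_mul, zsmul_eq_mul] at h1
    convert h1 using 1
    linear_combination (-v) * this
  · rintro ⟨c, rfl⟩
    have := L.lattice.smul_mem c D.mul_mem
    rw [zsmul_eq_mul] at this
    convert this using 1
    push_cast; ring

theorem natCast_mul_not_mem {k : ℕ} (h1 : 1 ≤ k) (h2 : k < p) : (k : ℂ) * v ∉ L.lattice := by
  have : ((k : ℤ) : ℂ) * v ∉ L.lattice := fun h => by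
    have h3 := Int.natCast_dvd_natCast.mp ((D.intCast_mul_mem_iff k).mp h)
    exact absurd (Nat.le_of_dvd h1 h3) (not_le.mpr h2)
  simpa using this

theorem two_mul_not_mem {k : ℕ} (h1 : 1 ≤ k) (h2 : k < p) :
    2 * ((k : ℂ) * v) ∉ L.lattice := by
  have : ((2 * k : ℕ) : ℤ) * (1 : ℤ) = (2 * k : ℤ) := by push_cast; ring
  intro h
  have h' : ((2 * k : ℤ) : ℂ) * v ∈ L.lattice := by convert h using 1; push_cast; ring
  have hd := (D.intCast_mul_mem_iff _).mp h'
  have hd' : p ∣ 2 * k := by exact_mod_cast hd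
  rcases D.prime.dvd_mul.mp hd' with h3 | h3
  · obtain ⟨c, hc⟩ := D.odd
    have := Nat.le_of_dvd two_pos h3
    have := D.prime.two_le
    omega
  · exact absurd (Nat.le_of_dvd h1 h3) (not_le.mpr h2)

theorem le_super {z : ℂ} (hz : z ∈ L.lattice) : z ∈ L'.lattice :=
  (D.mem_iff z).mpr ⟨0, by simpa using hz⟩

theorem mul_mem_super (k : ℤ) : (k : ℂ) * v ∈ L'.lattice :=
  (D.mem_iff _).mpr ⟨k, by simp⟩

theorem natMul_mem_super (k : ℕ) : (k : ℂ) * v ∈ L'.lattice := by
  simpa using D.mul_mem_super (k : ℤ)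

/-- A function periodic for `L` and `v` is periodic for `L'`. -/
theorem periodic_super {F : ℂ → ℂ} (h1 : ∀ l ∈ L.lattice, ∀ z, F (z + l) = F z)
    (h2 : ∀ z, F (z + v) = F z) : ∀ l ∈ L'.lattice, ∀ z, F (z + l) = F z := by
  intro l hl z
  obtain ⟨k, hk⟩ := (D.mem_iff l).mp hl
  have hv : ∀ z, F (z + (k : ℂ) * v) = F z := fun z => by
    have hp : Function.Periodic F v := h2
    simpa [zsmul_eq_mul] using hp.zsmul k z
  rw [← hv z, ← h1 _ hk (z + (k : ℂ) * v)]
  congr 1
  ring

omit D in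
theorem sum_shift {α : Type*} [AddCommMonoid α] (f : ℕ → α) (n : ℕ) (h : f n = f 0) :
    ∑ k ∈ Finset.range n, f (k + 1) = ∑ k ∈ Finset.range n, f k := by
  cases n with
  | zero => simp
  | succ m => rw [Finset.sum_range_succ, h, ← Finset.sum_range_succ']

omit D in
theorem prod_shift {α : Type*} [CommMonoid α] (f : ℕ → α) (n : ℕ) (h : f n = f 0) :
    ∏ k ∈ Finset.range n, f (k + 1) = ∏ k ∈ Finset.range n, f k := by
  cases n with
  | zero => simp
  | succ m => rw [Finset.prod_range_succ, h, ← Finset.prod_range_succ']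

omit D in
/-- The sum of the translates of `℘`. -/
def transSum (L : PeriodPair) (p : ℕ) (v z : ℂ) : ℂ :=
  ∑ k ∈ Finset.range p, ℘[L] (z + (k : ℂ) * v)

theorem transSum_periodic : ∀ l ∈ L'.lattice, ∀ z,
    transSum L p v (z + l) = transSum L p v z := by
  refine D.periodic_super (fun l hl z => Finset.sum_congr rfl fun k _ => ?_) fun z => ?_
  · rw [add_right_comm, weierstrassP_periodic' hl]
  · rw [transSum, transSum,
      ← sum_shift (fun k : ℕ => ℘[L] (z + (k : ℂ) * v)) p
        (by rw [weierstrassP_periodic' D.mul_mem]; simp)]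
    refine Finset.sum_congr rfl fun k _ => ?_
    push_cast; ring_nf

omit D in
/-- The sum of `℘` over the nonzero multiples of `v`. -/
def mulSum (L : PeriodPair) (p : ℕ) (v : ℂ) : ℂ :=
  ∑ k ∈ Finset.Ico 1 p, ℘[L] ((k : ℂ) * v)

theorem range_eq_insert : Finset.range p = insert 0 (Finset.Ico 1 p) := by
  have := D.prime.pos
  ext k
  simp only [Finset.mem_range, Finset.mem_insert, Finset.mem_Ico]
  omega

theorem notMem_of_super {z : ℂ} (hz : z ∉ L'.lattice) (k : ℕ) : z + (k : ℂ) * v ∉ L.lattice :=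
  fun h => hz (by simpa using sub_mem (D.le_super h) (D.natMul_mem_super k))

theorem analyticAt_translate {k : ℕ} (hk : k ∈ Finset.Ico 1 p) :
    AnalyticAt ℂ (fun w => ℘[L] (w + (k : ℂ) * v)) 0 := by
  rw [Finset.mem_Ico] at hk
  exact (L.analyticOnNhd_weierstrassP (0 + (k : ℂ) * v)
    (by rw [zero_add]; exact D.natCast_mul_not_mem hk.1 hk.2)).comp
      (f := fun w => w + (k : ℂ) * v) (by fun_prop)

theorem superDiff_eventually :
    ∃ G : ℂ → ℂ, AnalyticAt ℂ G 0 ∧ G 0 = -mulSum L p v ∧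
      (fun w => ℘[L'] w - transSum L p v w) =ᶠ[𝓝[≠] 0] G ∧
      G = fun w => ℘[L' - (0 : ℂ)] w - ℘[L - (0 : ℂ)] w
        - ∑ k ∈ Finset.Ico 1 p, ℘[L] (w + (k : ℂ) * v) := by
  refine ⟨_, ?_, ?_, ?_, rfl⟩
  · exact ((L'.analyticAt_weierstrassPExcept 0).sub (L.analyticAt_weierstrassPExcept 0)).sub
      (Finset.analyticAt_fun_sum _ fun k hk => D.analyticAt_translate hk)
  · simp [mulSum]
  · refine Eventually.of_forall fun w => ?_
    simp only [transSum]
    rw [D.range_eq_insert, Finset.sum_insert (by simp), weierstrassP_eq_inv_sq_add (z := w),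
      weierstrassP_eq_inv_sq_add (z := w + (0 : ℕ) * v)]
    simp only [Nat.cast_zero, zero_mul, add_zero]
    ring

theorem weierstrassP_super {z : ℂ} (hz : z ∉ L'.lattice) :
    ℘[L'] z = transSum L p v z - mulSum L p v := by
  obtain ⟨G, hG, hG0, hGeq, -⟩ := D.superDiff_eventually
  set F : ℂ → ℂ := fun w => ℘[L'] w - transSum L p v w with hF
  have hper : ∀ l ∈ L'.lattice, ∀ w, F (w + l) = F w := fun l hl w => by
    simp only [hF]
    rw [weierstrassP_periodic' hl, D.transSum_periodic l hl]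
  have hreg : ∀ x, x ∉ L'.lattice → AnalyticAt ℂ F x := fun x hx =>
    (L'.analyticOnNhd_weierstrassP x hx).sub (Finset.analyticAt_fun_sum _ fun k _ =>
      (L.analyticOnNhd_weierstrassP (x + (k : ℂ) * v) (D.notMem_of_super hx k)).comp
        (f := fun w => w + (k : ℂ) * v) (by fun_prop))
  have hrem : ∀ x, ∃ G : ℂ → ℂ, AnalyticAt ℂ G x ∧ F =ᶠ[𝓝[≠] x] G := by
    intro x
    by_cases hx : x ∈ L'.lattice
    · exact removable_translate L' hper (x₀ := 0) (by simpa using hx) ⟨G, hG, hGeq⟩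
    · exact ⟨F, hreg x hx, EventuallyEq.rfl⟩
  obtain ⟨c, hc⟩ := eq_const_of_periodic_of_removable L' hper hrem
  have h2 : Tendsto (fun _ : ℂ => c) (𝓝[≠] (0 : ℂ)) (𝓝 (G 0)) :=
    (hG.continuousAt.tendsto.mono_left nhdsWithin_le_nhds).congr' (hGeq.symm.trans (hc 0).2)
  have h3 : c = G 0 := tendsto_nhds_unique tendsto_const_nhds h2
  have := (hc z).1 (hreg z hz).continuousAt
  simp only [hF, h3, hG0] at this
  linear_combination this

/-- Vélu's formula for `g₂`. -/
theorem g₂_super :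
    L'.g₂ = L.g₂ + 10 * ∑ k ∈ Finset.Ico 1 p, (6 * ℘[L] ((k : ℂ) * v) ^ 2 - L.g₂ / 2) := by
  obtain ⟨G, hG, hG0, hGeq, hGdef⟩ := D.superDiff_eventually
  have hconst : G =ᶠ[𝓝 (0 : ℂ)] fun _ => -mulSum L p v := by
    refine (AnalyticAt.frequently_eq_iff_eventually_eq hG analyticAt_const).mp ?_
    refine Eventually.frequently ?_
    filter_upwards [hGeq, eventually_notMem_lattice (L := L') 0] with w hw hw'
    rw [← hw, D.weierstrassP_super hw']; ring
  have h2 : iteratedDeriv 2 G 0 = 0 := by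
    rw [hconst.iteratedDeriv_eq, iteratedDeriv_const]; simp
  have hk : ∀ k ∈ Finset.Ico 1 p, iteratedDeriv 2 (fun w => ℘[L] (w + (k : ℂ) * v)) 0
      = 6 * ℘[L] ((k : ℂ) * v) ^ 2 - L.g₂ / 2 := by
    intro k hk
    rw [Finset.mem_Ico] at hk
    rw [iteratedDeriv_comp_add_const, iteratedDeriv_succ, iteratedDeriv_one]
    simp only [zero_add]
    rw [L.deriv_weierstrassP]
    exact (hasDerivAt_derivWeierstrassP (D.natCast_mul_not_mem hk.1 hk.2)
      (D.two_mul_not_mem hk.1 hk.2)).deriv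
  have hE : ∀ M : PeriodPair, iteratedDeriv 2 ℘[M - (0 : ℂ)] 0 = 6 * M.G 4 := fun M => by
    rw [M.iteratedDeriv_weierstrassPExcept_self, if_neg two_ne_zero, M.sumInvPow_zero]
    norm_num [Nat.factorial]
  have h1 := (L'.analyticAt_weierstrassPExcept 0).contDiffAt (n := 2)
  have h1' := (L.analyticAt_weierstrassPExcept 0).contDiffAt (n := 2)
  have h3 : ∀ k ∈ Finset.Ico 1 p, ContDiffAt ℂ 2 (fun w => ℘[L] (w + (k : ℂ) * v)) 0 :=
    fun k hk => (D.analyticAt_translate hk).contDiffAt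
  rw [hGdef, iteratedDeriv_fun_sub (h1.sub h1') (ContDiffAt.sum h3), iteratedDeriv_fun_sub h1 h1',
    iteratedDeriv_fun_sum h3, Finset.sum_congr rfl hk, hE, hE] at h2
  simp only [PeriodPair.g₂] at h2 ⊢
  linear_combination 10 * h2

omit D in
/-- The product of `℘ - e` over the translates. -/
def transProd (L : PeriodPair) (p : ℕ) (v e z : ℂ) : ℂ :=
  ∏ k ∈ Finset.range p, (℘[L] (z + (k : ℂ) * v) - e)

omit D in
/-- The product of `℘ - e` over the nonzero multiples of `v`. -/
def mulProd (L : PeriodPair) (p : ℕ) (v e : ℂ) : ℂ :=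
  ∏ k ∈ Finset.Ico 1 p, (℘[L] ((k : ℂ) * v) - e)

theorem transProd_periodic (e : ℂ) : ∀ l ∈ L'.lattice, ∀ z,
    transProd L p v e (z + l) = transProd L p v e z := by
  refine D.periodic_super (fun l hl z => Finset.prod_congr rfl fun k _ => ?_) fun z => ?_
  · rw [add_right_comm, weierstrassP_periodic' hl]
  · rw [transProd, transProd,
      ← prod_shift (fun k : ℕ => ℘[L] (z + (k : ℂ) * v) - e) p
        (by rw [weierstrassP_periodic' D.mul_mem]; simp)]
    refine Finset.prod_congr rfl fun k _ => ?_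
    push_cast; ring_nf

theorem half_notMem {a : ℂ} (ha : a ∉ L.lattice) (h2 : 2 * a ∈ L.lattice) : a ∉ L'.lattice := by
  intro h
  obtain ⟨k, hk⟩ := (D.mem_iff a).mp h
  obtain ⟨c, hc⟩ := D.odd
  have h1 : ((p : ℕ) : ℂ) * a ∈ L.lattice := by
    have e1 := add_mem (L.lattice.smul_mem (p : ℤ) hk) (L.lattice.smul_mem k D.mul_mem)
    simp only [zsmul_eq_mul] at e1
    convert e1 using 1
    push_cast; ring
  have h3 := L.lattice.smul_mem (c : ℤ) h2
  simp only [zsmul_eq_mul] at h3
  refine ha ?_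
  convert sub_mem h1 h3 using 1
  rw [hc]; push_cast; ring

theorem transProd_eq {a : ℂ} (ha : a ∉ L.lattice) (h2 : 2 * a ∈ L.lattice) {z : ℂ}
    (hz : z ∉ L'.lattice) :
    transProd L p v (℘[L] a) z = mulProd L p v (℘[L] a) * (℘[L'] z - ℘[L'] a) := by
  set e := ℘[L] a with he
  set C := mulProd L p v e with hC
  have ha' := D.half_notMem ha h2
  set F : ℂ → ℂ := fun w => transProd L p v e w - C * (℘[L'] w - ℘[L'] a) with hF
  have hper : ∀ l ∈ L'.lattice, ∀ w, F (w + l) = F w := fun l hl w => by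
    simp only [hF]
    rw [weierstrassP_periodic' hl, D.transProd_periodic e l hl]
  set R : ℂ → ℂ := fun w => ∏ k ∈ Finset.Ico 1 p, (℘[L] (w + (k : ℂ) * v) - e) with hR
  have hRan : AnalyticAt ℂ R 0 :=
    Finset.analyticAt_fun_prod _ fun k hk => (D.analyticAt_translate hk).sub analyticAt_const
  have hReven : ∀ w, R (-w) = R w := fun w => by
    refine Finset.prod_nbij' (fun k => p - k) (fun k => p - k) ?_ ?_ ?_ ?_ fun k hk => ?_
    · intro k hk; simp only [Finset.mem_Ico] at hk ⊢; omega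
    · intro k hk; simp only [Finset.mem_Ico] at hk ⊢; omega
    · intro k hk; simp only [Finset.mem_Ico] at hk; omega
    · intro k hk; simp only [Finset.mem_Ico] at hk; omega
    rw [Finset.mem_Ico] at hk
    rw [Nat.cast_sub hk.2.le, ← L.weierstrassP_neg (-w + _),
      ← weierstrassP_periodic' (z := -(-w + (k : ℂ) * v)) D.mul_mem]
    congr 2
    ring
  obtain ⟨μ, hμ, hμeq, -⟩ := exists_sq_mul_of_even (N := fun w => R w - C) (by fun_prop)
    (by simp [hR, hC, mulProd]) (fun w => by simp only [hReven])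
  have h0 : ∃ G : ℂ → ℂ, AnalyticAt ℂ G 0 ∧ F =ᶠ[𝓝[≠] 0] G := by
    refine ⟨fun w => μ w + (℘[L - (0 : ℂ)] w - e) * R w - C * (℘[L' - (0 : ℂ)] w - ℘[L'] a),
      ?_, ?_⟩
    · exact (hμ.add (((L.analyticAt_weierstrassPExcept 0).sub analyticAt_const).mul hRan)).sub
        (analyticAt_const.mul ((L'.analyticAt_weierstrassPExcept 0).sub analyticAt_const))
    · filter_upwards [self_mem_nhdsWithin] with w hw
      have hw' : w ≠ 0 := hw
      simp only [hF, transProd]
      rw [D.range_eq_insert, Finset.prod_insert (by simp),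
        weierstrassP_eq_inv_sq_add (L := L') (z := w)]
      simp only [Nat.cast_zero, zero_mul, add_zero]
      rw [show (∏ k ∈ Finset.Ico 1 p, (℘[L] (w + (k : ℂ) * v) - e)) = R w from rfl,
        weierstrassP_eq_inv_sq_add (z := w)]
      field_simp
      linear_combination hμeq w
  have hreg : ∀ x, x ∉ L'.lattice → AnalyticAt ℂ F x := by
    intro x hx
    have h1 : ∀ k : ℕ, AnalyticAt ℂ (fun w => ℘[L] (w + (k : ℂ) * v) - e) x := fun k =>
      ((L.analyticOnNhd_weierstrassP (x + (k : ℂ) * v) (D.notMem_of_super hx k)).comp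
        (f := fun w => w + (k : ℂ) * v) (by fun_prop)).sub analyticAt_const
    have h2 : AnalyticAt ℂ (fun w => transProd L p v e w) x :=
      Finset.analyticAt_fun_prod _ fun k _ => h1 k
    exact h2.sub
      (analyticAt_const.mul ((L'.analyticOnNhd_weierstrassP x hx).sub analyticAt_const))
  have hrem : ∀ x, ∃ G : ℂ → ℂ, AnalyticAt ℂ G x ∧ F =ᶠ[𝓝[≠] x] G := by
    intro x
    by_cases hx : x ∈ L'.lattice
    · exact removable_translate L' hper (x₀ := 0) (by simpa using hx) h0
    · exact ⟨F, hreg x hx, EventuallyEq.rfl⟩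
  obtain ⟨c, hc⟩ := eq_const_of_periodic_of_removable L' hper hrem
  have hFa : F a = 0 := by
    simp only [hF, sub_self, mul_zero, sub_zero]
    exact Finset.prod_eq_zero (Finset.mem_range.mpr D.prime.pos) (by simp [he])
  have hc0 : c = 0 := by rw [← (hc a).1 (hreg a ha').continuousAt, hFa]
  have := (hc z).1 (hreg z hz).continuousAt
  rw [hc0] at this
  exact sub_eq_zero.mp this

end SuperData

/-- Three representatives of the nonzero points of order two. -/
def halfPeriod (L : PeriodPair) : Fin 3 → ℂ := ![L.ω₁ / 2, L.ω₂ / 2, (L.ω₁ + L.ω₂) / 2]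

theorem two_mul_halfPeriod (L : PeriodPair) (i : Fin 3) : 2 * halfPeriod L i ∈ L.lattice := by
  fin_cases i
  · simpa [halfPeriod] using (by convert L.ω₁_mem_lattice using 1; ring :
      2 * (L.ω₁ / 2) ∈ L.lattice)
  · simpa [halfPeriod] using (by convert L.ω₂_mem_lattice using 1; ring :
      2 * (L.ω₂ / 2) ∈ L.lattice)
  · simpa [halfPeriod] using (by
      convert add_mem L.ω₁_mem_lattice L.ω₂_mem_lattice using 1; ring :
      2 * ((L.ω₁ + L.ω₂) / 2) ∈ L.lattice)

theorem halfPeriod_notMem (L : PeriodPair) (i : Fin 3) : halfPeriod L i ∉ L.lattice := by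
  fin_cases i
  · exact L.ω₁_div_two_notMem_lattice
  · exact L.ω₂_div_two_notMem_lattice
  · have := (L.mul_ω₁_add_mul_ω₂_mem_lattice (α := 1 / 2) (β := 1 / 2)).not.mpr (by norm_num)
    show (L.ω₁ + L.ω₂) / 2 ∉ _
    convert this using 2
    push_cast; ring

theorem halfPeriod_sum (L : PeriodPair) {i j l : Fin 3} (hij : i ≠ j) (hil : i ≠ l) (hjl : j ≠ l) :
    halfPeriod L i + halfPeriod L j - halfPeriod L l ∈ L.lattice := by
  have h1 := L.ω₁_mem_lattice
  have h2 := L.ω₂_mem_lattice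
  fin_cases i <;> fin_cases j <;> fin_cases l <;>
    first
    | exact absurd rfl hij
    | exact absurd rfl hil
    | exact absurd rfl hjl
    | (simp only [halfPeriod, Fin.zero_eta, Fin.mk_one, Fin.reduceFinMk, Matrix.cons_val_zero,
        Matrix.cons_val_one, Matrix.cons_val]
       first
       | (convert (zero_mem L.lattice) using 1; ring1)
       | (convert h1 using 1; ring1)
       | (convert h2 using 1; ring1))

/-- The `℘`-values at the points of order two. -/
def eVal (L : PeriodPair) (i : Fin 3) : ℂ := ℘[L] (halfPeriod L i)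

theorem eVal_ne (L : PeriodPair) {i j : Fin 3} (hij : i ≠ j) : eVal L i ≠ eVal L j := by
  intro h
  obtain ⟨l, hil, hjl⟩ : ∃ l, i ≠ l ∧ j ≠ l := by
    fin_cases i <;> fin_cases j <;> first | exact absurd rfl hij | decide
  have hsum := halfPeriod_sum L hij hil hjl
  rcases (weierstrassP_eq_iff (halfPeriod_notMem L i) (halfPeriod_notMem L j)).mp h with h1 | h1
  · refine halfPeriod_notMem L l ?_
    convert sub_mem (add_mem h1 (two_mul_halfPeriod L i)) hsum using 1
    ring
  · refine halfPeriod_notMem L l ?_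
    convert sub_mem h1 hsum using 1
    ring

theorem g₂_g₃_of_eVal (L : PeriodPair) :
    eVal L 2 = -eVal L 0 - eVal L 1 ∧
      L.g₂ = 4 * (eVal L 0 ^ 2 + eVal L 0 * eVal L 1 + eVal L 1 ^ 2) ∧
      L.g₃ = -4 * eVal L 0 * eVal L 1 * (eVal L 0 + eVal L 1) := by
  have hroot : ∀ i, 4 * eVal L i ^ 3 - L.g₂ * eVal L i - L.g₃ = 0 := fun i => by
    have := L.derivWeierstrassP_sq _ (halfPeriod_notMem L i)
    rw [derivWeierstrassP_eq_zero_of_two_mul_mem (two_mul_halfPeriod L i)] at this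
    rw [eVal]; linear_combination -this
  have hdiff : ∀ i j : Fin 3, i ≠ j →
      L.g₂ = 4 * (eVal L i ^ 2 + eVal L i * eVal L j + eVal L j ^ 2) := fun i j hij => by
    refine mul_left_cancel₀ (sub_ne_zero.mpr (eVal_ne L hij)) ?_
    linear_combination hroot j - hroot i
  have h01 := hdiff 0 1 (by decide)
  have h02 := hdiff 0 2 (by decide)
  have hs : eVal L 2 = -eVal L 0 - eVal L 1 := by
    refine sub_eq_zero.mp ((mul_eq_zero.mp
      (show (eVal L 1 - eVal L 2) * (eVal L 2 - (-eVal L 0 - eVal L 1)) = 0 by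
        linear_combination (h02 - h01) / 4)).resolve_left (sub_ne_zero.mpr (eVal_ne L (by decide))))
  refine ⟨hs, h01, ?_⟩
  linear_combination -hroot 0 - eVal L 0 * h01

theorem disc_eq_eVal (L : PeriodPair) : L.g₂ ^ 3 - 27 * L.g₃ ^ 2 =
    16 * ((eVal L 1 - eVal L 0) * (eVal L 2 - eVal L 1) * (eVal L 0 - eVal L 2)) ^ 2 := by
  obtain ⟨h1, h2, h3⟩ := g₂_g₃_of_eVal L
  rw [h1, h2, h3]; ring

theorem derivWeierstrassP_sq_eq_prod (L : PeriodPair) {z : ℂ} (hz : z ∉ L.lattice) :
    ℘'[L] z ^ 2 = 4 * ((℘[L] z - eVal L 0) * (℘[L] z - eVal L 1) * (℘[L] z - eVal L 2)) := by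
  obtain ⟨h1, h2, h3⟩ := g₂_g₃_of_eVal L
  rw [L.derivWeierstrassP_sq z hz, h1, h2, h3]; ring

theorem disc_ne_zero (L : PeriodPair) : L.g₂ ^ 3 - 27 * L.g₃ ^ 2 ≠ 0 := by
  rw [disc_eq_eVal]
  have h : ∀ {i j : Fin 3}, i ≠ j → eVal L i - eVal L j ≠ 0 :=
    fun h => sub_ne_zero.mpr (eVal_ne L h)
  exact mul_ne_zero (by norm_num) (pow_ne_zero _ (mul_ne_zero (mul_ne_zero (h (by decide))
    (h (by decide))) (h (by decide))))

theorem half_translation (L : PeriodPair) {i j l : Fin 3} (hij : i ≠ j) (hil : i ≠ l) (hjl : j ≠ l)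
    {z : ℂ} (hz : z ∉ L.lattice) (hzi : z + halfPeriod L i ∉ L.lattice) :
    (℘[L] z - eVal L i) * (℘[L] (z + halfPeriod L i) - eVal L i)
      = (eVal L j - eVal L i) * (eVal L l - eVal L i) := by
  obtain ⟨c, -, hc⟩ := exists_product_const (halfPeriod_notMem L i) (two_mul_halfPeriod L i)
  have hs := halfPeriod_sum L hij hil hjl
  have hmem : halfPeriod L j + halfPeriod L i ∉ L.lattice := fun h => halfPeriod_notMem L l (by
    convert sub_mem h hs using 1; ring)
  have he : ℘[L] (halfPeriod L j + halfPeriod L i) = eVal L l := by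
    rw [eVal, ← weierstrassP_periodic' (z := halfPeriod L l) hs]; congr 1; ring
  have h2 := hc _ (halfPeriod_notMem L j) hmem
  rw [he] at h2
  simp only [eVal] at h2 ⊢
  rw [hc z hz hzi, h2]

namespace SuperData

variable {L L' : PeriodPair} {p : ℕ} {v : ℂ} (D : SuperData L L' p v)

include D

theorem val_ne_eVal {k : ℕ} (hk : k ∈ Finset.Ico 1 p) (i : Fin 3) :
    ℘[L] ((k : ℂ) * v) - eVal L i ≠ 0 := by
  rw [Finset.mem_Ico] at hk
  refine sub_ne_zero.mpr fun h => ?_
  have hn := D.natCast_mul_not_mem hk.1 hk.2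
  rcases (weierstrassP_eq_iff hn (halfPeriod_notMem L i)).mp h with h1 | h1
  · exact D.two_mul_not_mem hk.1 hk.2 (by
      convert sub_mem (two_mul_halfPeriod L i) (add_mem h1 h1) using 1; ring)
  · exact D.two_mul_not_mem hk.1 hk.2 (by
      convert sub_mem (add_mem h1 h1) (two_mul_halfPeriod L i) using 1; ring)

theorem eVal_super_sub {i j l : Fin 3} (hij : i ≠ j) (hil : i ≠ l) (hjl : j ≠ l) :
    (℘[L'] (halfPeriod L j) - ℘[L'] (halfPeriod L i)) *
      (mulProd L p v (eVal L i) * mulProd L p v (eVal L j))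
      = (eVal L j - eVal L i) ^ p * mulProd L p v (eVal L l) := by
  have hj := D.half_notMem (halfPeriod_notMem L j) (two_mul_halfPeriod L j)
  have h := D.transProd_eq (halfPeriod_notMem L i) (two_mul_halfPeriod L i) hj
  rw [show (℘[L'] (halfPeriod L j) - ℘[L'] (halfPeriod L i)) *
      (mulProd L p v (eVal L i) * mulProd L p v (eVal L j))
      = mulProd L p v (eVal L i) * (℘[L'] (halfPeriod L j) - ℘[L'] (halfPeriod L i)) *
        mulProd L p v (eVal L j) by ring]
  rw [show mulProd L p v (℘[L] (halfPeriod L i)) = mulProd L p v (eVal L i) from rfl] at h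
  rw [← h, transProd, D.range_eq_insert, Finset.prod_insert (by simp), mulProd, mul_assoc,
    ← Finset.prod_mul_distrib]
  simp only [Nat.cast_zero, zero_mul, add_zero]
  have hkey : ∀ k ∈ Finset.Ico 1 p,
      (℘[L] (halfPeriod L j + (k : ℂ) * v) - ℘[L] (halfPeriod L i)) *
        (℘[L] ((k : ℂ) * v) - eVal L j) =
      (eVal L j - eVal L i) * (℘[L] ((k : ℂ) * v) - eVal L l) := by
    intro k hk
    have hk' := Finset.mem_Ico.mp hk
    have ht := half_translation L (i := j) (j := i) (l := l) hij.symm hjl hil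
      (D.natCast_mul_not_mem hk'.1 hk'.2) (fun h => hj (by
        have := sub_mem (D.le_super h) (D.natMul_mem_super k)
        simpa using this))
    rw [add_comm ((k : ℂ) * v) (halfPeriod L j)] at ht
    simp only [eVal] at ht ⊢
    linear_combination ht
  rw [Finset.prod_congr rfl hkey, Finset.prod_mul_distrib, Finset.prod_const, Nat.card_Ico,
    mulProd, ← mul_assoc]
  congr 1
  rw [show ℘[L] (halfPeriod L j) - ℘[L] (halfPeriod L i) = eVal L j - eVal L i from rfl,
    ← pow_succ', Nat.sub_add_cancel D.prime.one_le]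

/-- Vélu's formula for the discriminant. -/
theorem disc_super :
    (L'.g₂ ^ 3 - 27 * L'.g₃ ^ 2) * (∏ k ∈ Finset.Ico 1 p, ℘'[L] ((k : ℂ) * v)) ^ 4
      = (L.g₂ ^ 3 - 27 * L.g₃ ^ 2) ^ p := by
  set e' : Fin 3 → ℂ := fun i => ℘[L'] (halfPeriod L i) with he'
  have hroot : ∀ i, 4 * e' i ^ 3 - L'.g₂ * e' i - L'.g₃ = 0 := fun i => by
    have h2 := derivWeierstrassP_eq_zero_of_two_mul_mem (L := L')
      (D.le_super (two_mul_halfPeriod L i))
    have := L'.derivWeierstrassP_sq _
      (D.half_notMem (halfPeriod_notMem L i) (two_mul_halfPeriod L i))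
    rw [h2] at this
    simp only [he']; linear_combination -this
  have hA : ∀ i, mulProd L p v (eVal L i) ≠ 0 := fun i =>
    Finset.prod_ne_zero_iff.mpr fun k hk => D.val_ne_eVal hk i
  have h1 := D.eVal_super_sub (i := 0) (j := 1) (l := 2) (by decide) (by decide) (by decide)
  have h2 := D.eVal_super_sub (i := 1) (j := 2) (l := 0) (by decide) (by decide) (by decide)
  have h3 := D.eVal_super_sub (i := 2) (j := 0) (l := 1) (by decide) (by decide) (by decide)
  simp only [show ∀ i, ℘[L'] (halfPeriod L i) = e' i from fun _ => rfl] at h1 h2 h3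
  have hne : ∀ {i j l : Fin 3}, j ≠ i →
      (e' j - e' i) * (mulProd L p v (eVal L i) * mulProd L p v (eVal L j))
      = (eVal L j - eVal L i) ^ p * mulProd L p v (eVal L l) → e' j - e' i ≠ 0 := by
    intro i j l hne h h0
    rw [h0, zero_mul] at h
    exact mul_ne_zero (pow_ne_zero _ (sub_ne_zero.mpr (eVal_ne L hne))) (hA l) h.symm
  have n01 : e' 1 - e' 0 ≠ 0 := hne (by decide) h1
  have n12 : e' 2 - e' 1 ≠ 0 := hne (by decide) h2
  have hg : L'.g₂ = 4 * (e' 0 ^ 2 + e' 0 * e' 1 + e' 1 ^ 2) := by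
    refine mul_left_cancel₀ n01 ?_
    linear_combination hroot 0 - hroot 1
  have hs : e' 2 = -e' 0 - e' 1 := by
    refine sub_eq_zero.mp ((mul_eq_zero.mp
      (show (e' 2 - e' 0) * (e' 2 - (-e' 0 - e' 1)) = 0 from ?_)).resolve_left ?_)
    · refine mul_left_cancel₀ n12 ?_
      linear_combination (1 / 4 : ℂ) * (hroot 2 - hroot 1) + ((e' 2 - e' 1) / 4) * hg
    · exact fun h0 => hne (i := 2) (j := 0) (l := 1) (by decide) h3 (by linear_combination -h0)
  have hg3 : L'.g₃ = -4 * e' 0 * e' 1 * (e' 0 + e' 1) := by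
    linear_combination -hroot 0 - e' 0 * hg
  have hd : L'.g₂ ^ 3 - 27 * L'.g₃ ^ 2 =
      16 * ((e' 1 - e' 0) * (e' 2 - e' 1) * (e' 0 - e' 2)) ^ 2 := by
    rw [hs, hg, hg3]; ring
  have hsq : (∏ k ∈ Finset.Ico 1 p, ℘'[L] ((k : ℂ) * v)) ^ 2 = 4 ^ (p - 1) *
      (mulProd L p v (eVal L 0) * mulProd L p v (eVal L 1) * mulProd L p v (eVal L 2)) := by
    rw [← Finset.prod_pow, mulProd, mulProd, mulProd, ← Finset.prod_mul_distrib,
      ← Finset.prod_mul_distrib, show (4 : ℂ) ^ (p - 1) = ∏ _k ∈ Finset.Ico 1 p, (4 : ℂ) by simp,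
      ← Finset.prod_mul_distrib]
    exact Finset.prod_congr rfl fun k hk => derivWeierstrassP_sq_eq_prod L
      (D.natCast_mul_not_mem (Finset.mem_Ico.mp hk).1 (Finset.mem_Ico.mp hk).2)
  rw [show ∀ x : ℂ, x ^ 4 = (x ^ 2) ^ 2 from fun x => by ring, hsq, hd, disc_eq_eVal, mul_pow,
    mul_pow (16 : ℂ), ← pow_mul (_ * _ * _ : ℂ) 2 p, mul_comm 2 p, pow_mul,
    mul_pow (_ * _ : ℂ), mul_pow (eVal L 1 - eVal L 0), mul_pow (4 ^ (p - 1) : ℂ)]
  set A := mulProd L p v (eVal L 0)
  set B := mulProd L p v (eVal L 1)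
  set C := mulProd L p v (eVal L 2)
  set E := eVal L
  have h16 : (16 : ℂ) * ((4 : ℂ) ^ (p - 1)) ^ 2 = 16 ^ p := by
    rw [← pow_mul, mul_comm (p - 1) 2, pow_mul, show (4 : ℂ) ^ 2 = 16 by norm_num, ← pow_succ',
      Nat.sub_add_cancel D.prime.one_le]
  have hprod : (e' 1 - e' 0) * (e' 2 - e' 1) * (e' 0 - e' 2) * (A * B * C)
      = (E 1 - E 0) ^ p * (E 2 - E 1) ^ p * (E 0 - E 2) ^ p := by
    refine mul_right_cancel₀ (mul_ne_zero (mul_ne_zero (hA 0) (hA 1)) (hA 2)) ?_
    linear_combination ((e' 2 - e' 1) * (B * C) * ((e' 0 - e' 2) * (C * A))) * h1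
      + ((E 1 - E 0) ^ p * C * ((e' 0 - e' 2) * (C * A))) * h2
      + ((E 1 - E 0) ^ p * C * ((E 2 - E 1) ^ p * A)) * h3
  rw [← hprod, ← h16]
  ring

end SuperData

end FLTAgent.MazurModuli
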