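import Fermat.Agent.MazurModuli.Uniformization
import Fermat.Agent.MazurModuli.SuperLattice
import Fermat.Agent.MazurModuli.Lattice
import Fermat.Agent.ECTorsion.Formulas
import Fermat.Agent.Igusa.IsogenyFunctions
import Fermat.Agent.ECTorsion.Torsion
import Mathlib.FieldTheory.IsAlgClosed.Basic

/-!
# The invariant of the quotient by a line of `p`-torsion

`jIsoVal W p R` is the Vélu invariant of the quotient by the line of `R`; over `ℂ` its values on
the `p + 1` lines are the values `isoJ p i τ` (`exists_lines`). Used by `NodalOutside`.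
-/

set_option autoImplicit false

noncomputable section

open UpperHalfPlane
open scoped PeriodPair WeierstrassCurve.Affine

namespace FLTAgent.MazurModuli

open WeierstrassCurve FLTAgent.ECTorsion
open FLTAgent.Igusa (isoJ isoPoint)
open FLTAgent.ModularFF (jFun scaleH affineH coe_scaleH)
open FLTAgent.LevelM (periodPair)

section Def

variable {F : Type*} [Field F] (W : WeierstrassCurve F)

/-- `6x² + b₂x + b₄` at a point. -/
def halfAt : W.toAffine.Point → F
  | 0 => 0
  | .some x _ _ => halfDer W x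

/-- `2y + a₁x + a₃` at a point. -/
def psiAt : W.toAffine.Point → F
  | 0 => 0
  | .some x y _ => psi2 W x y

variable [DecidableEq F]

/-- `c₄` of the quotient by the group generated by `R`. -/
def veluC4 (p : ℕ) (R : W.toAffine.Point) : F :=
  W.c₄ + 120 * ∑ k ∈ Finset.Ico 1 p, halfAt W (k • R)

/-- The `j`-invariant of the quotient by the group of order `p` generated by `R`. -/
def jIsoVal (p : ℕ) (R : W.toAffine.Point) : F :=
  veluC4 W p R ^ 3 * (∏ k ∈ Finset.Ico 1 p, psiAt W (k • R)) ^ 4 / W.Δ ^ p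

end Def

section Complex

variable {L : PeriodPair} {W : WeierstrassCurve ℂ}

theorem Uniformises.Δ_eq (hU : Uniformises L W) : W.Δ = L.g₂ ^ 3 - 27 * L.g₃ ^ 2 := by
  have h := W.c_relation
  rw [hU.c₄_eq, hU.c₆_eq] at h
  linear_combination (1 / 1728 : ℂ) * h

theorem Uniformises.halfAt_pt (hU : Uniformises L W) {z : ℂ} (hz : z ∉ L.lattice) :
    halfAt W (hU.pt z) = 6 * ℘[L] z ^ 2 - L.g₂ / 2 := by
  rw [hU.pt_of_notMem hz]
  show halfDer W _ = _
  have h4 := hU.c₄_eq
  simp only [WeierstrassCurve.c₄] at h4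
  simp only [halfDer, uX]
  linear_combination (-1 / 24 : ℂ) * h4

theorem Uniformises.psiAt_pt (hU : Uniformises L W) {z : ℂ} (hz : z ∉ L.lattice) :
    psiAt W (hU.pt z) = ℘'[L] z := by
  rw [hU.pt_of_notMem hz]
  show psi2 W _ _ = _
  simp only [psi2, uY]
  ring

variable {p : ℕ}

theorem Uniformises.jIsoVal_eq [DecidableEq ℂ] [Fact p.Prime] (hU : Uniformises L W) (hp2 : p ≠ 2)
    (T : ZMod p × ZMod p) {L' : PeriodPair} (D : SuperData L L' p (torsPt L p T)) :
    jIsoVal W p (hU.torsHom hp2 T) = latticeJ L' := by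
  have hk : ∀ k ∈ Finset.Ico 1 p, (k : ℂ) * torsPt L p T ∉ L.lattice := fun k hk =>
    D.natCast_mul_not_mem (Finset.mem_Ico.mp hk).1 (Finset.mem_Ico.mp hk).2
  have hc4 : veluC4 W p (hU.torsHom hp2 T) = 12 * L'.g₂ := by
    rw [veluC4, Finset.sum_congr rfl fun k hk' => by
      rw [hU.torsHom_nsmul hp2, hU.halfAt_pt (hk k hk')], hU.c₄_eq, D.g₂_super]
    ring
  have hd := D.disc_super
  have hpr : ∏ k ∈ Finset.Ico 1 p, psiAt W (k • hU.torsHom hp2 T)
      = ∏ k ∈ Finset.Ico 1 p, ℘'[L] ((k : ℂ) * torsPt L p T) :=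
    Finset.prod_congr rfl fun k hk' => by rw [hU.torsHom_nsmul hp2, hU.psiAt_pt (hk k hk')]
  have hne := disc_ne_zero L'
  have hne' : L.g₂ ^ 3 - 27 * L.g₃ ^ 2 ≠ 0 := disc_ne_zero L
  rw [jIsoVal, hc4, hpr, hU.Δ_eq, latticeJ, div_eq_div_iff (pow_ne_zero _ hne') hne]
  linear_combination (1728 * L'.g₂ ^ 3) * hd

/-- The vector of the line with a given index. -/
def lineVec (p : ℕ) : Option (ZMod p) → ZMod p × ZMod p
  | none => (0, 1)
  | some b => (1, b)

theorem lineVec_ne_zero [Fact p.Prime] (i : Option (ZMod p)) : lineVec p i ≠ 0 := by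
  cases i <;> simp [lineVec]

theorem val_one_zmod [Fact p.Prime] : (1 : ZMod p).val = 1 := ZMod.val_one p

theorem exists_superData [Fact p.Prime] [NeZero p] (hp2 : p ≠ 2) (τ : ℍ) {c : ℂ} (hc : c ≠ 0)
    (i : Option (ZMod p)) :
    ∃ L' : PeriodPair,
      SuperData (scalePair (periodPair τ) c hc) L' p
        (torsPt (scalePair (periodPair τ) c hc) p (lineVec p i)) ∧
      latticeJ L' = isoJ p i τ := by
  have hp : p.Prime := Fact.out
  have hpc : (p : ℂ) ≠ 0 := Nat.cast_ne_zero.mpr hp.ne_zero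
  set L := scalePair (periodPair τ) c hc with hL
  set v := torsPt L p (lineVec p i) with hv
  have hpv : (p : ℂ) * v ∈ L.lattice := by
    rw [hv, torsPt, mul_div_cancel₀ _ hpc]
    exact add_mem (by simpa [zsmul_eq_mul] using
        L.lattice.smul_mem ((lineVec p i).1.val : ℤ) L.ω₁_mem_lattice)
      (by simpa [zsmul_eq_mul] using L.lattice.smul_mem ((lineVec p i).2.val : ℤ) L.ω₂_mem_lattice)
  have hvn : v ∉ L.lattice := (torsPt_mem_iff _).not.mpr (lineVec_ne_zero i)
  have key : ∀ (d : ℂ) (hd : d ≠ 0),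
      (∀ z, z ∈ (scalePair (periodPair (isoPoint p i τ)) d hd).lattice ↔
        ∃ k : ℤ, z - (k : ℂ) * v ∈ L.lattice) →
      ∃ L' : PeriodPair, SuperData L L' p v ∧ latticeJ L' = isoJ p i τ := fun d hd h =>
    ⟨_, ⟨hp, hp.odd_of_ne_two hp2, hpv, hvn, h⟩, by
      rw [latticeJ_scale hd (mem_scalePair hd), latticeJ_periodPair]; rfl⟩
  cases i with
  | none =>
    have hv' : v = c / p := by
      simp [hv, hL, torsPt, lineVec, scalePair, periodPair, val_one_zmod]
    refine key (c / p) (div_ne_zero hc hpc) fun z => ?_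
    simp only [hL, PeriodPair.mem_lattice, scalePair, periodPair, isoPoint, coe_scaleH, hv']
    constructor
    · rintro ⟨m, n, rfl⟩
      refine ⟨n, m, 0, ?_⟩
      push_cast
      field_simp
      ring
    · rintro ⟨k, m, n, h⟩
      refine ⟨m, k + n * p, ?_⟩
      push_cast
      field_simp at h ⊢
      linear_combination h
  | some b =>
    have hv' : v = (c * τ + (b.val : ℂ) * c) / p := by
      simp [hv, hL, torsPt, lineVec, scalePair, periodPair, val_one_zmod]
    have haff : ((isoPoint p (some b) τ : ℍ) : ℂ) = (τ + (b.val : ℂ)) / p := by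
      simp [isoPoint, affineH]
    refine key c hc fun z => ?_
    simp only [hL, PeriodPair.mem_lattice, scalePair, periodPair, haff, hv']
    constructor
    · rintro ⟨m, n, rfl⟩
      refine ⟨m, 0, n, ?_⟩
      push_cast
      field_simp
      ring
    · rintro ⟨k, m, n, h⟩
      refine ⟨k + m * p, n - m * b.val, ?_⟩
      push_cast
      field_simp at h ⊢
      linear_combination h

theorem exists_uniformisation (W : WeierstrassCurve ℂ) (hΔ : W.Δ ≠ 0) (h4 : W.c₄ ≠ 0)
    (h6 : W.c₆ ≠ 0) :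
    ∃ (τ : ℍ) (c : ℂ) (hc : c ≠ 0), Uniformises (scalePair (periodPair τ) c hc) W ∧
      jFun τ = W.c₄ ^ 3 / W.Δ := by
  have hd : (W.c₄ / 12) ^ 3 - 27 * (W.c₆ / 216) ^ 2 = W.Δ := by
    linear_combination (-1 / 1728 : ℂ) * W.c_relation
  obtain ⟨τ, c, hc, hg, hh⟩ := exists_lattice (g := W.c₄ / 12) (h := W.c₆ / 216)
    (div_ne_zero h4 (by norm_num)) (div_ne_zero h6 (by norm_num)) (by rwa [hd])
  refine ⟨τ, c, hc, ⟨by rw [hg]; ring, by rw [hh]; ring, hΔ⟩, ?_⟩
  rw [← latticeJ_periodPair, ← latticeJ_scale hc (mem_scalePair hc), latticeJ, hg, hh, hd]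
  ring

end Complex

section Algebraic

variable (W₀ : WeierstrassCurve.Affine ℚ) {K : Type*} [Field K] [DecidableEq K] [Algebra ℚ K]

section Map

variable {L : Type*} [Field L] [DecidableEq L] [Algebra ℚ L] (ι : K →ₐ[ℚ] L)

theorem halfAt_map (P : (W₀⁄K).Point) :
    halfAt (W₀⁄L) (Affine.Point.map (W' := W₀) ι P) = ι (halfAt (W₀⁄K) P) := by
  cases P with
  | zero => exact (map_zero ι).symm
  | some x y h =>
    show halfDer (W₀⁄L) (ι x) = ι (halfDer (W₀⁄K) x)
    simp [halfDer, WeierstrassCurve.baseChange, map_ofNat]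

theorem psiAt_map (P : (W₀⁄K).Point) :
    psiAt (W₀⁄L) (Affine.Point.map (W' := W₀) ι P) = ι (psiAt (W₀⁄K) P) := by
  cases P with
  | zero => exact (map_zero ι).symm
  | some x y h =>
    show psi2 (W₀⁄L) (ι x) (ι y) = ι (psi2 (W₀⁄K) x y)
    simp [psi2, WeierstrassCurve.baseChange, map_ofNat]

theorem jIsoVal_map (p : ℕ) (R : (W₀⁄K).Point) :
    jIsoVal (W₀⁄L) p (Affine.Point.map (W' := W₀) ι R) = ι (jIsoVal (W₀⁄K) p R) := by
  have hk : ∀ k : ℕ, k • Affine.Point.map (W' := W₀) ι R = Affine.Point.map ι (k • R) := fun k =>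
    (map_nsmul (Affine.Point.map (W' := W₀) ι) k R).symm
  have e1 : ∀ k : ℕ, halfAt (W₀⁄L) (k • Affine.Point.map (W' := W₀) ι R) =
      ι (halfAt (W₀⁄K) (k • R)) :=
    fun k => by rw [hk]; exact halfAt_map W₀ ι _
  have e2 : ∀ k : ℕ, psiAt (W₀⁄L) (k • Affine.Point.map (W' := W₀) ι R) =
      ι (psiAt (W₀⁄K) (k • R)) :=
    fun k => by rw [hk]; exact psiAt_map W₀ ι _
  unfold jIsoVal veluC4
  rw [Finset.sum_congr rfl fun k _ => e1 k, Finset.prod_congr rfl fun k _ => e2 k]
  simp [WeierstrassCurve.baseChange, map_ofNat]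

end Map

variable (ι : K →ₐ[ℚ] ℂ)

/-- The invariants of the `p + 1` lines are the values at `τ` of the conjugates of `j(pτ)`. -/
theorem exists_lines {p : ℕ} [Fact p.Prime] [NeZero p] (hp2 : p ≠ 2) [IsAlgClosed K]
    (hΔ : W₀.Δ ≠ 0) (h4 : W₀.c₄ ≠ 0) (h6 : W₀.c₆ ≠ 0) :
    ∃ (τ : ℍ) (R : Option (ZMod p) → (W₀⁄K).Point),
      jFun τ = ι (algebraMap ℚ K (W₀.c₄ ^ 3 / W₀.Δ)) ∧
      (∀ i, p • R i = 0 ∧ R i ≠ 0 ∧ ι (jIsoVal (W₀⁄K) p (R i)) = isoJ p i τ) ∧
      (∀ P, p • P = 0 → P ≠ 0 → ∃ i, ∃ k : ℕ, P = k • R i) ∧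
      (∀ i j, i ≠ j → ∀ P, p • P = 0 → ∃ a b : ℕ, P = a • R i + b • R j) := by
  classical
  have hC : algebraMap ℚ ℂ W₀.Δ ≠ 0 := by simpa using hΔ
  obtain ⟨τ, c, hc, hU, hj⟩ := exists_uniformisation (W₀⁄ℂ)
    (by simpa [WeierstrassCurve.baseChange] using hΔ)
    (by simpa [WeierstrassCurve.baseChange] using h4)
    (by simpa [WeierstrassCurve.baseChange] using h6)
  set f := hU.torsHom (p := p) hp2 with hf
  have : CharZero K := charZero_of_injective_algebraMap (algebraMap ℚ K).injective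
  have : W₀.IsElliptic := ⟨isUnit_iff_ne_zero.mpr hΔ⟩
  have : (W₀⁄K).IsElliptic := inferInstanceAs (W₀.map (algebraMap ℚ K)).IsElliptic
  have hpK : (p : K) ≠ 0 := Nat.cast_ne_zero.mpr (Fact.out : p.Prime).ne_zero
  have : (W₀⁄ℂ).IsElliptic := inferInstanceAs (W₀.map (algebraMap ℚ ℂ)).IsElliptic
  have hpC : (p : ℂ) ≠ 0 := Nat.cast_ne_zero.mpr (Fact.out : p.Prime).ne_zero
  let g : {P : (W₀⁄K).Point // p • P = 0} → {P : (W₀⁄ℂ).Point // p • P = 0} := fun P =>
    ⟨Affine.Point.map (W' := W₀) ι P.1, by rw [← map_nsmul, P.2, map_zero]⟩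
  have : Finite {P : (W₀⁄ℂ).Point // p • P = 0} := Nat.finite_of_card_ne_zero (by
    rw [card_nsmul_eq_zero (W₀⁄ℂ) hpC]; exact pow_ne_zero 2 (Fact.out : p.Prime).ne_zero)
  have hginj : Function.Injective g := fun P Q h =>
    Subtype.ext (Affine.Point.map_injective (W' := W₀) ι (congrArg Subtype.val h))
  have hgbij := (Nat.bijective_iff_injective_and_card g).mpr
    ⟨hginj, by rw [card_nsmul_eq_zero (W₀⁄ℂ) hpC, card_nsmul_eq_zero (W₀⁄K) hpK]⟩
  let fT : ZMod p × ZMod p → {P : (W₀⁄ℂ).Point // p • P = 0} := fun T =>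
    ⟨f T, by rw [← map_nsmul, show p • T = 0 from Prod.ext (by simp) (by simp), map_zero]⟩
  have hfbij : Function.Bijective fT := (Nat.bijective_iff_injective_and_card fT).mpr
    ⟨fun T U h => hU.torsHom_injective hp2 (congrArg Subtype.val h), by
      rw [card_nsmul_eq_zero (W₀⁄ℂ) hpC, Nat.card_prod, Nat.card_zmod, sq]⟩
  choose R hR using fun i => hgbij.2 (fT (lineVec p i))
  have hR' : ∀ i, Affine.Point.map (W' := W₀) ι (R i).1 = f (lineVec p i) :=
    fun i => congrArg Subtype.val (hR i)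
  have hinj := Affine.Point.map_injective (W' := W₀) ι
  have hsurj : ∀ P : (W₀⁄K).Point, p • P = 0 →
      ∃ T, Affine.Point.map (W' := W₀) ι P = f T := fun P hP => by
    obtain ⟨T, hT⟩ := hfbij.2 (g ⟨P, hP⟩)
    exact ⟨T, (congrArg Subtype.val hT).symm⟩
  have hsmul : ∀ (a : ZMod p) (T : ZMod p × ZMod p), a.val • T = (a * T.1, a * T.2) := fun a T => by
    refine Prod.ext ?_ ?_ <;> simp [nsmul_eq_mul]
  refine ⟨τ, fun i => (R i).1, ?_, fun i => ⟨(R i).2, ?_, ?_⟩, fun P hP hP0 => ?_,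
    fun i j hij P hP => ?_⟩
  · rw [hj, AlgHom.commutes, map_div₀, map_pow]
    simp [WeierstrassCurve.baseChange]
  · intro h
    replace h : (R i).1 = 0 := h
    have := hR' i
    rw [h, map_zero] at this
    exact lineVec_ne_zero i (hU.torsHom_injective hp2 (by rw [← hf, ← this, map_zero]))
  · obtain ⟨L', D, hL'⟩ := exists_superData hp2 τ hc i
    show ι (jIsoVal (W₀⁄K) p (R i).1) = _
    rw [← jIsoVal_map, hR' i, hf, hU.jIsoVal_eq hp2 _ D, hL']
  · obtain ⟨T, hT⟩ := hsurj P hP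
    have hT0 : T ≠ 0 := fun h => hP0 (hinj (by rw [hT, h, map_zero, map_zero]))
    by_cases h1 : T.1 = 0
    · refine ⟨none, T.2.val, hinj ?_⟩
      rw [hT, map_nsmul, hR' none, ← map_nsmul, hsmul]
      congr 1
      refine Prod.ext ?_ ?_ <;> simp [lineVec, h1]
    · refine ⟨some (T.2 / T.1), T.1.val, hinj ?_⟩
      rw [hT, map_nsmul, hR' _, ← map_nsmul, hsmul]
      congr 1
      refine Prod.ext ?_ ?_ <;> simp [lineVec, mul_div_cancel₀ _ h1]
  · obtain ⟨T, hT⟩ := hsurj P hP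
    suffices h : ∃ a b : ZMod p, T = a.val • lineVec p i + b.val • lineVec p j by
      obtain ⟨a, b, hab⟩ := h
      refine ⟨a.val, b.val, hinj ?_⟩
      rw [hT, map_add, map_nsmul, map_nsmul, hR', hR', ← map_nsmul, ← map_nsmul, ← map_add, hab]
    simp only [hsmul]
    cases i with
    | none =>
      cases j with
      | none => exact absurd rfl hij
      | some b' =>
        exact ⟨T.2 - T.1 * b', T.1, Prod.ext (by simp [lineVec]) (by simp [lineVec])⟩
    | some b =>
      cases j with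
      | none => exact ⟨T.1, T.2 - T.1 * b, Prod.ext (by simp [lineVec]) (by simp [lineVec])⟩
      | some b' =>
        have hb : b - b' ≠ 0 := sub_ne_zero.mpr fun h => hij (by rw [h])
        refine ⟨(T.2 - T.1 * b') / (b - b'), T.1 - (T.2 - T.1 * b') / (b - b'),
          Prod.ext (by simp [lineVec]) ?_⟩
        simp only [lineVec, Prod.snd_add]
        field_simp
        ring

end Algebraic

end FLTAgent.MazurModuli
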