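import Fermat.Agent.MazurModuli.JIso
import Fermat.Agent.ECReduction.Basic
import Fermat.Agent.ECReduction.Torsion
import Fermat.Agent.ECReduction.Multiple
import Fermat.Agent.ECTorsion.Multiples
import Fermat.Agent.ECTorsion.Torsion
import Fermat.Prelude.Def_EllipticCurve_ZeroComponentAt

/-!
# Torsion at a place of multiplicative reduction

At a place with `v(Δ) < 1 = v(c₄)`: a point of order `p` meeting the node gives a value of
`jIsoVal` strictly below `v(j) ^ p` (`val_jIsoVal_lt`), and when `6` is a unit some point of order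
`p` meets the node (`exists_torsion_not_inE0`). Used by `Point`.
-/

set_option autoImplicit false

noncomputable section

open Polynomial

namespace FLTAgent.MazurModuli

open WeierstrassCurve FLTAgent.ECTorsion FLTAgent.ECReduction

variable {K : Type*} [Field K] {A : ValuationSubring K} {W : WeierstrassCurve K}

local notation "v" => A.valuation

theorem val_b₂_le (hW : IntAt A W) : v W.b₂ ≤ 1 :=
  val_add_le A (val_pow_le A hW.h₁ 2) (val_mul_le A (val_ofNat_le A 4) hW.h₂)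

theorem val_b₄_le (hW : IntAt A W) : v W.b₄ ≤ 1 :=
  val_add_le A (val_mul_le A (val_ofNat_le A 2) hW.h₄) (val_mul_le A hW.h₁ hW.h₃)

theorem val_b₆_le (hW : IntAt A W) : v W.b₆ ≤ 1 :=
  val_add_le A (val_pow_le A hW.h₃ 2) (val_mul_le A (val_ofNat_le A 4) hW.h₆)

theorem val_c₆_le (hW : IntAt A W) : v W.c₆ ≤ 1 :=
  val_sub_le A (val_add_le A (val_neg_le A (val_pow_le A (val_b₂_le hW) 3))
    (val_mul_le A (val_mul_le A (val_ofNat_le A 36) (val_b₂_le hW)) (val_b₄_le hW)))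
    (val_mul_le A (val_ofNat_le A 216) (val_b₆_le hW))

theorem val_halfDer_le (hW : IntAt A W) {x : K} (hx : v x ≤ 1) : v (halfDer W x) ≤ 1 :=
  val_add_le A (val_add_le A (val_mul_le A (val_ofNat_le A 6) (val_pow_le A hx 2))
    (val_mul_le A (val_b₂_le hW) hx)) (val_b₄_le hW)

section Torsion

variable [DecidableEq K]

theorem psiVanish_odd (W : WeierstrassCurve K) {n : ℕ} (hn : Odd n) : PsiVanish W n :=
  fun _ _ h hP => (FLTAgent.ECTorsion.preΨ'_eval_eq_zero_iff h hn).1 hP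

/-- A point of odd order invertible at `A` has integral coordinates. -/
theorem val_coord_le (hW : IntAt A W) {n : ℕ} (hn : v (n : K) = 1) (hodd : Odd n) {x y : K}
    {h : W.toAffine.Nonsingular x y} (hP : n • (Affine.Point.some x y h) = 0) :
    v x ≤ 1 ∧ v y ≤ 1 := by
  have hx := val_x_le_of_torsion hW hn hodd (psiVanish_odd W hodd) hP
  exact ⟨hx, val_le_of_monic_quadratic hW hx ((Affine.equation_iff x y).1 h.1)⟩

theorem val_halfAt_le (hW : IntAt A W) {n : ℕ} (hn : v (n : K) = 1) (hodd : Odd n)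
    {P : W.toAffine.Point} (hP : n • P = 0) : v (halfAt W P) ≤ 1 := by
  rcases P with _ | ⟨x, y, h⟩
  · exact val_zero_le A
  · exact val_halfDer_le hW (val_coord_le hW hn hodd hP).1

theorem val_psiAt_le (hW : IntAt A W) {n : ℕ} (hn : v (n : K) = 1) (hodd : Odd n)
    {P : W.toAffine.Point} (hP : n • P = 0) : v (psiAt W P) ≤ 1 := by
  rcases P with _ | ⟨x, y, h⟩
  · exact val_zero_le A
  · obtain ⟨hx, hy⟩ := val_coord_le hW hn hodd hP
    exact dY_le hW hx hy

omit [DecidableEq K] in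
theorem val_psiAt_lt {P : W.toAffine.Point} (hP : ¬ InE0 A W P) : v (psiAt W P) < 1 := by
  rcases P with _ | ⟨x, y, h⟩
  · exact val_zero_lt A
  · rw [inE0_some, not_not] at hP
    exact hP.2.2.2

/-- A line meeting the node gives a value of `jIsoVal` smaller than `v(j) ^ p`. -/
theorem val_jIsoVal_lt (hW : IntAt A W) (hΔ0 : W.Δ ≠ 0) (hc₄ : v W.c₄ = 1) {p : ℕ} (hp : 2 ≤ p)
    (hodd : Odd p) (hvp : v (p : K) = 1) {R : W.toAffine.Point} (hR : p • R = 0)
    (hR0 : ¬ InE0 A W R) : v (jIsoVal W p R) < v (W.c₄ ^ 3 / W.Δ) ^ p := by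
  have hk : ∀ k : ℕ, p • (k • R) = 0 := fun k => by rw [smul_comm, hR, nsmul_zero]
  have hc : v (veluC4 W p R) ≤ 1 :=
    val_add_le A hc₄.le (val_mul_le A (val_ofNat_le A 120)
      (A.valuation.map_sum_le fun k _ => val_halfAt_le hW hvp hodd (hk k)))
  have hpr : v (∏ k ∈ Finset.Ico 1 p, psiAt W (k • R)) < 1 := by
    rw [← Finset.mul_prod_erase _ _ (Finset.mem_Ico.mpr ⟨le_rfl, hp⟩ : 1 ∈ Finset.Ico 1 p),
      one_nsmul]
    refine val_mul_lt_left A (val_psiAt_lt hR0) ?_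
    rw [map_prod]
    exact Finset.prod_le_one' fun k _ => val_psiAt_le hW hvp hodd (hk k)
  have hnum : v (veluC4 W p R ^ 3 * (∏ k ∈ Finset.Ico 1 p, psiAt W (k • R)) ^ 4) < 1 :=
    val_mul_lt_right A (val_pow_le A hc 3) (val_pow_lt A hpr four_ne_zero)
  have hd : 0 < v W.Δ ^ p := pow_pos (A.valuation.pos_iff.2 hΔ0) p
  rw [jIsoVal, map_div₀ A.valuation, map_div₀ A.valuation, map_pow A.valuation W.c₄, hc₄, one_pow,
    map_pow, div_pow, one_pow]
  exact div_lt_div_of_pos_right hnum hd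

end Torsion

/-! ### A point of order `p` meeting the node -/

/-- The abscissa of the node. -/
def nodeX (W : WeierstrassCurve K) : K := -(W.c₆ + W.b₂ * W.c₄) / (12 * W.c₄)

theorem Ψ₂Sq_eval_eq (W : WeierstrassCurve K) (x : K) :
    W.Ψ₂Sq.eval x = 4 * x ^ 3 + W.b₂ * x ^ 2 + 2 * W.b₄ * x + W.b₆ := by
  simp [WeierstrassCurve.Ψ₂Sq]

theorem halfDer_nodeX (h12 : (12 : K) ≠ 0) (hc₄ : W.c₄ ≠ 0) :
    halfDer W (nodeX W) = -(72 * W.Δ) / W.c₄ ^ 2 := by
  have h24 : (24 : K) ≠ 0 := by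
    have : (2 : K) * 12 ≠ 0 := mul_ne_zero (fun h => h12 (by linear_combination 6 * h)) h12
    intro h; exact this (by linear_combination h)
  rw [halfDer, nodeX, eq_div_iff (pow_ne_zero 2 hc₄)]
  field_simp
  have hc := W.c_relation
  simp only [WeierstrassCurve.c₄, WeierstrassCurve.c₆] at hc ⊢
  linear_combination 6 * hc

theorem Ψ₂Sq_nodeX (h12 : (12 : K) ≠ 0) (hc₄ : W.c₄ ≠ 0) :
    W.Ψ₂Sq.eval (nodeX W) = 4 * W.c₆ * W.Δ / W.c₄ ^ 3 := by
  rw [Ψ₂Sq_eval_eq, nodeX, eq_div_iff (pow_ne_zero 3 hc₄)]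
  field_simp
  have hc := W.c_relation
  simp only [WeierstrassCurve.c₄, WeierstrassCurve.c₆] at hc ⊢
  linear_combination (-4 * (-W.b₂ ^ 3 + 36 * W.b₂ * W.b₄ - 216 * W.b₆)) * hc

theorem four_mul_Ψ₃_eval (W : WeierstrassCurve K) (x : K) :
    4 * W.Ψ₃.eval x = (12 * x + W.b₂) * W.Ψ₂Sq.eval x - halfDer W x ^ 2 := by
  rw [Ψ₂Sq_eval_eq, halfDer, WeierstrassCurve.Ψ₃]
  simp only [eval_add, eval_mul, eval_pow, eval_X, eval_C, eval_ofNat]
  linear_combination W.b_relation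

theorem preΨ₄_eval (W : WeierstrassCurve K) (x : K) :
    W.preΨ₄.eval x = halfDer W x * W.Ψ₃.eval x - W.Ψ₂Sq.eval x ^ 2 := by
  rw [Ψ₂Sq_eval_eq, halfDer, WeierstrassCurve.Ψ₃, WeierstrassCurve.preΨ₄]
  simp only [eval_add, eval_mul, eval_pow, eval_X, eval_C, eval_ofNat]
  simp only [WeierstrassCurve.b₂, WeierstrassCurve.b₄, WeierstrassCurve.b₆, WeierstrassCurve.b₈]
  ring

theorem val_nodeX_le (hW : IntAt A W) (h12 : v (12 : K) = 1) (hc₄ : v W.c₄ = 1) :
    v (nodeX W) ≤ 1 := by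
  rw [nodeX, map_div₀ A.valuation, map_mul, h12, hc₄, one_mul, div_one]
  exact val_neg_le A (val_add_le A (val_c₆_le hW) (val_mul_le A (val_b₂_le hW) hc₄.le))

variable (hW : IntAt A W) (h2 : A.valuation (2 : K) = 1) (h3 : A.valuation (3 : K) = 1)
  (hc₄ : A.valuation W.c₄ = 1) (hΔ : A.valuation W.Δ < 1)

include h2 h3 in
theorem val_twelve : v (12 : K) = 1 := by
  rw [show (12 : K) = 2 * 2 * 3 by norm_num, map_mul, map_mul, h2, h3, one_mul, one_mul]

include hW h2 h3 hc₄ hΔ in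
theorem val_Ψ₂Sq_nodeX_lt : v (W.Ψ₂Sq.eval (nodeX W)) < 1 := by
  rw [Ψ₂Sq_nodeX (ne_zero_of_val_eq_one A (val_twelve h2 h3)) (ne_zero_of_val_eq_one A hc₄),
    map_div₀ A.valuation, map_pow, hc₄, one_pow, div_one]
  exact val_mul_lt_right A (val_mul_le A (val_ofNat_le A 4) (val_c₆_le hW)) hΔ

include h2 h3 hc₄ hΔ in
theorem val_halfDer_nodeX_lt : v (halfDer W (nodeX W)) < 1 := by
  rw [halfDer_nodeX (ne_zero_of_val_eq_one A (val_twelve h2 h3)) (ne_zero_of_val_eq_one A hc₄),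
    map_div₀ A.valuation, map_pow, hc₄, one_pow, div_one]
  exact val_neg_lt A (val_mul_lt_right A (val_ofNat_le A 72) hΔ)

include hW h2 h3 hc₄ hΔ in
theorem val_preΨ'_nodeX_lt : ∀ n, 3 ≤ n → v ((W.preΨ' n).eval (nodeX W)) < 1 := by
  classical
  set r := nodeX W with hr
  have hri := val_nodeX_le hW (val_twelve h2 h3) hc₄
  have hall : ∀ n, v ((W.preΨ' n).eval r) ≤ 1 := fun n => by
    rw [eval_eq_sum_range]
    exact A.valuation.map_sum_le fun i _ =>
      val_mul_le A (val_coeff_preΨ'_le hW n i) (val_pow_le A hri i)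
  have hΨ₂ := val_Ψ₂Sq_nodeX_lt hW h2 h3 hc₄ hΔ
  have hh := val_halfDer_nodeX_lt h2 h3 hc₄ hΔ
  have h3' : v (W.Ψ₃.eval r) < 1 := by
    have h4 : v (4 * W.Ψ₃.eval r) < 1 := by
      rw [four_mul_Ψ₃_eval]
      exact val_sub_lt A (val_mul_lt_right A (val_add_le A (val_mul_le A (val_ofNat_le A 12) hri)
        (val_b₂_le hW)) hΨ₂) (val_pow_lt A hh two_ne_zero)
    rwa [map_mul, show (4 : K) = 2 * 2 by norm_num, map_mul, h2, one_mul, one_mul] at h4
  intro n
  induction n using Nat.strong_induction_on with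
  | _ n ih =>
    intro hn
    rcases Nat.even_or_odd n with ⟨k, hk⟩ | ⟨k, hk⟩
    · rcases (show k = 2 ∨ 3 ≤ k by omega) with rfl | hk3
      · obtain rfl : n = 4 := by omega
        rw [preΨ'_four, preΨ₄_eval]
        exact val_sub_lt A (val_mul_lt_left A hh h3'.le) (val_pow_lt A hΨ₂ two_ne_zero)
      · obtain ⟨m, rfl⟩ := Nat.exists_eq_add_of_le' hk3
        have hsm := ih (m + 3) (by omega) (by omega)
        rw [show n = 2 * (m + 3) by omega, preΨ'_even]
        simp only [eval_sub, eval_mul, eval_pow]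
        exact val_sub_lt A
          (val_mul_lt_left A (val_mul_lt_right A (val_pow_le A (hall _) 2) hsm) (hall _))
          (val_mul_lt_left A (val_mul_lt_right A (hall _) hsm) (val_pow_le A (hall _) 2))
    · rcases (show k = 1 ∨ 2 ≤ k by omega) with rfl | hk2
      · obtain rfl : n = 3 := by omega
        rw [preΨ'_three]; exact h3'
      · obtain ⟨m, rfl⟩ := Nat.exists_eq_add_of_le' hk2
        have h4 := ih (m + 4) (by omega) (by omega)
        have h5 := ih (m + 3) (by omega) (by omega)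
        rw [show n = 2 * (m + 2) + 1 by omega, preΨ'_odd]
        have hif : ∀ (P Q : K[X]), v (P.eval r) ≤ 1 → v (Q.eval r) ≤ 1 →
            v ((if Even m then P else Q).eval r) ≤ 1 := fun P Q hP hQ => by
          split_ifs <;> assumption
        have e1 : v ((W.Ψ₂Sq ^ 2).eval r) ≤ 1 := by
          rw [eval_pow]; exact val_pow_le A hΨ₂.le 2
        have e0 : v ((1 : K[X]).eval r) ≤ 1 := by simp
        simp only [eval_sub, eval_mul, eval_pow]
        exact val_sub_lt A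
          (val_mul_lt_left A (val_mul_lt_left A h4 (val_pow_le A (hall _) 3)) (hif _ _ e1 e0))
          (val_mul_lt_left A (val_mul_lt_right A (hall _) (val_pow_lt A h5 three_ne_zero))
            (hif _ _ e0 e1))

include hW h2 h3 hc₄ hΔ in
/-- Some point of order `p` meets the node. -/
theorem exists_torsion_not_inE0 [IsAlgClosed K] [DecidableEq K] (hΔ0 : W.Δ ≠ 0) {p : ℕ}
    (hp : 3 ≤ p) (hodd : Odd p) (hvp : v (p : K) = 1) :
    ∃ P : W.toAffine.Point, p • P = 0 ∧ ¬ InE0 A W P := by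
  classical
  set r := nodeX W with hr
  have hri := val_nodeX_le hW (val_twelve h2 h3) hc₄
  set f := W.preΨ' p with hf
  have hpK : (p : K) ≠ 0 := ne_zero_of_val_eq_one A hvp
  have hlc : f.leadingCoeff = (p : K) := by
    rw [hf, W.leadingCoeff_preΨ' hpK, if_neg (Nat.not_even_iff_odd.2 hodd)]
  obtain ⟨x, hx, hxr⟩ : ∃ x, f.IsRoot x ∧ v (r - x) < 1 := by
    by_contra hcon
    push Not at hcon
    have h1 : (1 : A.ValueGroup) ≤ ((f.roots.map fun a => r - a).map v).prod := by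
      refine Multiset.one_le_prod_of_one_le fun z hz => ?_
      obtain ⟨a, ha, rfl⟩ := Multiset.mem_map.1 hz
      obtain ⟨b, hb, rfl⟩ := Multiset.mem_map.1 ha
      exact hcon b (Polynomial.mem_roots'.1 hb).2
    have h2' := val_preΨ'_nodeX_lt hW h2 h3 hc₄ hΔ p hp
    rw [← hf, ← hr, (IsAlgClosed.splits f).eval_eq_prod_roots, map_mul, hlc, hvp, one_mul,
      map_multiset_prod] at h2'
    exact absurd h1 (not_le.2 h2')
  have hxi : v x ≤ 1 := by
    rw [show x = r - (r - x) by ring]; exact val_sub_le A hri hxr.le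
  obtain ⟨y, y', hs, hpr⟩ := exists_quadratic_root (W.a₁ * x + W.a₃)
    (-(x ^ 3 + W.a₂ * x ^ 2 + W.a₄ * x + W.a₆))
  have he : W.toAffine.Equation x y := by
    rw [Affine.equation_iff]
    linear_combination y * hs - hpr
  have hns := (Affine.equation_iff_nonsingular_of_Δ_ne_zero hΔ0).1 he
  refine ⟨.some x y hns, (FLTAgent.ECTorsion.preΨ'_eval_eq_zero_iff hns hodd).2 hx, ?_⟩
  rw [inE0_some, not_not]
  have hyi : v y ≤ 1 := val_le_of_monic_quadratic hW hxi ((Affine.equation_iff x y).1 he)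
  have hxr' : v (x - r) < 1 := by rwa [A.valuation.map_sub_swap]
  have hψ : v (dY W x y) < 1 := by
    have hsq : dY W x y ^ 2 = W.Ψ₂Sq.eval x := by
      rw [Ψ₂Sq_eval_eq]
      have := (Affine.equation_iff x y).1 he
      simp only [dY, WeierstrassCurve.b₂, WeierstrassCurve.b₄, WeierstrassCurve.b₆]
      linear_combination 4 * this
    have hdiff : v (W.Ψ₂Sq.eval x - W.Ψ₂Sq.eval r) < 1 := by
      rw [Ψ₂Sq_eval_eq, Ψ₂Sq_eval_eq,
        show 4 * x ^ 3 + W.b₂ * x ^ 2 + 2 * W.b₄ * x + W.b₆ -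
          (4 * r ^ 3 + W.b₂ * r ^ 2 + 2 * W.b₄ * r + W.b₆)
          = (4 * (x ^ 2 + x * r + r ^ 2) + W.b₂ * (x + r) + 2 * W.b₄) * (x - r) by ring]
      exact val_mul_lt_right A (val_add_le A (val_add_le A (val_mul_le A (val_ofNat_le A 4)
        (val_add_le A (val_add_le A (val_pow_le A hxi 2) (val_mul_le A hxi hri))
          (val_pow_le A hri 2))) (val_mul_le A (val_b₂_le hW) (val_add_le A hxi hri)))
        (val_mul_le A (val_ofNat_le A 2) (val_b₄_le hW))) hxr'
    have : v (dY W x y ^ 2) < 1 := by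
      rw [hsq, show W.Ψ₂Sq.eval x = (W.Ψ₂Sq.eval x - W.Ψ₂Sq.eval r) + W.Ψ₂Sq.eval r by ring]
      exact val_add_lt A hdiff (val_Ψ₂Sq_nodeX_lt hW h2 h3 hc₄ hΔ)
    by_contra hge
    rw [map_pow] at this
    exact absurd this (not_lt.2 (one_le_pow₀ (not_lt.1 hge)))
  refine ⟨hxi, hyi, ?_, hψ⟩
  have hhalf : v (halfDer W x) < 1 := by
    rw [show halfDer W x = (halfDer W x - halfDer W r) + halfDer W r by ring]
    refine val_add_lt A ?_ (val_halfDer_nodeX_lt h2 h3 hc₄ hΔ)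
    rw [halfDer, halfDer, show 6 * x ^ 2 + W.b₂ * x + W.b₄ - (6 * r ^ 2 + W.b₂ * r + W.b₄)
      = (6 * (x + r) + W.b₂) * (x - r) by ring]
    exact val_mul_lt_right A (val_add_le A (val_mul_le A (val_ofNat_le A 6)
      (val_add_le A hxi hri)) (val_b₂_le hW)) hxr'
  have hd : v (2 * dX W x y) < 1 := by
    rw [show 2 * dX W x y = W.a₁ * dY W x y - halfDer W x by
      simp only [dX, dY, halfDer, WeierstrassCurve.b₂, WeierstrassCurve.b₄]; ring]
    exact val_sub_lt A (val_mul_lt_right A hW.h₁ hψ) hhalf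
  rwa [map_mul, h2, one_mul] at hd

include hW h2 h3 hc₄ hΔ in
/-- Of two independent points of order `p`, one meets the node. -/
theorem not_inE0_or [IsAlgClosed K] [DecidableEq K] (hΔ0 : W.Δ ≠ 0) {p : ℕ} (hp : 3 ≤ p)
    (hodd : Odd p) (hvp : v (p : K) = 1) {R S : W.toAffine.Point}
    (hgen : ∀ P : W.toAffine.Point, p • P = 0 → ∃ a b : ℕ, P = a • R + b • S)
    (hR : InE0 A W R) : ¬ InE0 A W S := by
  intro hS
  obtain ⟨P, hP, hP0⟩ := exists_torsion_not_inE0 hW h2 h3 hc₄ hΔ hΔ0 hp hodd hvp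
  obtain ⟨a, b, rfl⟩ := hgen P hP
  exact hP0 (mem_E0.1 (add_mem (nsmul_mem ((mem_E0 (hW := hW)).2 hR) a)
    (nsmul_mem ((mem_E0 (hW := hW)).2 hS) b)))

end FLTAgent.MazurModuli
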