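import Fermat.Agent.Igusa.ModularPolynomial
import Mathlib.RingTheory.Valuation.ValuationSubring

/-!
# The modular polynomial of prime level at an argument with a pole

Shape of the coefficients (`phiShape`), its roots as values at isogenous points, and their
valuations when the argument is not integral (`valuation_roots`): exactly one root has valuation
`M ^ p`, all others have `p`-th power of valuation `M`. Used by `Cusps`.
-/

set_option autoImplicit false

noncomputable section

open UpperHalfPlane Polynomial ModularCurve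

namespace FLTAgent.MazurModuli

open FLTAgent.Igusa
open FLTAgent.ModularFF (jFun HasLaurent hasLaurent_const mdiff_jFun)

variable {p : ℕ} [NeZero p]

/-- The modular polynomial with constants mapped by `f` and argument `x`. -/
def phiAt {K : Type*} [CommRing K] (D : PolyData p) (f : ZetaRing p →+* K) (x : K) :
    Polynomial K :=
  D.Φ.map (Polynomial.eval₂RingHom f x)

theorem phiAt_map {K L : Type*} [CommRing K] [CommRing L] (D : PolyData p) (f : ZetaRing p →+* K)
    (g : K →+* L) (x : K) : (phiAt D f x).map g = phiAt D (g.comp f) (g x) := by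
  rw [phiAt, phiAt, Polynomial.map_map]
  congr 1
  refine Polynomial.ringHom_ext (fun a => ?_) ?_ <;> simp

theorem phiAt_monic {K : Type*} [CommRing K] (D : PolyData p) (f : ZetaRing p →+* K) (x : K) :
    (phiAt D f x).Monic :=
  D.Φ_monic.map _

theorem expandPair_injective : Function.Injective (expandPair p) := by
  intro a b h
  have hi : Function.Injective (coeffMap (iotaC p)) := fun u w e => by
    ext n
    apply iotaC_injective p
    simpa using congrArg (fun z : LaurentSeries ℂ => z.coeff n) e
  have hfun : a.1.1 = b.1.1 := by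
    refine a.2.1.unique_fun ?_
    have := b.2.1
    rwa [show b.1.2 = a.1.2 from h.symm] at this
  exact Subtype.ext (Prod.ext hfun h)

/-- Constants inside `pairRing`. -/
def constPair : ZetaRing p →+* pairRing p :=
  (RingHom.prod ((Pi.constRingHom ℍ ℂ).comp (iotaC p))
    (HahnSeries.C : ZetaRing p →+* LaurentSeries (ZetaRing p))).codRestrict (pairRing p) fun a => by
    refine ⟨?_, mdifferentiable_const⟩
    show HasLaurent p (fun _ => iotaC p a) (coeffMap (iotaC p) (HahnSeries.C a))
    rw [HahnSeries.C_apply, coeffMap_single, ← HahnSeries.C_apply]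
    exact hasLaurent_const (h := (p : ℝ)) _

/-- `j` inside `pairRing`. -/
def jPair : pairRing p :=
  ⟨(jFun, jv 1 p), by
    refine ⟨?_, mdiff_jFun⟩
    show HasLaurent p jFun (coeffMap (iotaC p) (jv 1 p))
    rw [coeffMap_jv _ _ (NeZero.ne p), map_one]
    exact hasLaurent_jFun_width p⟩

/-- The roots at `jFun τ` are the values of `j` at the isogenous points. -/
theorem phiAt_iotaC [Fact p.Prime] (D : PolyData p) (τ : ℍ) :
    phiAt D (iotaC p) (jFun τ) = ∏ i : Option (ZMod p), (X - C (isoJ p i τ)) := by
  classical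
  have hE : (D.Φ.map (eval₂RingHom constPair jPair)).map (expandPair p) =
      (pairPhi p).map (expandPair p) := by
    rw [Polynomial.map_map, show (expandPair p).comp (eval₂RingHom constPair jPair) =
      ev (jv (1 : (ZetaRing p)ˣ) p) from
        Polynomial.ringHom_ext (fun a => by simp [ev, expandPair, constPair])
          (by simp [ev, expandPair, jPair]), D.Φ_eq, pairPhi, Fintype.prod_option]
    simp only [Polynomial.map_mul, Polynomial.map_prod, Polynomial.map_sub, map_X, map_C,
      expandPair_pairJ, isoJSeries]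
    rw [prod_zmod_eq_prod_range p fun a => X - C (jv (zetaU p ^ a) 1)]
  have h := congrArg (Polynomial.map (evalPair p τ))
    (Polynomial.map_injective _ expandPair_injective hE)
  rw [Polynomial.map_map, pairPhi] at h
  simp only [Polynomial.map_prod, Polynomial.map_sub, map_X, map_C, evalPair_pairJ] at h
  rw [← h, phiAt]
  congr 1
  exact Polynomial.ringHom_ext (fun a => by simp [evalPair, constPair])
    (by simp [evalPair, jPair])

/-! ### Degrees of the coefficients -/

section Series

variable {R : Type*} [CommRing R]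

/-- All coefficients below `n` vanish. -/
def Below (f : LaurentSeries R) (n : ℤ) : Prop := ∀ i < n, f.coeff i = 0

theorem Below.mono {f : LaurentSeries R} {n m : ℤ} (h : Below f n) (hmn : m ≤ n) : Below f m :=
  fun i hi => h i (hi.trans_le hmn)

theorem below_zero (n : ℤ) : Below (0 : LaurentSeries R) n := fun _ _ => rfl

theorem Below.sub {f g : LaurentSeries R} {n : ℤ} (hf : Below f n) (hg : Below g n) :
    Below (f - g) n := fun i hi => by simp [hf i hi, hg i hi]

theorem Below.neg {f : LaurentSeries R} {n : ℤ} (hf : Below f n) : Below (-f) n :=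
  fun i hi => by simp [hf i hi]

theorem Below.mul {f g : LaurentSeries R} {n m : ℤ} (hf : Below f n) (hg : Below g m) :
    Below (f * g) (n + m) :=
  (Lead.mul (a := f.coeff n) (b := g.coeff m) ⟨rfl, hf⟩ ⟨rfl, hg⟩).2

theorem lead_neg {f : LaurentSeries R} {n : ℤ} {a : R} (h : Lead f n a) : Lead (-f) n (-a) :=
  ⟨by simp [h.1], fun i hi => by simp [h.2 i hi]⟩

theorem below_coeff_prod {ι : Type*} (s : Finset ι) (B : ι → LaurentSeries R)
    (hB : ∀ a ∈ s, Below (B a) (-1)) :
    ∀ j : ℕ, Below ((∏ a ∈ s, (X - C (B a))).coeff j) ((j : ℤ) - s.card) := by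
  classical
  induction s using Finset.induction_on with
  | empty =>
    intro j
    rcases eq_or_ne j 0 with rfl | hj
    · simpa [Below] using (lead_one (R := R)).2
    · simp [Polynomial.coeff_one, hj, below_zero]
  | insert a s ha ih =>
    intro j
    have ih' := ih fun b hb => hB b (Finset.mem_insert_of_mem hb)
    have hb := hB a (Finset.mem_insert_self a s)
    rw [Finset.prod_insert ha, Finset.card_insert_of_notMem ha]
    cases j with
    | zero =>
      simp only [Polynomial.mul_coeff_zero, coeff_sub, coeff_X_zero, coeff_C_zero, zero_sub,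
        neg_mul]
      exact ((hb.mul (ih' 0)).neg).mono (by push_cast; linarith)
    | succ i =>
      rw [sub_mul, coeff_sub, coeff_X_mul, coeff_C_mul]
      exact ((ih' i).mono (by push_cast; linarith)).sub
        ((hb.mul (ih' (i + 1))).mono (by push_cast; linarith))

theorem lead_prod {ι : Type*} (s : Finset ι) (B : ι → LaurentSeries R) (b : ι → R) {n : ℤ}
    (hB : ∀ a ∈ s, Lead (B a) n (b a)) : Lead (∏ a ∈ s, B a) (s.card * n) (∏ a ∈ s, b a) := by
  classical
  induction s using Finset.induction_on with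
  | empty => simpa using lead_one (R := R)
  | insert a s ha ih =>
    rw [Finset.prod_insert ha, Finset.prod_insert ha, Finset.card_insert_of_notMem ha,
      show ((s.card + 1 : ℕ) : ℤ) * n = n + s.card * n by push_cast; ring]
    exact (hB a (Finset.mem_insert_self a s)).mul
      (ih fun c hc => hB c (Finset.mem_insert_of_mem hc))

theorem lead_ev {f : LaurentSeries R} {n : ℤ} (hf : Lead f n 1) (hn : n < 0) (c : Polynomial R)
    {d : ℕ} (hd : c.natDegree ≤ d) : Lead (ev f c) (d * n) (c.coeff d) := by
  have hterm : ∀ i, Lead (HahnSeries.C (c.coeff i) * f ^ i) (i * n) (c.coeff i) := fun i => by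
    simpa using (lead_C (c.coeff i)).mul (hf.pow i)
  have he : ev f c = ∑ i ∈ Finset.range (d + 1), HahnSeries.C (c.coeff i) * f ^ i := by
    rw [ev, coe_eval₂RingHom]
    exact eval₂_eq_sum_range' _ (by omega) _
  rw [he]
  refine ⟨?_, fun i hi => ?_⟩
  · rw [HahnSeries.coeff_sum, Finset.sum_eq_single d]
    · exact (hterm d).1
    · intro b hb hne
      refine (hterm b).2 _ ?_
      have hb' : (b : ℤ) < d := by
        exact_mod_cast lt_of_le_of_ne (Nat.lt_succ_iff.mp (Finset.mem_range.mp hb)) hne
      nlinarith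
    · exact fun h => absurd (Finset.self_mem_range_succ d) h
  · rw [HahnSeries.coeff_sum]
    refine Finset.sum_eq_zero fun b hb => (hterm b).2 _ (hi.trans_le ?_)
    have hb' : (b : ℤ) ≤ d := by
      exact_mod_cast Nat.lt_succ_iff.mp (Finset.mem_range.mp hb)
    nlinarith

theorem natDegree_le_of_below {f : LaurentSeries R} {n : ℤ} (hf : Lead f n 1) (hn : n < 0)
    {c : Polynomial R} {d : ℕ} {m : ℤ} (h : Below (ev f c) m)
    (hdm : ((d + 1 : ℕ) : ℤ) * n < m) : c.natDegree ≤ d := by
  by_contra hlt
  push Not at hlt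
  have hl := lead_ev hf hn c le_rfl
  have hlt' : ((d + 1 : ℕ) : ℤ) ≤ c.natDegree := by exact_mod_cast hlt
  have h0 := h (c.natDegree * n) (by nlinarith)
  rw [hl.1] at h0
  have : c = 0 := leadingCoeff_eq_zero.mp h0
  simp [this] at hlt

end Series

theorem lead_jv_one (p : ℕ) [NeZero p] :
    Lead (jv (1 : (ZetaRing p)ˣ) p) (-(p : ℤ)) 1 := by
  simpa using lead_jv (1 : (ZetaRing p)ˣ) (NeZero.ne p)

theorem nontrivial_zetaRing : Nontrivial (ZetaRing p) := RingHom.domain_nontrivial (iotaC p)

/-- The coefficients of the modular polynomial. -/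
structure PhiShape (D : PolyData p) : Prop where
  natDegree_eq : D.Φ.natDegree = p + 1
  coeff_le : ∀ i, 1 ≤ i → (D.Φ.coeff i).natDegree ≤ p
  coeff_top : (D.Φ.coeff p).coeff p = -1
  coeff_zero_le : (D.Φ.coeff 0).natDegree ≤ p + 1
  coeff_zero_unit : IsUnit ((D.Φ.coeff 0).coeff (p + 1))

theorem phiShape (hp : 2 ≤ p) (D : PolyData p) : PhiShape D := by
  classical
  have := nontrivial_zetaRing (p := p)
  set A := jv (1 : (ZetaRing p)ˣ) (p * p) with hA'
  set Q := ∏ a ∈ Finset.range p, (X - C (jv (zetaU p ^ a) 1)) with hQ'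
  have hQ : ∀ j : ℕ, Below (Q.coeff j) ((j : ℤ) - p) := fun j => by
    have := below_coeff_prod (Finset.range p) (fun a => jv (zetaU p ^ a) 1)
      (fun a _ => (lead_jv (zetaU p ^ a) one_ne_zero).2) j
    rwa [Finset.card_range] at this
  have hA : Lead A (-((p : ℤ) * p)) 1 := by
    have := lead_jv (1 : (ZetaRing p)ˣ) (mul_ne_zero (NeZero.ne p) (NeZero.ne p))
    simpa using this
  have hΦ : D.Φ.map (ev (jv 1 p)) = (X - C A) * Q := D.Φ_eq
  have hp' : (2 : ℤ) ≤ p := by exact_mod_cast hp
  have hQm : Q.Monic := monic_prod_of_monic _ _ fun _ _ => monic_X_sub_C _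
  have hQd : Q.natDegree = p := by
    rw [hQ', natDegree_prod_of_monic _ _ fun _ _ => monic_X_sub_C _]
    simp
  have hcoeff : ∀ j : ℕ, ev (jv 1 p) (D.Φ.coeff (j + 1)) = Q.coeff j - A * Q.coeff (j + 1) := by
    intro j
    rw [← Polynomial.coeff_map, hΦ, sub_mul, coeff_sub, coeff_X_mul, coeff_C_mul]
  have hle : ∀ i, 1 ≤ i → (D.Φ.coeff i).natDegree ≤ p := fun i hi => by
    obtain ⟨j, rfl⟩ := Nat.exists_eq_add_of_le' hi
    refine natDegree_le_of_below (m := -((p : ℤ) * p) - p + 1) (lead_jv_one p) (by omega) ?_ ?_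
    · rw [hcoeff]
      refine ((hQ j).mono ?_).sub ((Below.mul hA.2 (hQ (j + 1))).mono ?_) <;> push_cast <;>
        nlinarith
    · push_cast
      nlinarith
  obtain ⟨q, hq⟩ : ∃ q, p = q + 1 := ⟨p - 1, by omega⟩
  refine ⟨?_, hle, ?_, ?_, ?_⟩
  · rw [← D.Φ_monic.natDegree_map (ev (jv 1 p)), hΦ, (monic_X_sub_C A).natDegree_mul hQm, hQd,
      natDegree_X_sub_C, add_comm]
  · have h1 := (lead_ev (lead_jv_one p) (by omega) _ (hle p (by omega))).1
    rw [← h1]
    have h2 : ev (jv 1 p) (D.Φ.coeff p) = Q.coeff q - A * 1 := by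
      have := hcoeff q
      rwa [← hq, show Q.coeff p = 1 from (congrArg Q.coeff hQd.symm).trans
        hQm.coeff_natDegree] at this
    have hqz : (q : ℤ) = p - 1 := by omega
    rw [h2, mul_one, HahnSeries.coeff_sub, hQ q _ (by rw [hqz]; nlinarith),
      show ((p : ℤ) * -(p : ℤ)) = -((p : ℤ) * p) by ring, hA.1, zero_sub]
  · refine natDegree_le_of_below (m := -((p : ℤ) * p) - p) (lead_jv_one p) (by omega) ?_ ?_
    · rw [← Polynomial.coeff_map, hΦ, Polynomial.mul_coeff_zero]
      simp only [coeff_sub, coeff_X_zero, coeff_C_zero, zero_sub, neg_mul]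
      exact ((Below.mul hA.2 (hQ 0)).neg).mono (by simp)
    · push_cast
      nlinarith
  · have hd : (D.Φ.coeff 0).natDegree ≤ p + 1 := by
      refine natDegree_le_of_below (m := -((p : ℤ) * p) - p) (lead_jv_one p) (by omega) ?_ ?_
      · rw [← Polynomial.coeff_map, hΦ, Polynomial.mul_coeff_zero]
        simp only [coeff_sub, coeff_X_zero, coeff_C_zero, zero_sub, neg_mul]
        exact ((Below.mul hA.2 (hQ 0)).neg).mono (by simp)
      · push_cast
        nlinarith
    have h1 := lead_ev (lead_jv_one p) (by omega) _ hd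
    have hlQ : Lead (Q.coeff 0) (-(p : ℤ))
        (∏ a ∈ Finset.range p, -(((zetaU p ^ a)⁻¹ : (ZetaRing p)ˣ) : ZetaRing p)) := by
      rw [coeff_zero_eq_eval_zero, hQ', eval_prod]
      simp only [eval_sub, eval_X, eval_C, zero_sub]
      simpa using lead_prod (Finset.range p) (fun a => -jv (zetaU p ^ a) 1) _ fun a _ =>
        lead_neg (lead_jv (zetaU p ^ a) one_ne_zero)
    have h2 : Lead (ev (jv 1 p) (D.Φ.coeff 0)) (((p + 1 : ℕ) : ℤ) * -(p : ℤ))
        (-∏ a ∈ Finset.range p, -(((zetaU p ^ a)⁻¹ : (ZetaRing p)ˣ) : ZetaRing p)) := by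
      rw [← Polynomial.coeff_map, hΦ, Polynomial.mul_coeff_zero]
      simp only [coeff_sub, coeff_X_zero, coeff_C_zero, zero_sub, neg_mul]
      convert lead_neg (hA.mul hlQ) using 1
      · push_cast; ring
      · rw [one_mul]
    rw [h1.1.symm.trans h2.1]
    exact (IsUnit.prod_iff.mpr fun a _ => ((zetaU p ^ a)⁻¹).isUnit.neg).neg

/-! ### Valuations of the roots -/

section Newton

variable {K : Type*} [Field K] (V : ValuationSubring K)

theorem valuation_zetaHom_le (f : ZetaRing p →+* K) (a : ZetaRing p) :
    V.valuation (f a) ≤ 1 := by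
  rw [V.valuation_le_one_iff]
  induction a using AdjoinRoot.induction_on with
  | ih g =>
    have hz : f (AdjoinRoot.root _) ∈ V := by
      rw [← V.valuation_le_one_iff]
      refine le_of_eq ((pow_eq_one_iff_left (NeZero.ne p)).mp ?_)
      rw [← map_pow, ← map_pow, root_pow_eq_one, map_one, map_one]
    rw [← AdjoinRoot.aeval_eq, ← AlgHom.coe_toRingHom, ← RingHom.comp_apply]
    induction g using Polynomial.induction_on' with
    | add u w hu hw => rw [map_add]; exact V.add_mem _ _ hu hw
    | monomial n c =>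
      simp only [RingHom.comp_apply, AlgHom.coe_toRingHom, aeval_monomial, map_mul, map_pow,
        eq_intCast, map_intCast]
      exact V.mul_mem _ _ (intCast_mem V c) (pow_mem hz n)

theorem valuation_zetaHom_unit (f : ZetaRing p →+* K) {a : ZetaRing p} (ha : IsUnit a) :
    V.valuation (f a) = 1 := by
  obtain ⟨u, rfl⟩ := ha
  refine le_antisymm (valuation_zetaHom_le V f _) ?_
  have h : V.valuation (f u) * V.valuation (f (u⁻¹ : (ZetaRing p)ˣ)) = 1 := by
    rw [← map_mul, ← map_mul, Units.mul_inv, map_one, map_one]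
  calc (1 : V.ValueGroup) = V.valuation (f u) * V.valuation (f (u⁻¹ : (ZetaRing p)ˣ)) := h.symm
    _ ≤ V.valuation (f u) * 1 := mul_le_mul' le_rfl (valuation_zetaHom_le V f _)
    _ = V.valuation (f u) := mul_one _

theorem valuation_eval₂_le (f : ZetaRing p →+* K) {x : K} (hx : 1 < V.valuation x)
    {c : Polynomial (ZetaRing p)} {d : ℕ} (hd : c.natDegree ≤ d) :
    V.valuation (eval₂ f x c) ≤ V.valuation x ^ d := by
  rw [eval₂_eq_sum_range' f (Nat.lt_succ_iff.mpr hd) x]
  refine V.valuation.map_sum_le fun i hi => ?_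
  rw [map_mul, map_pow]
  calc V.valuation (f (c.coeff i)) * V.valuation x ^ i
      ≤ 1 * V.valuation x ^ i := mul_le_mul' (valuation_zetaHom_le V f _) le_rfl
    _ ≤ V.valuation x ^ d := by
      rw [one_mul]
      exact pow_le_pow_right₀ hx.le (Nat.lt_succ_iff.mp (Finset.mem_range.mp hi))

theorem valuation_eval₂_eq (f : ZetaRing p →+* K) {x : K} (hx : 1 < V.valuation x)
    {c : Polynomial (ZetaRing p)} {d : ℕ} (hd : c.natDegree ≤ d) (hu : IsUnit (c.coeff d)) :
    V.valuation (eval₂ f x c) = V.valuation x ^ d := by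
  rw [eval₂_eq_sum_range' f (Nat.lt_succ_iff.mpr hd) x, Finset.sum_range_succ]
  have htop : V.valuation (f (c.coeff d) * x ^ d) = V.valuation x ^ d := by
    rw [map_mul, map_pow, valuation_zetaHom_unit V f hu, one_mul]
  rw [Valuation.map_add_eq_of_lt_right, htop]
  rw [htop]
  refine V.valuation.map_sum_lt (pow_ne_zero _ (ne_zero_of_lt hx)) fun i hi => ?_
  rw [map_mul, map_pow]
  calc V.valuation (f (c.coeff i)) * V.valuation x ^ i
      ≤ 1 * V.valuation x ^ i := mul_le_mul' (valuation_zetaHom_le V f _) le_rfl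
    _ < V.valuation x ^ d := by
      rw [one_mul]
      exact pow_lt_pow_right₀ hx (Finset.mem_range.mp hi)

/-- The two possible valuations of a root. -/
theorem valuation_root {F : Polynomial K} (hp : 2 ≤ p) (hdeg : F.natDegree = p + 1)
    (hmon : F.Monic) {M : V.ValueGroup} (hM : 1 < M)
    (hmid : ∀ i, 1 ≤ i → V.valuation (F.coeff i) ≤ M ^ p)
    (hpc : V.valuation (F.coeff p) = M ^ p) (h0 : V.valuation (F.coeff 0) = M ^ (p + 1))
    {y : K} (hy : F.eval y = 0) :
    V.valuation y = M ^ p ∨ V.valuation y ^ p = M := by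
  classical
  set w := V.valuation y with hw
  have hM0 : 0 < M := zero_lt_one.trans hM
  have hsum : y ^ (p + 1) + F.coeff p * y ^ p + ∑ i ∈ Finset.range p, F.coeff i * y ^ i = 0 := by
    rw [eval_eq_sum_range, hdeg, Finset.sum_range_succ, Finset.sum_range_succ,
      ← hdeg, hmon.coeff_natDegree, hdeg, one_mul] at hy
    linear_combination hy
  rcases lt_trichotomy (w ^ p) M with hlt | heq | hgt
  · exfalso
    obtain ⟨q, hq⟩ : ∃ q, p = q + 1 := ⟨p - 1, by omega⟩
    have hwM : w < M := by
      by_contra hc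
      push Not at hc
      exact absurd (hlt.trans_le (hc.trans (le_self_pow₀ (hM.le.trans hc) (NeZero.ne p))))
        (lt_irrefl _)
    have hwi : ∀ i ≤ p, w ^ i < M := fun i hi => by
      rcases le_or_gt w 1 with h | h
      · exact (pow_le_one₀ zero_le h).trans_lt hM
      · exact (pow_le_pow_right₀ h.le hi).trans_lt hlt
    rw [Finset.sum_eq_add_sum_sdiff_singleton_of_mem (i := 0) (Finset.mem_range.mpr (by omega)),
      pow_zero, mul_one] at hsum
    have e : F.coeff 0 = -(y ^ (p + 1) + F.coeff p * y ^ p +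
        ∑ i ∈ Finset.range p \ {0}, F.coeff i * y ^ i) := by linear_combination hsum
    have hlt' : V.valuation (F.coeff 0) < M ^ (p + 1) := by
      rw [e, Valuation.map_neg]
      refine V.valuation.map_add_lt (V.valuation.map_add_lt ?_ ?_)
        (V.valuation.map_sum_lt (pow_ne_zero _ hM0.ne') fun i hi => ?_)
      · rw [map_pow, pow_succ, pow_succ]
        exact mul_lt_mul'' (hlt.trans_le (le_self_pow₀ hM.le (NeZero.ne p))) hwM zero_le
          zero_le
      · rw [map_mul, map_pow, hpc, pow_succ M p]
        exact mul_lt_mul_of_pos_left hlt (pow_pos hM0 p)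
      · simp only [Finset.mem_sdiff, Finset.mem_range, Finset.mem_singleton] at hi
        rw [map_mul, map_pow, pow_succ M p]
        exact (mul_le_mul' (hmid i (by omega)) le_rfl).trans_lt
          (mul_lt_mul_of_pos_left (hwi i hi.1.le) (pow_pos hM0 p))
    exact hlt'.ne h0
  · exact Or.inr heq
  · left
    have hw1 : 1 < w := by
      by_contra hc
      push Not at hc
      exact absurd ((pow_le_one₀ zero_le hc).trans_lt (hM.trans hgt)) (lt_irrefl _)
    have hrest : V.valuation (∑ i ∈ Finset.range p, F.coeff i * y ^ i) < M ^ p * w ^ p := by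
      refine V.valuation.map_sum_lt (mul_ne_zero (pow_ne_zero _ hM0.ne')
        (pow_ne_zero _ (zero_lt_one.trans hw1).ne')) fun i hi => ?_
      rw [Finset.mem_range] at hi
      rw [map_mul, map_pow]
      rcases eq_or_ne i 0 with rfl | hi0
      · rw [pow_zero, mul_one, h0, pow_succ]
        exact mul_lt_mul_of_pos_left hgt (pow_pos hM0 p)
      · exact (mul_le_mul' (hmid i (by omega)) le_rfl).trans_lt
          (mul_lt_mul_of_pos_left (pow_lt_pow_right₀ hw1 hi) (pow_pos hM0 p))
    have htwo : V.valuation (y ^ (p + 1) + F.coeff p * y ^ p) < M ^ p * w ^ p := by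
      rw [show y ^ (p + 1) + F.coeff p * y ^ p = -∑ i ∈ Finset.range p, F.coeff i * y ^ i by
        linear_combination hsum, Valuation.map_neg]
      exact hrest
    by_contra hne
    have hne' : V.valuation (y ^ (p + 1)) ≠ V.valuation (F.coeff p * y ^ p) := by
      rw [map_mul, map_pow, map_pow, hpc, pow_succ, mul_comm]
      exact fun h => hne (mul_right_cancel₀ (pow_ne_zero _ (zero_lt_one.trans hw1).ne') h)
    rw [V.valuation.map_add_of_distinct_val hne', map_mul, map_pow, map_pow, hpc] at htwo
    exact absurd ((le_max_right _ _).trans_lt htwo) (lt_irrefl _)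

/-- Exactly one root has valuation `M ^ p`; the others have `p`-th power `M`. -/
theorem valuation_roots {D : PolyData p} (hp : 2 ≤ p) (f : ZetaRing p →+* K) {x : K}
    (hx : 1 < V.valuation x) {r : Option (ZMod p) → K}
    (hr : phiAt D f x = ∏ i, (X - C (r i))) :
    ∃ i₀, V.valuation (r i₀) = V.valuation x ^ p ∧
      ∀ i, i ≠ i₀ → V.valuation (r i) ^ p = V.valuation x := by
  classical
  set M := V.valuation x with hMdef
  have hS := phiShape hp D
  have hM0 : (0 : V.ValueGroup) < M := zero_lt_one.trans hx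
  have hdeg : (phiAt D f x).natDegree = p + 1 := by
    rw [phiAt, D.Φ_monic.natDegree_map, hS.natDegree_eq]
  have hco : ∀ i, (phiAt D f x).coeff i = eval₂ f x (D.Φ.coeff i) := fun i => by
    rw [phiAt, Polynomial.coeff_map, coe_eval₂RingHom]
  have h0 : V.valuation ((phiAt D f x).coeff 0) = M ^ (p + 1) := by
    rw [hco]; exact valuation_eval₂_eq V f hx hS.coeff_zero_le hS.coeff_zero_unit
  have hroot : ∀ i, V.valuation (r i) = M ^ p ∨ V.valuation (r i) ^ p = M := fun i =>
    valuation_root V hp hdeg (phiAt_monic D f x) hx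
      (fun k hk => (hco k).symm ▸ valuation_eval₂_le V f hx (hS.coeff_le k hk))
      ((hco p).symm ▸ valuation_eval₂_eq V f hx (hS.coeff_le p (by omega))
        (hS.coeff_top.symm ▸ isUnit_one.neg))
      h0 (by
        rw [hr, eval_prod]
        exact Finset.prod_eq_zero (Finset.mem_univ i) (by simp))
  set B := Finset.univ.filter fun i => V.valuation (r i) = M ^ p with hB
  have hprod : ∏ i, V.valuation (r i) = M ^ (p + 1) := by
    rw [← h0, hr, coeff_zero_eq_eval_zero, eval_prod, map_prod]
    exact Finset.prod_congr rfl fun i _ => by simp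
  have hcard : B.card = 1 := by
    have h := congrArg (fun z => z ^ p) hprod
    simp only [← Finset.prod_pow] at h
    rw [← Finset.prod_filter_mul_prod_filter_not Finset.univ
      (fun i => V.valuation (r i) = M ^ p)] at h
    rw [Finset.prod_congr rfl (fun i hi => by rw [(Finset.mem_filter.mp hi).2, ← pow_mul] :
        ∀ i ∈ B, V.valuation (r i) ^ p = M ^ (p * p)),
      Finset.prod_congr rfl (fun i hi => (hroot i).resolve_left (Finset.mem_filter.mp hi).2 :
        ∀ i ∈ Finset.univ.filter (fun i => ¬ V.valuation (r i) = M ^ p),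
          V.valuation (r i) ^ p = M),
      Finset.prod_const, Finset.prod_const, ← pow_mul, ← pow_mul, ← pow_add] at h
    have h' := (pow_right_injective₀ hM0 hx.ne') h
    have hsum := Finset.card_filter_add_card_filter_not
      (s := (Finset.univ : Finset (Option (ZMod p))))
      (fun i => V.valuation (r i) = M ^ p)
    rw [Finset.card_univ, Fintype.card_option, ZMod.card] at hsum
    have h4 : 4 ≤ p * p := Nat.mul_le_mul hp hp
    rw [← hB] at hsum
    by_contra hne
    rcases Nat.lt_or_ge B.card 1 with hk | hk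
    · have : B.card = 0 := by omega
      rw [this] at h' hsum
      nlinarith
    · have hk2 : 2 ≤ B.card := by omega
      nlinarith [Nat.mul_le_mul_left (p * p) hk2]
  obtain ⟨i₀, hi₀⟩ := Finset.card_eq_one.mp hcard
  refine ⟨i₀, ?_, fun i hi => (hroot i).resolve_left fun h => hi ?_⟩
  · have : i₀ ∈ B := by rw [hi₀]; exact Finset.mem_singleton_self _
    exact (Finset.mem_filter.mp this).2
  · have : i ∈ B := Finset.mem_filter.mpr ⟨Finset.mem_univ _, h⟩
    rwa [hi₀, Finset.mem_singleton] at this

end Newton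

end FLTAgent.MazurModuli
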