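import Fermat.Agent.MazurModuli.NodalOutside
import Fermat.Agent.MazurModuli.Cusps
import Fermat.Agent.ECReduction.Frey

/-!
# The invariants `(1 / j, j' / j ^ p)` of a curve with a point of order `p`

`j'` is the invariant of the quotient by the point. `exists_curvePoint`: at multiplicative places
the second coordinate is a non-unit if the point meets the node and a unit if not (residue
characteristic `≥ 5`); one place of the latter kind makes it a simple point of the relation.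
-/

set_option autoImplicit false

noncomputable section

open Polynomial

namespace FLTAgent.MazurModuli

open WeierstrassCurve FLTAgent.Igusa FLTAgent.ECReduction
open scoped WeierstrassCurve.Affine

theorem exists_hom_comp_iota (p : ℕ) [NeZero p] {K : Type} [Field K] [CharZero K] [IsAlgClosed K]
    (ι : K →+* ℂ) : ∃ f : ZetaRing p →+* K, ι.comp f = iotaC p := by
  obtain ⟨z, hz⟩ := HasEnoughRootsOfUnity.exists_primitiveRoot K p
  have hι : Function.Injective ι := ι.injective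
  have hc : (iotaC p (AdjoinRoot.root (cyclotomic p ℤ))) ^ p = 1 := by
    rw [← map_pow, root_pow_eq_one, map_one]
  obtain ⟨i, -, hi⟩ := (hz.map_of_injective hι).eq_pow_of_pow_eq_one hc
  have hroot : (cyclotomic p ℤ).eval₂ (Int.castRingHom K) (z ^ i) = 0 := by
    apply hι
    rw [hom_eval₂, map_zero, map_pow, hi,
      show ι.comp (Int.castRingHom K) = (iotaC p).comp (AdjoinRoot.of (cyclotomic p ℤ)) from
        RingHom.ext_int _ _, ← hom_eval₂, AdjoinRoot.eval₂_root, map_zero]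
  refine ⟨AdjoinRoot.lift (Int.castRingHom K) (z ^ i) hroot, RingHom.ext fun a => ?_⟩
  induction a using AdjoinRoot.induction_on with
  | ih g =>
    rw [RingHom.comp_apply, AdjoinRoot.lift_mk, hom_eval₂, map_pow, hi, ← AdjoinRoot.aeval_eq,
      aeval_def, hom_eval₂]
    congr 1
    exact RingHom.ext_int _ _

/-- The modular relation at `x` through `hPoly` at `1/x`. -/
theorem phiAt_eq_hPoly {p : ℕ} [NeZero p] {k : Type} [Field k] (hp : 2 ≤ p) (D : PolyData p)
    (f : ZetaRing p →+* k) {x : k} (hx : x ≠ 0) :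
    phiAt D f x =
      C (x ^ (p * (p + 1))) * ((hPoly D f).map (evalRingHom x⁻¹)).comp (C ((x ^ p)⁻¹) * X) := by
  have hS := phiShape hp D
  rw [(phiAt D f x).as_sum_range' (p + 2) (by
    rw [phiAt, D.Φ_monic.natDegree_map, hS.natDegree_eq]; omega), hPoly, Polynomial.map_sum,
    sum_comp, Finset.mul_sum]
  refine Finset.sum_congr rfl fun i hi => ?_
  rw [Finset.mem_range] at hi
  have hd : ((D.Φ.coeff i).map f).natDegree ≤ p * (p + 1 - i) := by
    refine natDegree_map_le.trans ?_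
    rcases Nat.eq_zero_or_pos i with rfl | h0
    · have := hS.coeff_zero_le
      simp only [Nat.sub_zero]
      nlinarith
    · rcases Nat.lt_or_ge i (p + 1) with h1 | h1
      · have := hS.coeff_le i h0
        have h2 : 1 ≤ p + 1 - i := by omega
        nlinarith
      · obtain rfl : i = D.Φ.natDegree := by rw [hS.natDegree_eq]; omega
        rw [D.Φ_monic.coeff_natDegree, natDegree_one]
        exact Nat.zero_le _
  rw [phiAt, Polynomial.coeff_map, coe_eval₂RingHom, ← C_mul_X_pow_eq_monomial,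
    Polynomial.map_mul, map_C, Polynomial.map_pow, map_X, mul_comp, C_comp, pow_comp, X_comp,
    mul_pow, ← C_pow, ← mul_assoc, ← mul_assoc, ← C_mul, ← C_mul, coe_evalRingHom]
  congr 2
  let : Invertible x := invertibleOfNonzero hx
  have h := eval₂_reflect_mul_pow (RingHom.id k) x _ _ hd
  rw [invOf_eq_inv, eval₂_map] at h
  simp only [RingHomCompTriple.comp_eq] at h
  rw [← h, eval]
  have hpow : x ^ (p * (p + 1)) = x ^ (p * (p + 1 - i)) * (x ^ p) ^ i := by
    rw [← pow_mul, ← pow_add, ← Nat.mul_add]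
    congr 2
    omega
  rw [hpow, inv_pow]
  field_simp

/-- The point is a simple root of the relation once the other roots differ from it. -/
theorem val2_hPoly_of_roots {p : ℕ} [NeZero p] {k : Type} [Field k] (hp : 2 ≤ p) (D : PolyData p)
    (f : ZetaRing p →+* k) {x : k} (hx : x ≠ 0) {ι : Type} [Fintype ι] [DecidableEq ι] (r : ι → k)
    (hr : phiAt D f x = ∏ i, (X - C (r i))) (i₀ : ι) (hne : ∀ i, i ≠ i₀ → r i ≠ r i₀) :
    val2 x⁻¹ (r i₀ / x ^ p) (hPoly D f) = 0 ∧
      val2 x⁻¹ (r i₀ / x ^ p) (derivative (hPoly D f)) ≠ 0 := by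
  have hval : ∀ P : Polynomial (Polynomial k),
      val2 x⁻¹ (r i₀ / x ^ p) P = (P.map (evalRingHom x⁻¹)).eval (r i₀ / x ^ p) := fun P => by
    rw [val2, coe_eval₂RingHom, eval_map]
  have he := phiAt_eq_hPoly hp D f hx
  have hb : (x ^ p)⁻¹ * r i₀ = r i₀ / x ^ p := (div_eq_inv_mul _ _).symm
  constructor
  · have h0 : (phiAt D f x).eval (r i₀) = 0 := by
      rw [hr, eval_prod]
      exact Finset.prod_eq_zero (Finset.mem_univ i₀) (by simp)
    rw [he, eval_mul, eval_C, eval_comp, eval_mul, eval_C, eval_X, hb] at h0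
    rw [hval]
    exact (mul_eq_zero.mp h0).resolve_left (pow_ne_zero _ hx)
  · have h1 : (derivative (phiAt D f x)).eval (r i₀) =
        ∏ i ∈ Finset.univ.erase i₀, (r i₀ - r i) := by
      rw [hr, ← Finset.mul_prod_erase _ _ (Finset.mem_univ i₀), derivative_mul]
      simp [eval_prod]
    have h2 : (derivative (phiAt D f x)).eval (r i₀) ≠ 0 := by
      rw [h1]
      exact Finset.prod_ne_zero_iff.mpr fun i hi =>
        sub_ne_zero.mpr (hne i (Finset.ne_of_mem_erase hi)).symm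
    intro h
    apply h2
    rw [he, derivative_C_mul, eval_mul, eval_C, derivative_comp, eval_mul, eval_comp, eval_mul,
      eval_C, eval_X, hb, derivative_map, ← hval, h, mul_zero, mul_zero]

section Curve

variable {W : WeierstrassCurve ℤ} {A : ValuationSubring (AlgebraicClosure ℚ)} {q : ℕ}

local notation "Qb" => AlgebraicClosure ℚ

/-- The curve over `Q̄`. -/
local notation "WK" => ((W.map (Int.castRingHom ℚ))⁄(AlgebraicClosure ℚ))

theorem map_int_coeffs :
    (WK).a₁ = (W.a₁ : Qb) ∧ (WK).a₂ = (W.a₂ : Qb) ∧ (WK).a₃ = (W.a₃ : Qb) ∧ (WK).a₄ = (W.a₄ : Qb) ∧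
      (WK).a₆ = (W.a₆ : Qb) := by
  simp [WeierstrassCurve.baseChange]

theorem map_int_invariants :
    (WK).Δ = (W.Δ : Qb) ∧ (WK).c₄ = (W.c₄ : Qb) := by
  simp [WeierstrassCurve.baseChange]

theorem intAt_int : IntAt A WK := by
  obtain ⟨h1, h2, h3, h4, h6⟩ := map_int_coeffs (W := W)
  constructor
  · rw [h1]; exact val_intCast_le A _
  · rw [h2]; exact val_intCast_le A _
  · rw [h3]; exact val_intCast_le A _
  · rw [h4]; exact val_intCast_le A _
  · rw [h6]; exact val_intCast_le A _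

theorem residue_eq_zero_iff_val_lt (a : A) :
    IsLocalRing.residue A a = 0 ↔ A.valuation (a : Qb) < 1 := by
  rw [IsLocalRing.residue_eq_zero_iff, A.valuation_lt_one_iff]

/-- The notion of identity component in the statements agrees with nonsingular reduction. -/
theorem inZeroComponentAt_iff (P : (WK).Point) :
    W.InZeroComponentAt A P ↔ InE0 A WK P := by
  obtain ⟨h1, h2, h3, h4, h6⟩ := map_int_coeffs (W := W)
  rcases P with _ | ⟨x, y, h⟩
  · exact iff_of_true (Or.inl rfl) trivial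
  rw [inE0_some]
  have hmap : ∀ n : ℤ, ((IsLocalRing.residue A) (n : A)) = (n : IsLocalRing.ResidueField A) :=
    fun n => map_intCast _ n
  have key : ∀ (hx : x ∈ A) (hy : y ∈ A),
      (W.map (Int.castRingHom (IsLocalRing.ResidueField A))).toAffine.Nonsingular
        (IsLocalRing.residue A ⟨x, hx⟩) (IsLocalRing.residue A ⟨y, hy⟩) ↔
      ¬ ResSingular A WK x y := by
    intro hx hy
    set X₀ : A := ⟨x, hx⟩
    set Y₀ : A := ⟨y, hy⟩
    set dXA : A := (W.a₁ : A) * Y₀ - (3 * X₀ ^ 2 + 2 * (W.a₂ : A) * X₀ + (W.a₄ : A)) with hdXA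
    set dYA : A := 2 * Y₀ + (W.a₁ : A) * X₀ + (W.a₃ : A) with hdYA
    have hdX : (dXA : Qb) = dX WK x y := by
      simp only [hdXA, dX, h1, h2, h4]
      push_cast
      rfl
    have hdY : (dYA : Qb) = dY WK x y := by
      simp only [hdYA, dY, h1, h3]
      push_cast
      rfl
    set EA : A := Y₀ ^ 2 + (W.a₁ : A) * X₀ * Y₀ + (W.a₃ : A) * Y₀ -
      (X₀ ^ 3 + (W.a₂ : A) * X₀ ^ 2 + (W.a₄ : A) * X₀ + (W.a₆ : A)) with hEA
    have hE : EA = 0 := by
      apply Subtype.ext
      simp only [hEA]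
      push_cast
      have he := (Affine.equation_iff x y).1 h.1
      simp only [h1, h2, h3, h4, h6] at he
      exact sub_eq_zero.2 he
    have hE' := congrArg (IsLocalRing.residue A) hE
    simp only [hEA, map_sub, map_add, map_mul, map_pow, map_zero, map_intCast] at hE'
    rw [Affine.nonsingular_iff, Affine.equation_iff]
    simp only [map_a₁, map_a₂, map_a₃, map_a₄, map_a₆, eq_intCast]
    have hs : ResSingular A WK x y ↔
        IsLocalRing.residue A dXA = 0 ∧ IsLocalRing.residue A dYA = 0 := by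
      rw [residue_eq_zero_iff_val_lt, residue_eq_zero_iff_val_lt, hdX, hdY]
      exact ⟨fun hh => ⟨hh.2.2.1, hh.2.2.2⟩,
        fun hh => ⟨(A.valuation_le_one_iff x).2 hx, (A.valuation_le_one_iff y).2 hy, hh⟩⟩
    rw [hs, not_and_or]
    have hdXr : IsLocalRing.residue A dXA =
        (W.a₁ : IsLocalRing.ResidueField A) * IsLocalRing.residue A Y₀ -
        (3 * IsLocalRing.residue A X₀ ^ 2 + 2 * W.a₂ * IsLocalRing.residue A X₀ + W.a₄) := by
      simp [hdXA, map_ofNat]
    have hdYr : IsLocalRing.residue A dYA = 2 * IsLocalRing.residue A Y₀ +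
        (W.a₁ : IsLocalRing.ResidueField A) * IsLocalRing.residue A X₀ + W.a₃ := by
      simp [hdYA, map_ofNat]
    constructor
    · rintro ⟨-, hn | hn⟩
      · exact Or.inl fun h0 => hn (sub_eq_zero.1 (hdXr ▸ h0))
      · exact Or.inr fun h0 => hn (by rw [hdYr] at h0; linear_combination h0)
    · intro hn
      refine ⟨sub_eq_zero.1 hE', hn.imp (fun hn h0 => hn ?_) fun hn h0 => hn ?_⟩
      · rw [hdXr, h0, sub_self]
      · rw [hdYr]; linear_combination h0
  constructor
  · rintro (h0 | ⟨x', y', h', he, hc⟩)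
    · exact absurd h0 (Affine.Point.some_ne_zero _)
    obtain ⟨rfl, rfl⟩ := (Affine.Point.some.injEq ..).mp he
    rcases hc with hx | ⟨hx, hy, hn⟩
    · exact fun hs => hx ((A.valuation_le_one_iff x).1 hs.1)
    · exact (key hx hy).1 hn
  · intro hns
    refine Or.inr ⟨x, y, h, rfl, ?_⟩
    by_cases hx : x ∈ A
    · have hy : y ∈ A := (A.valuation_le_one_iff y).1 (val_le_of_monic_quadratic intAt_int
        ((A.valuation_le_one_iff x).2 hx) ((Affine.equation_iff x y).1 h.1))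
      exact Or.inr ⟨hx, hy, (key hx hy).2 hns⟩
    · exact Or.inl hx

end Curve

/-- The data extracted from the curve. -/
structure CurvePoint (p : ℕ) [NeZero p] (W : WeierstrassCurve ℤ)
    (Q : ((W.map (Int.castRingHom ℚ))⁄(AlgebraicClosure ℚ)).Point)
    (f : ZetaRing p →+* AlgebraicClosure ℚ) (a b : AlgebraicClosure ℚ) : Prop where
  fixed : ∀ σ : AlgebraicClosure ℚ ≃ₐ[ℚ] AlgebraicClosure ℚ, σ a = a ∧ σ b = b
  on : ∀ (hp : p.Prime), val2 a b (hPoly (phiData hp) f) = 0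
  simple : ∀ (hp : p.Prime), val2 a b (derivative (hPoly (phiData hp) f)) ≠ 0
  at_pole : ∀ q : ℕ, q.Prime → q ≠ p → (q : ℤ) ∣ W.Δ → ¬ (q : ℤ) ∣ W.c₄ →
    ∀ A : ValuationSubring (AlgebraicClosure ℚ), A.LiesOverPrime q →
      A.valuation a < 1 ∧ (¬ W.InZeroComponentAt A Q → A.valuation b < 1) ∧
        (5 ≤ q → W.InZeroComponentAt A Q → A.valuation b = 1)

theorem exists_curvePoint {p : ℕ} [NeZero p] (hp : p.Prime) (hp5 : 5 ≤ p) (W : WeierstrassCurve ℤ)
    (hΔ : W.Δ ≠ 0) (Q : ((W.map (Int.castRingHom ℚ))⁄(AlgebraicClosure ℚ)).Point)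
    (hQfix : ∀ σ : AlgebraicClosure ℚ ≃ₐ[ℚ] AlgebraicClosure ℚ, σ • Q = Q)
    (hQord : addOrderOf Q = p)
    {ℓ : ℕ} (hℓ : ℓ.Prime) (hℓ5 : 5 ≤ ℓ) (hℓp : ℓ ≠ p) (hℓΔ : (ℓ : ℤ) ∣ W.Δ)
    (hℓc₄ : ¬ (ℓ : ℤ) ∣ W.c₄) {A₀ : ValuationSubring (AlgebraicClosure ℚ)}
    (hA₀ : A₀.LiesOverPrime ℓ) (hin : W.InZeroComponentAt A₀ Q) :
    ∃ f a b, CurvePoint p W Q f a b := by
  classical
  have : Fact p.Prime := ⟨hp⟩
  have hp2 : p ≠ 2 := by omega
  have hpodd : Odd p := hp.odd_of_ne_two hp2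
  set ι : AlgebraicClosure ℚ →ₐ[ℚ] ℂ := IsAlgClosed.lift with hι
  obtain ⟨f, hf⟩ := exists_hom_comp_iota p ι.toRingHom
  obtain ⟨hΔK, hc₄K⟩ := map_int_invariants (W := W)
  have hc₄0 : W.c₄ ≠ 0 := fun h => hℓc₄ (h ▸ dvd_zero _)
  have hc₆0 : W.c₆ ≠ 0 := by
    intro h
    have hc := W.c_relation
    rw [h] at hc
    refine hℓc₄ ((Int.prime_iff_natAbs_prime.2 (by simpa using hℓ)).dvd_of_dvd_pow (n := 3) ?_)
    rw [show W.c₄ ^ 3 = 1728 * W.Δ by linear_combination -hc]
    exact dvd_mul_of_dvd_right hℓΔ _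
  obtain ⟨τ, R, hj, hR, hcover, hgen⟩ := exists_lines (W.map (Int.castRingHom ℚ))
    (K := AlgebraicClosure ℚ) ι (p := p) hp2
    (by simpa using hΔ) (by simpa using hc₄0) (by simpa using hc₆0)
  have hQp : p • Q = 0 := hQord ▸ addOrderOf_nsmul_eq_zero Q
  have hQ0 : Q ≠ 0 := fun h => hp.ne_one (by rw [← hQord, h, addOrderOf_zero])
  obtain ⟨i₀, k, hk⟩ := hcover Q hQp hQ0
  have hkp : ¬ p ∣ k := fun ⟨c, hc⟩ =>
    hQ0 (by rw [hk, hc, mul_comm, mul_nsmul', (hR i₀).1, nsmul_zero])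
  obtain ⟨k', hk'⟩ : ∃ k' : ℕ, R i₀ = k' • Q := by
    refine ⟨((k : ZMod p)⁻¹).val, ?_⟩
    rw [hk, ← mul_nsmul']
    have hone : (((((k : ZMod p)⁻¹).val * k : ℕ) : ZMod p)) = ((1 : ℕ) : ZMod p) := by
      rw [Nat.cast_mul, ZMod.natCast_zmod_val, Nat.cast_one,
        inv_mul_cancel₀ (by rwa [Ne, ZMod.natCast_eq_zero_iff])]
    rw [(nsmul_eq_nsmul_iff_modEq.2 ((ZMod.natCast_eq_natCast_iff _ _ _).1 hone |>.of_dvd
      (addOrderOf_dvd_of_nsmul_eq_zero (hR i₀).1))), one_nsmul]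
  -- the roots of the modular relation
  set x : AlgebraicClosure ℚ :=
    algebraMap ℚ _ ((W.map (Int.castRingHom ℚ)).c₄ ^ 3 / (W.map (Int.castRingHom ℚ)).Δ) with hx
  have hxK : x = ((W.map (Int.castRingHom ℚ))⁄(AlgebraicClosure ℚ)).c₄ ^ 3 /
      ((W.map (Int.castRingHom ℚ))⁄(AlgebraicClosure ℚ)).Δ := by
    simp [hx, WeierstrassCurve.baseChange, map_div₀]
  have hx0 : x ≠ 0 := by
    rw [hxK, hc₄K, hΔK]
    exact div_ne_zero (pow_ne_zero _ (Int.cast_ne_zero.2 hc₄0)) (Int.cast_ne_zero.2 hΔ)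
  set r : Option (ZMod p) → AlgebraicClosure ℚ := fun i =>
    jIsoVal ((W.map (Int.castRingHom ℚ))⁄(AlgebraicClosure ℚ)) p (R i) with hrdef
  have hroots : phiAt (phiData hp) f x = ∏ i, (X - C (r i)) := by
    refine Polynomial.map_injective ι.toRingHom ι.toRingHom.injective ?_
    rw [phiAt_map, hf, Polynomial.map_prod,
      show ι.toRingHom x = FLTAgent.ModularFF.jFun τ from hj.symm, phiAt_iotaC]
    refine Finset.prod_congr rfl fun i _ => ?_
    rw [Polynomial.map_sub, map_X, map_C]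
    exact congrArg (fun z => X - C z) (hR i).2.2.symm
  -- at a place of multiplicative reduction
  have hloc : ∀ q : ℕ, q.Prime → q ≠ p → (q : ℤ) ∣ W.Δ → ¬ (q : ℤ) ∣ W.c₄ →
      ∀ A : ValuationSubring (AlgebraicClosure ℚ), A.LiesOverPrime q →
        1 < A.valuation x ∧
        ((¬ W.InZeroComponentAt A Q → A.valuation (r i₀) < A.valuation x ^ p) ∧
        (5 ≤ q → W.InZeroComponentAt A Q → A.valuation (r i₀) = A.valuation x ^ p ∧
          ∀ i, i ≠ i₀ → A.valuation (r i) < A.valuation x ^ p)) := by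
    intro q hq hqp hqΔ hqc₄ A hA
    have hvΔ : A.valuation ((W.map (Int.castRingHom ℚ))⁄(AlgebraicClosure ℚ)).Δ < 1 := by
      rw [hΔK]; exact val_int_lt hA hqΔ
    have hvc₄ : A.valuation ((W.map (Int.castRingHom ℚ))⁄(AlgebraicClosure ℚ)).c₄ = 1 := by
      rw [hc₄K]; exact val_int_eq_one hq hA hqc₄
    have hΔK0 : ((W.map (Int.castRingHom ℚ))⁄(AlgebraicClosure ℚ)).Δ ≠ 0 := by
      rw [hΔK]; exact Int.cast_ne_zero.2 hΔ
    have hvp : A.valuation (p : AlgebraicClosure ℚ) = 1 :=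
      val_nat_eq_one hq hA fun h => hqp ((Nat.prime_dvd_prime_iff_eq hq hp).1 h)
    have hx1 : 1 < A.valuation x := by
      rw [hxK, map_div₀ A.valuation, map_pow, hvc₄, one_pow,
        one_lt_div₀ (A.valuation.pos_iff.2 hΔK0)]
      exact hvΔ
    have hout : ∀ i, ¬ InE0 A ((W.map (Int.castRingHom ℚ))⁄(AlgebraicClosure ℚ)) (R i) →
        A.valuation (r i) < A.valuation x ^ p := fun i hi => by
      rw [hxK]
      exact val_jIsoVal_lt intAt_int hΔK0 hvc₄ hp.two_le hpodd hvp (hR i).1 hi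
    have hiff : W.InZeroComponentAt A Q ↔
        InE0 A ((W.map (Int.castRingHom ℚ))⁄(AlgebraicClosure ℚ)) (R i₀) := by
      rw [inZeroComponentAt_iff]
      constructor
      · intro h
        rw [hk']
        exact (mem_E0 (hW := intAt_int)).1 (nsmul_mem ((mem_E0 (hW := intAt_int)).2 h) k')
      · intro h
        rw [hk]
        exact (mem_E0 (hW := intAt_int)).1 (nsmul_mem ((mem_E0 (hW := intAt_int)).2 h) k)
    refine ⟨hx1, fun h => hout i₀ (hiff.not.1 h), fun hq5 h => ?_⟩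
    have hv : ∀ n : ℕ, ¬ q ∣ n → A.valuation (n : AlgebraicClosure ℚ) = 1 :=
      fun n hn => val_nat_eq_one hq hA hn
    have hothers : ∀ i, i ≠ i₀ → A.valuation (r i) < A.valuation x ^ p := fun i hi =>
      hout i (not_inE0_or intAt_int
        (by simpa using hv 2 fun h => by have := Nat.le_of_dvd (by norm_num) h; omega)
        (by simpa using hv 3 fun h => by have := Nat.le_of_dvd (by norm_num) h; omega)
        hvc₄ hvΔ hΔK0 (by omega) hpodd hvp (hgen i₀ i hi.symm) (hiff.1 h))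
    obtain ⟨i₁, hi₁, -⟩ := valuation_roots A (D := phiData hp) hp.two_le f hx1 hroots
    have : i₁ = i₀ := by
      by_contra hne
      exact (hothers i₁ hne).ne hi₁
    exact ⟨this ▸ hi₁, hothers⟩
  obtain ⟨hx₀, -, hins⟩ := hloc ℓ hℓ hℓp hℓΔ hℓc₄ A₀ hA₀
  obtain ⟨hbig, hsmall⟩ := hins hℓ5 hin
  have hne : ∀ i, i ≠ i₀ → r i ≠ r i₀ := fun i hi he => (hsmall i hi).ne (he ▸ hbig)
  obtain ⟨hon, hsimple⟩ := val2_hPoly_of_roots hp.two_le (phiData hp) f hx0 r hroots i₀ hne
  refine ⟨f, x⁻¹, r i₀ / x ^ p, ⟨fun σ => ?_, fun _ => hon, fun _ => hsimple,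
    fun q hq hqp hqΔ hqc₄ A hA => ?_⟩⟩
  · have hσx : σ x = x := σ.commutes _
    have hσR : Affine.Point.map (W' := (W.map (Int.castRingHom ℚ)).toAffine) σ.toAlgHom (R i₀) =
        R i₀ := by
      rw [hk', map_nsmul]
      exact congrArg (k' • ·) (hQfix σ)
    have hσr : σ (r i₀) = r i₀ := by
      have h := jIsoVal_map (W.map (Int.castRingHom ℚ)).toAffine σ.toAlgHom p (R i₀)
      rw [hσR] at h
      exact h.symm
    exact ⟨by rw [map_inv₀, hσx], by rw [map_div₀, map_pow, hσx, hσr]⟩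
  · obtain ⟨hx1, hout, hins'⟩ := hloc q hq hqp hqΔ hqc₄ A hA
    have hxp : 0 < A.valuation x ^ p := pow_pos (zero_lt_one.trans hx1) p
    refine ⟨?_, fun h => ?_, fun hq5 h => ?_⟩
    · rw [map_inv₀]
      exact inv_lt_one_of_one_lt₀ hx1
    · rw [map_div₀, map_pow, div_lt_one₀ hxp]
      exact hout h
    · rw [map_div₀, map_pow, (hins' hq5 h).1, div_self hxp.ne']

end FLTAgent.MazurModuli
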