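import Fermat.Agent.GaloisImage.Monomial
import Fermat.Agent.MazurModuli.Addition
import Mathlib.AlgebraicGeometry.EllipticCurve.Affine.Point
import Mathlib.Data.ZMod.Basic
import Mathlib.Algebra.Field.ZMod

/-!
# Points of odd prime order of a curve over `ℂ` from a lattice

For `Uniformises L W` the map `pt` sends `z` to a point of `W`, and `torsHom` is the injective
homomorphism from `(ZMod p) × (ZMod p)` to the points of order dividing `p`. Used by `JIso`.
-/

set_option autoImplicit false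

noncomputable section

open scoped PeriodPair

namespace FLTAgent.MazurModuli

open WeierstrassCurve
open FLTAgent.LevelM (weierstrassP_periodic' derivWeierstrassP_periodic' weierstrassP_eq_iff)

/-- The lattice `L` uniformises `W`. -/
structure Uniformises (L : PeriodPair) (W : WeierstrassCurve ℂ) : Prop where
  c₄_eq : W.c₄ = 12 * L.g₂
  c₆_eq : W.c₆ = 216 * L.g₃
  Δ_ne : W.Δ ≠ 0

variable {L : PeriodPair} {W : WeierstrassCurve ℂ}

/-- The abscissa of the point of `z`. -/
def uX (L : PeriodPair) (W : WeierstrassCurve ℂ) (z : ℂ) : ℂ := ℘[L] z - W.b₂ / 12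

/-- The ordinate of the point of `z`. -/
def uY (L : PeriodPair) (W : WeierstrassCurve ℂ) (z : ℂ) : ℂ :=
  (℘'[L] z - W.a₁ * uX L W z - W.a₃) / 2

theorem uX_periodic {z l : ℂ} (hl : l ∈ L.lattice) : uX L W (z + l) = uX L W z := by
  rw [uX, uX, weierstrassP_periodic' hl]

theorem uY_periodic {z l : ℂ} (hl : l ∈ L.lattice) : uY L W (z + l) = uY L W z := by
  rw [uY, uY, uX_periodic hl, derivWeierstrassP_periodic' hl]

namespace Uniformises

variable (hU : Uniformises L W)

include hU

theorem equation {z : ℂ} (hz : z ∉ L.lattice) :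
    W.toAffine.Equation (uX L W z) (uY L W z) := by
  rw [Affine.equation_iff]
  have h1 := L.derivWeierstrassP_sq z hz
  have h4 := hU.c₄_eq
  have h6 := hU.c₆_eq
  simp only [WeierstrassCurve.c₄, WeierstrassCurve.c₆, WeierstrassCurve.b₂, WeierstrassCurve.b₄,
    WeierstrassCurve.b₆] at h4 h6
  simp only [uY, uX, WeierstrassCurve.b₂]
  linear_combination h1 / 4 + (℘[L] z / 48) * h4 + (1 / 864 : ℂ) * h6

theorem nonsingular {z : ℂ} (hz : z ∉ L.lattice) :
    W.toAffine.Nonsingular (uX L W z) (uY L W z) :=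
  (Affine.equation_iff_nonsingular_of_Δ_ne_zero hU.Δ_ne).mp (hU.equation hz)

open scoped Classical in
/-- The point of `z`. -/
def pt (z : ℂ) : W.toAffine.Point :=
  if hz : z ∈ L.lattice then 0 else .some _ _ (hU.nonsingular hz)

theorem pt_of_mem {z : ℂ} (hz : z ∈ L.lattice) : hU.pt z = 0 := by rw [pt, dif_pos hz]

theorem pt_of_notMem {z : ℂ} (hz : z ∉ L.lattice) :
    hU.pt z = .some _ _ (hU.nonsingular hz) := by rw [pt, dif_neg hz]

theorem pt_eq_zero_iff {z : ℂ} : hU.pt z = 0 ↔ z ∈ L.lattice := by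
  refine ⟨fun h => ?_, hU.pt_of_mem⟩
  by_contra hz
  rw [hU.pt_of_notMem hz] at h
  exact Affine.Point.some_ne_zero _ h

theorem pt_congr {z w : ℂ} (h : z - w ∈ L.lattice) : hU.pt z = hU.pt w := by
  by_cases hw : w ∈ L.lattice
  · rw [hU.pt_of_mem hw, hU.pt_of_mem (by simpa using add_mem h hw)]
  · have hz : z ∉ L.lattice := fun hz => hw (by simpa using sub_mem hz h)
    rw [hU.pt_of_notMem hz, hU.pt_of_notMem hw]
    have e : z = w + (z - w) := by ring
    simp only [Affine.Point.some.injEq]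
    exact ⟨by conv_lhs => rw [e, uX_periodic h], by conv_lhs => rw [e, uY_periodic h]⟩

theorem pt_neg (z : ℂ) : hU.pt (-z) = -hU.pt z := by
  by_cases hz : z ∈ L.lattice
  · rw [hU.pt_of_mem hz, hU.pt_of_mem (neg_mem hz), neg_zero]
  · rw [hU.pt_of_notMem hz, hU.pt_of_notMem (by simpa using hz), Affine.Point.neg_some]
    simp only [Affine.Point.some.injEq, uY, uX, Affine.negY, L.weierstrassP_neg,
      L.derivWeierstrassP_neg, true_and]
    ring

theorem pt_two_mul [DecidableEq ℂ] {z : ℂ} (hz : z ∉ L.lattice) (h2 : 2 * z ∉ L.lattice) :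
    hU.pt (2 * z) = hU.pt z + hU.pt z := by
  have hne : ℘'[L] z ≠ 0 := derivWeierstrassP_ne_zero hz h2
  have hy : uY L W z ≠ W.toAffine.negY (uX L W z) (uY L W z) := fun h => hne (by
    simp only [Affine.negY, uY] at h
    linear_combination h)
  rw [hU.pt_of_notMem hz, Affine.Point.add_self_of_Y_ne hy, hU.pt_of_notMem h2]
  obtain ⟨hX, hY⟩ := weierstrassP_two_mul hz h2
  set q := (6 * ℘[L] z ^ 2 - L.g₂ / 2) / ℘'[L] z with hq
  have hqm : q * ℘'[L] z = 6 * ℘[L] z ^ 2 - L.g₂ / 2 := by rw [hq, div_mul_cancel₀ _ hne]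
  have h4 := hU.c₄_eq
  simp only [WeierstrassCurve.c₄, WeierstrassCurve.b₂, WeierstrassCurve.b₄] at h4
  have hl : W.toAffine.slope (uX L W z) (uX L W z) (uY L W z) (uY L W z) = (q - W.a₁) / 2 := by
    rw [Affine.slope_of_Y_ne rfl hy, div_eq_iff (sub_ne_zero.mpr hy)]
    simp only [uY, uX, Affine.negY, WeierstrassCurve.b₂]
    linear_combination (-1 / 2 : ℂ) * hqm + (-1 / 48 : ℂ) * h4
  simp only [Affine.Point.some.injEq, Affine.addX, Affine.addY, Affine.negAddY]
  rw [hl]
  simp only [Affine.negY]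
  constructor
  · simp only [uX, WeierstrassCurve.b₂]
    linear_combination hX
  · simp only [uY, uX, WeierstrassCurve.b₂]
    rw [hY, hX]
    ring

theorem pt_add_of_generic [DecidableEq ℂ] {a z : ℂ} (ha : a ∉ L.lattice) (h2 : 2 * a ∉ L.lattice)
    (hz : z ∉ L.lattice) (hz2 : 2 * z ∉ L.lattice) (hza : z + a ∉ L.lattice)
    (hza' : z - a ∉ L.lattice) : hU.pt (z + a) = hU.pt z + hU.pt a := by
  have hne : ℘[L] z - ℘[L] a ≠ 0 := weierstrassP_ne ha hz hza hza'
  have hx : uX L W z ≠ uX L W a := fun h => hne (by simp only [uX] at h; linear_combination h)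
  rw [hU.pt_of_notMem hz, hU.pt_of_notMem ha, Affine.Point.add_of_X_ne hx, hU.pt_of_notMem hza]
  have hX := weierstrassP_add ha h2 hz hza hza'
  have hY := derivWeierstrassP_add ha h2 hz hz2 hza hza'
  set q := chord L a z with hq
  have hqm : q * (℘[L] z - ℘[L] a) = ℘'[L] z - ℘'[L] a := by
    rw [hq, chord, div_mul_cancel₀ _ hne]
  have hl : W.toAffine.slope (uX L W z) (uX L W a) (uY L W z) (uY L W a) = (q - W.a₁) / 2 := by
    rw [Affine.slope_of_X_ne hx, div_eq_iff (sub_ne_zero.mpr hx)]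
    simp only [uY, uX]
    linear_combination (-1 / 2 : ℂ) * hqm
  simp only [Affine.Point.some.injEq, Affine.addX, Affine.addY, Affine.negAddY]
  rw [hl]
  simp only [Affine.negY]
  constructor
  · simp only [uX, WeierstrassCurve.b₂]
    linear_combination hX
  · simp only [uY, uX, WeierstrassCurve.b₂]
    rw [hY, hX]
    ring

end Uniformises

/-- The point of `ℂ / L` with coordinates `T / p`. -/
def torsPt (L : PeriodPair) (p : ℕ) (T : ZMod p × ZMod p) : ℂ :=
  ((T.1.val : ℂ) * L.ω₁ + (T.2.val : ℂ) * L.ω₂) / p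

section Torsion

variable {p : ℕ} [Fact p.Prime]

theorem torsPt_mem_iff (T : ZMod p × ZMod p) : torsPt L p T ∈ L.lattice ↔ T = 0 := by
  have hp : (p : ℂ) ≠ 0 := Nat.cast_ne_zero.mpr (Fact.out : p.Prime).ne_zero
  constructor
  · intro h
    obtain ⟨m, n, hmn⟩ := PeriodPair.mem_lattice.mp h
    rw [torsPt, eq_div_iff hp] at hmn
    have := LinearIndependent.pair_iff.mp L.indep ((T.1.val : ℝ) - m * p) ((T.2.val : ℝ) - n * p)
      (by simp [Complex.real_smul, -ZMod.natCast_val]; linear_combination -hmn)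
    have key : ∀ (x : ZMod p) (k : ℤ), (x.val : ℝ) - k * p = 0 → x = 0 := fun x k hk => by
      have : (x.val : ℤ) = k * p := by exact_mod_cast sub_eq_zero.mp hk
      rw [← ZMod.natCast_zmod_val x, show ((x.val : ℕ) : ZMod p) = ((x.val : ℤ) : ZMod p) by simp,
        this]
      simp
    exact Prod.ext (key _ _ this.1) (key _ _ this.2)
  · rintro rfl
    simp [torsPt]

theorem torsPt_add (T U : ZMod p × ZMod p) :
    torsPt L p (T + U) - (torsPt L p T + torsPt L p U) ∈ L.lattice := by
  have hp : (p : ℂ) ≠ 0 := Nat.cast_ne_zero.mpr (Fact.out : p.Prime).ne_zero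
  have key : ∀ x y : ZMod p, ∃ k : ℤ, ((x + y).val : ℂ) = x.val + y.val + k * p := fun x y => by
    obtain ⟨k, hk⟩ : (p : ℤ) ∣ ((x + y).val : ℤ) - (x.val + y.val) := by
      rw [← ZMod.intCast_zmod_eq_zero_iff_dvd]
      simp
    exact ⟨k, by
      have : ((x + y).val : ℤ) = x.val + y.val + k * p := by rw [mul_comm k]; linarith
      exact_mod_cast this⟩
  obtain ⟨k, hk⟩ := key T.1 U.1
  obtain ⟨k', hk'⟩ := key T.2 U.2
  refine PeriodPair.mem_lattice.mpr ⟨k, k', ?_⟩
  rw [torsPt, torsPt, torsPt, Prod.fst_add, Prod.snd_add, hk, hk']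
  field_simp
  ring

theorem two_torsPt_notMem (hp2 : p ≠ 2) {T : ZMod p × ZMod p} (hT : T ≠ 0) :
    2 * torsPt L p T ∉ L.lattice := by
  intro h
  have h' : torsPt L p (T + T) ∈ L.lattice := by
    convert add_mem (torsPt_add (L := L) T T) h using 1
    ring
  have hT2 := (torsPt_mem_iff (T + T)).mp h'
  refine hT (Prod.ext ?_ ?_)
  · exact (mul_eq_zero.mp (show (2 : ZMod p) * T.1 = 0 by
      rw [two_mul]; exact congrArg Prod.fst hT2)).resolve_left
        (GaloisImage.two_ne_zero_of_ne_two hp2)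
  · exact (mul_eq_zero.mp (show (2 : ZMod p) * T.2 = 0 by
      rw [two_mul]; exact congrArg Prod.snd hT2)).resolve_left
        (GaloisImage.two_ne_zero_of_ne_two hp2)

namespace Uniformises

variable (hU : Uniformises L W) (hp2 : p ≠ 2) [DecidableEq ℂ]

include hU hp2

theorem pt_torsPt_add (T U : ZMod p × ZMod p) :
    hU.pt (torsPt L p (T + U)) = hU.pt (torsPt L p T) + hU.pt (torsPt L p U) := by
  rw [hU.pt_congr (torsPt_add T U)]
  set z := torsPt L p T
  set a := torsPt L p U
  rcases eq_or_ne T 0 with hT | hT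
  · have hz : z ∈ L.lattice := (torsPt_mem_iff T).mpr hT
    rw [hU.pt_of_mem hz, zero_add, hU.pt_congr (z := z + a) (w := a) (by simpa using hz)]
  rcases eq_or_ne U 0 with hU' | hU'
  · have ha : a ∈ L.lattice := (torsPt_mem_iff U).mpr hU'
    rw [hU.pt_of_mem ha, add_zero, hU.pt_congr (z := z + a) (w := z) (by simpa using ha)]
  have hz : z ∉ L.lattice := (torsPt_mem_iff T).not.mpr hT
  have ha : a ∉ L.lattice := (torsPt_mem_iff U).not.mpr hU'
  by_cases h1 : z + a ∈ L.lattice
  · rw [hU.pt_of_mem h1, hU.pt_congr (z := z) (w := -a) (by simpa using h1), hU.pt_neg,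
      neg_add_cancel]
  by_cases h2 : z - a ∈ L.lattice
  · rw [hU.pt_congr (z := z) (w := a) h2, ← hU.pt_two_mul ha (two_torsPt_notMem hp2 hU'),
      hU.pt_congr (z := z + a) (w := 2 * a) (by convert h2 using 1; ring)]
  exact hU.pt_add_of_generic ha (two_torsPt_notMem hp2 hU') hz (two_torsPt_notMem hp2 hT) h1 h2

/-- The points of order dividing `p`. -/
def torsHom : ZMod p × ZMod p →+ W.toAffine.Point :=
  AddMonoidHom.mk' (fun T => hU.pt (torsPt L p T)) (hU.pt_torsPt_add hp2)

theorem torsHom_apply (T : ZMod p × ZMod p) : hU.torsHom hp2 T = hU.pt (torsPt L p T) := rfl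

theorem torsHom_injective : Function.Injective (hU.torsHom (p := p) hp2) :=
  (injective_iff_map_eq_zero _).mpr fun T h =>
    (torsPt_mem_iff T).mp ((hU.pt_eq_zero_iff).mp h)

theorem torsHom_nsmul (k : ℕ) (T : ZMod p × ZMod p) :
    k • hU.torsHom hp2 T = hU.pt ((k : ℂ) * torsPt L p T) := by
  rw [← map_nsmul, torsHom_apply]
  refine hU.pt_congr ?_
  induction k with
  | zero => simp [torsPt]
  | succ k ih =>
    convert add_mem ih (torsPt_add (L := L) (k • T) T) using 1
    rw [succ_nsmul]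
    push_cast
    ring

end Uniformises

end Torsion

end FLTAgent.MazurModuli
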